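import Fermat.Agent.S55.L.CycRep
import Fermat.Agent.S55.B.Defs

/-!
# S55 chapter T, leaf (T1): dévissage for `p`-groups
-/

set_option autoImplicit false
set_option linter.unusedSectionVars false
set_option linter.unusedVariables false

namespace Fermat.Agent.S55Lib

open groupCohomology

/-- counting lemma -/
lemma DV_card {X Y : Type*} [AddCommGroup X] [AddCommGroup Y] [Finite Y] (φ : X →+ Y)
    (p : ℕ) (hp : 0 < p) (w : X) (hw : p • w = 0) (hker : φ.ker ≤ AddSubgroup.zmultiples w) :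
    Finite X ∧ Nat.card X ≤ p * Nat.card Y := by
  have ho : addOrderOf w ∣ p := addOrderOf_dvd_of_nsmul_eq_zero hw
  have ho1 : 0 < addOrderOf w := Nat.pos_of_dvd_of_pos ho hp
  have : Finite (AddSubgroup.zmultiples w) := by
    apply Nat.finite_of_card_ne_zero
    rw [Nat.card_zmultiples]; omega
  have h1 : Nat.card φ.ker ≤ p := by
    calc Nat.card φ.ker ≤ Nat.card (AddSubgroup.zmultiples w) := AddSubgroup.card_le_of_le hker
      _ = addOrderOf w := Nat.card_zmultiples w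
      _ ≤ p := Nat.le_of_dvd hp ho
  have : Finite φ.ker := Finite.of_injective (AddSubgroup.inclusion hker)
    (AddSubgroup.inclusion_injective hker)
  have h2 : Nat.card (X ⧸ φ.ker) = Nat.card φ.range :=
    Nat.card_congr (QuotientAddGroup.quotientKerEquivRange φ).toEquiv
  have h3 : Nat.card φ.range ≤ Nat.card Y := Nat.card_le_card_of_injective _ Subtype.val_injective
  have h4 : Nat.card X = Nat.card (X ⧸ φ.ker) * Nat.card φ.ker :=
    AddSubgroup.card_eq_card_quotient_mul_card_addSubgroup φ.ker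
  constructor
  · apply Nat.finite_of_card_ne_zero
    rw [h4, h2]
    exact Nat.mul_ne_zero Nat.card_pos.ne' Nat.card_pos.ne'
  · rw [h4, h2, mul_comm]
    exact Nat.mul_le_mul h1 h3

section Step

variable (p : ℕ) [Fact p.Prime] {P : Type} [Group P] {C : Type} [AddCommGroup C]
  [DistribMulAction P C] (χ : P →* Multiplicative (ZMod p)) (s : P)
  (hs : Multiplicative.toAdd (χ s) = ((1 : ℕ) : ZMod p))

include hs in
lemma DV_dec (g : P) : (s ^ cycVal p χ g)⁻¹ * g ∈ χ.ker := by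
  have h1 : χ g = χ (s ^ cycVal p χ g) := by
    apply C2_eq_of_cycVal_eq
    rw [C2_cycVal_pow_of_lt p χ p 1 (mul_one p) s hs (cycVal_lt p χ g), mul_one]
  rw [MonoidHom.mem_ker, map_mul, map_inv, h1]; group

include hs in
lemma DV_gen (g : P) : ∃ i : ℕ, χ g = χ s ^ i := by
  refine ⟨cycVal p χ g, ?_⟩
  rw [← map_pow]
  apply C2_eq_of_cycVal_eq
  rw [C2_cycVal_pow_of_lt p χ p 1 (mul_one p) s hs (cycVal_lt p χ g), mul_one]

lemma DV_pow (f : P → C) (hf : IsCocycle₁ f) (i : ℕ) :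
    f (s ^ i) = ∑ j ∈ Finset.range i, s ^ j • f s := by
  induction i with
  | zero =>
    have := hf 1 1
    simp only [mul_one, one_smul] at this
    simpa using this
  | succ i ih => rw [pow_succ, hf, ih, Finset.sum_range_succ, add_comm]

include hs in
lemma DV_zero (f : P → C) (hf : IsCocycle₁ f) (hk : ∀ ν ∈ χ.ker, f ν = 0) (h0 : f s = 0) :
    ∀ g, f g = 0 := by
  intro g
  have e1 : g = s ^ cycVal p χ g * ((s ^ cycVal p χ g)⁻¹ * g) := by group
  rw [e1, hf, hk _ (DV_dec p χ s hs g), DV_pow s f hf, h0]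
  simp

include hs in
theorem DV_h1
    (h1 : ∀ f : χ.ker → C, IsCocycle₁ f → IsCoboundary₁ f)
    (h90 : ∀ c : C, (∀ ν ∈ χ.ker, ν • c = c) → (∑ i ∈ Finset.range p, s ^ i • c) = 0 →
      ∃ d : C, (∀ ν ∈ χ.ker, ν • d = d) ∧ c = s • d - d) :
    ∀ f : P → C, IsCocycle₁ f → IsCoboundary₁ f := by
  intro f hf
  obtain ⟨y, hy⟩ := h1 (fun ν => f (ν : P)) (fun a b => hf a b)
  obtain ⟨f₂, hdef₂⟩ : ∃ f₂ : P → C, ∀ g, f₂ g = f g - (g • y - y) := ⟨_, fun _ => rfl⟩
  have hf₂ : IsCocycle₁ f₂ := by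
    intro a b
    rw [hdef₂, hdef₂, hdef₂, hf, mul_smul, smul_sub, smul_sub]; abel
  have hk₂ : ∀ ν ∈ χ.ker, f₂ ν = 0 := by
    intro ν hν
    have := hy ⟨ν, hν⟩
    rw [hdef₂, sub_eq_zero]; exact this.symm
  have hinv : ∀ g : P, ∀ ν ∈ χ.ker, ν • f₂ g = f₂ g := by
    intro g ν hν
    have hn : g⁻¹ * ν * g ∈ χ.ker := by
      have := (inferInstance : χ.ker.Normal).conj_mem ν hν g⁻¹
      simpa using this
    have e1 : f₂ (ν * g) = ν • f₂ g := by rw [hf₂, hk₂ ν hν, add_zero]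
    have e2 : f₂ (g * (g⁻¹ * ν * g)) = f₂ g := by rw [hf₂, hk₂ _ hn, smul_zero, zero_add]
    have e3 : g * (g⁻¹ * ν * g) = ν * g := by group
    rw [← e1, ← e3, e2]
  have hN : ∑ i ∈ Finset.range p, s ^ i • f₂ s = 0 := by
    rw [← DV_pow s f₂ hf₂]
    exact hk₂ _ (C2_pow_m_mem p χ p 1 (mul_one p) s hs)
  obtain ⟨d, hd, hcd⟩ := h90 (f₂ s) (hinv s) hN
  obtain ⟨f₃, hdef₃⟩ : ∃ f₃ : P → C, ∀ g, f₃ g = f₂ g - (g • d - d) := ⟨_, fun _ => rfl⟩
  have hf₃ : IsCocycle₁ f₃ := by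
    intro a b
    rw [hdef₃, hdef₃, hdef₃, hf₂, mul_smul, smul_sub, smul_sub]; abel
  have hz := DV_zero p χ s hs f₃ hf₃ (fun ν hν => by
    rw [hdef₃, hk₂ ν hν, hd ν hν]; simp) (by
    rw [hdef₃, hcd]; simp)
  refine ⟨y + d, fun g => ?_⟩
  have := hz g
  rw [hdef₃, hdef₂] at this
  rw [smul_add]
  rw [sub_eq_zero, sub_eq_iff_eq_add] at this
  rw [this]; abel

include hs in
theorem DV_h2
    (h1 : ∀ f : χ.ker → C, IsCocycle₁ f → IsCoboundary₁ f)
    (hgen : ∃ c0 : C, (∀ g : P, g • c0 = c0) ∧ ∀ c : C, (∀ g : P, g • c = c) →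
      ∃ k : ℤ, ∃ d : C, (∀ ν ∈ χ.ker, ν • d = d) ∧
        c = k • c0 + ∑ i ∈ Finset.range p, s ^ i • d)
    [Finite (H2 χ.ker C)] :
    Finite (H2 P C) ∧ Nat.card (H2 P C) ≤ p * Nat.card (H2 χ.ker C) := by
  obtain ⟨c0, hc0, hall⟩ := hgen
  have hp : 0 < p := (Fact.out : p.Prime).pos
  have hadd : ∀ a b : C, cyc p χ (a + b) = cyc p χ a + cyc p χ b := by
    intro a b
    funext x
    obtain ⟨g, h⟩ := x
    simp only [Pi.add_apply, cyc_eq]
    split_ifs <;> simp
  let w : H2 P C := H2.mk ⟨cyc p χ c0, cyc_isCocycle₂ p χ c0 hc0⟩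
  refine DV_card (H2.res χ.ker) p hp w ?_ ?_
  · -- `p • w = 0`
    have e : (p : ℤ) • cyc p χ c0 = cyc p χ (∑ i ∈ Finset.range p, s ^ i • c0) := by
      rw [zsmul_cyc]
      congr 1
      rw [Finset.sum_congr rfl (fun i _ => hc0 (s ^ i))]
      simp
    have hcb := C2_cob_of_norm p χ p 1 (mul_one p) s hs (DV_gen p χ s hs) c0
      (fun τ _ => hc0 τ)
    rw [← e] at hcb
    show p • H2.mk _ = 0
    rw [← H2.mk_nsmul, H2.mk_eq_zero]
    have : ((p • (⟨cyc p χ c0, cyc_isCocycle₂ p χ c0 hc0⟩ : Z2 P C) : Z2 P C) : P × P → C)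
        = (p : ℤ) • cyc p χ c0 := by
      rw [natCast_zsmul]; rfl
    rw [this]; exact hcb
  · intro x hx
    obtain ⟨c, rfl⟩ := H2.mk_surjective x
    rw [AddMonoidHom.mem_ker] at hx
    have hres : IsCoboundary₂ (resC χ.ker (c : P × P → C)) := by
      have : H2.res χ.ker (H2.mk c) = H2.mk (Z2.cmap χ.ker.subtype (AddMonoidHom.id C)
        (compat_res χ.ker) c) := H2.cmap_mk _ _ _ _
      rw [this, H2.mk_eq_zero] at hx
      exact hx
    obtain ⟨a, ha, hca⟩ := exists_cyc_of_res_ker p χ s hs h1 (c : P × P → C) c.2 hres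
    obtain ⟨k, d, hd, hakd⟩ := hall a ha
    rw [AddSubgroup.mem_zmultiples_iff]
    refine ⟨k, ?_⟩
    show k • H2.mk _ = _
    rw [← H2.mk_zsmul, eq_comm, ← sub_eq_zero, ← H2.mk_sub, H2.mk_eq_zero]
    have hcb := C2_cob_of_norm p χ p 1 (mul_one p) s hs (DV_gen p χ s hs) d hd
    have : ((c - k • (⟨cyc p χ c0, cyc_isCocycle₂ p χ c0 hc0⟩ : Z2 P C) : Z2 P C) : P × P → C)
        = ((c : P × P → C) - cyc p χ a) + cyc p χ (∑ i ∈ Finset.range p, s ^ i • d) := by
      rw [hakd, hadd, ← zsmul_cyc]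
      show (c : P × P → C) - k • cyc p χ c0 = _
      abel
    rw [this]
    exact (B2 P C).add_mem hca hcb

end Step

/-- the trivial group -/
lemma DV_triv {P : Type} [Group P] [Subsingleton P] {C : Type} [AddCommGroup C]
    [DistribMulAction P C] :
    (∀ f : P → C, IsCocycle₁ f → IsCoboundary₁ f) ∧
      (Finite (H2 P C) ∧ Nat.card (H2 P C) ≤ Nat.card P) := by
  refine ⟨fun f hf => ⟨0, fun g => ?_⟩, ?_⟩
  · have h1 : g = 1 := Subsingleton.elim _ _
    have := hf 1 1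
    simp only [mul_one, one_smul] at this
    rw [h1]
    simpa [eq_comm] using this
  · have hsub : Subsingleton (H2 P C) := by
      refine ⟨fun x y => ?_⟩
      have key : ∀ z : H2 P C, z = 0 := by
        intro z
        obtain ⟨c, rfl⟩ := H2.mk_surjective z
        rw [H2.mk_eq_zero]
        refine ⟨fun _ => (c : P × P → C) (1, 1), fun g h => ?_⟩
        have h1 : g = 1 := Subsingleton.elim _ _
        have h2 : h = 1 := Subsingleton.elim _ _
        rw [h1, h2]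
        simp
      rw [key x, key y]
    refine ⟨inferInstance, ?_⟩
    rw [Nat.card_of_subsingleton (0 : H2 P C), Nat.card_of_subsingleton (1 : P)]

section Main

variable {G : Type} [Group G] [Finite G]

theorem DV_main (p : ℕ) [Fact p.Prime]
    {C : Type} [AddCommGroup C] [DistribMulAction G C]
    (hlayer : ∀ (H H' : Subgroup G), IsPGroup p H → H' ≤ H → (H'.subgroupOf H).Normal →
      H'.relIndex H = p → ∀ s ∈ H, s ∉ H' →
      (∀ c ∈ inv H' C, (∑ i ∈ Finset.range p, s ^ i • c) = 0 → ∃ d ∈ inv H' C, c = s • d - d) ∧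
      (∃ c0 ∈ inv H C, ∀ c ∈ inv H C, ∃ k : ℤ, ∃ d ∈ inv H' C,
        c = k • c0 + ∑ i ∈ Finset.range p, s ^ i • d)) :
    ∀ (n : ℕ) (P : Type) [Group P] [Finite P] [DistribMulAction P C] (ι : P →* G),
      Function.Injective ι → (∀ (x : P) (c : C), x • c = ι x • c) → IsPGroup p P →
      Nat.card P = n →
      (∀ f : P → C, IsCocycle₁ f → IsCoboundary₁ f) ∧
      (Finite (H2 P C) ∧ Nat.card (H2 P C) ≤ Nat.card P) := by
  intro n
  induction n using Nat.strong_induction_on with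
  | _ n ih =>
  intro P _ _ _ ι hι hact hP hn
  have hpp : p.Prime := Fact.out
  obtain ⟨k, hk⟩ := IsPGroup.iff_card.1 hP
  rcases Nat.eq_zero_or_pos k with rfl | hkpos
  · rw [pow_zero] at hk
    have : Subsingleton P := (Nat.card_eq_one_iff_unique.1 hk).1
    exact DV_triv
  obtain ⟨K, hK⟩ := Sylow.exists_subgroup_card_pow_prime (G := P) p (n := k - 1)
    (by rw [hk]; exact pow_dvd_pow p (Nat.sub_le k 1))
  have hpk : p ^ k = p ^ (k - 1) * p := by
    rw [← pow_succ]; congr 1; omega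
  have hidx : K.index = p := by
    have h := K.card_mul_index
    rw [hK, hk, hpk] at h
    exact Nat.eq_of_mul_eq_mul_left (pow_pos hpp.pos _) h
  have hKn : K.Normal := by
    apply Subgroup.normal_of_index_eq_minFac_card
    rw [hidx, hk, hpp.pow_minFac (by omega)]
  have hq : Nat.card (P ⧸ K) = p := hidx
  have hz : Nat.card (Multiplicative (ZMod p)) = p := by
    rw [Nat.card_eq_fintype_card]
    simp [ZMod.card]
  let e : P ⧸ K ≃* Multiplicative (ZMod p) := mulEquivOfPrimeCardEq hq hz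
  let χ : P →* Multiplicative (ZMod p) := e.toMonoidHom.comp (QuotientGroup.mk' K)
  have hχK : χ.ker = K := by
    ext x
    rw [MonoidHom.mem_ker]
    show e (QuotientGroup.mk' K x) = 1 ↔ _
    rw [map_eq_one_iff e e.injective]
    exact QuotientGroup.eq_one_iff x
  obtain ⟨s, hs⟩ : ∃ s : P, Multiplicative.toAdd (χ s) = ((1 : ℕ) : ZMod p) := by
    obtain ⟨y, hy⟩ := e.surjective (Multiplicative.ofAdd ((1 : ℕ) : ZMod p))
    obtain ⟨s, rfl⟩ := QuotientGroup.mk'_surjective K y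
    exact ⟨s, by show Multiplicative.toAdd (e _) = _; rw [hy]; rfl⟩
  have hcardker : Nat.card χ.ker = p ^ (k - 1) := by rw [hχK]; exact hK
  have hlt : Nat.card χ.ker < n := by
    rw [hcardker, ← hn, hk]
    exact Nat.pow_lt_pow_right hpp.one_lt (by omega)
  obtain ⟨ih1, ih2, ih3⟩ := ih (Nat.card χ.ker) hlt χ.ker (ι.comp χ.ker.subtype)
    (hι.comp Subtype.val_injective) (fun x c => hact (x : P) c) (hP.to_subgroup χ.ker) rfl
  have hsk : s ∉ χ.ker := by
    intro h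
    rw [MonoidHom.mem_ker] at h
    rw [h] at hs
    have h1 : ((1 : ℕ) : ZMod p) = 0 := hs.symm
    rw [ZMod.natCast_eq_zero_iff] at h1
    exact hpp.one_lt.ne' (Nat.dvd_one.1 h1)
  have hinvK : ∀ c : C, c ∈ inv (χ.ker.map ι) C ↔ ∀ ν ∈ χ.ker, ν • c = c := by
    intro c
    constructor
    · intro h ν hν
      rw [hact]; exact h _ ⟨ν, hν, rfl⟩
    · rintro h _ ⟨ν, hν, rfl⟩
      rw [← hact]; exact h ν hν
  have hinvP : ∀ c : C, c ∈ inv ι.range C ↔ ∀ g : P, g • c = c := by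
    intro c
    constructor
    · intro h g
      rw [hact]; exact h _ ⟨g, rfl⟩
    · rintro h _ ⟨g, rfl⟩
      rw [← hact]; exact h g
  have hpow : ∀ (i : ℕ) (c : C), ι s ^ i • c = s ^ i • c := by
    intro i c
    rw [← map_pow, ← hact]
  obtain ⟨L1, c0, hc0, L2⟩ := hlayer ι.range (χ.ker.map ι) (hP.of_equiv (MonoidHom.ofInjective hι))
    (Subgroup.map_le_range ι χ.ker)
    (by
      refine ⟨fun x hx g => ?_⟩
      obtain ⟨g, g', rfl⟩ := g
      obtain ⟨ν, hν, hνx⟩ := Subgroup.mem_subgroupOf.1 hx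
      rw [Subgroup.mem_subgroupOf]
      refine ⟨g' * ν * g'⁻¹, (inferInstance : χ.ker.Normal).conj_mem ν hν g', ?_⟩
      simp [hνx])
    (by
      rw [MonoidHom.range_eq_map, Subgroup.relIndex_map_map_of_injective _ _ hι,
        Subgroup.relIndex_top_right, hχK, hidx])
    (ι s) ⟨s, rfl⟩
    (by
      rintro ⟨ν, hν, h⟩
      exact hsk (hι h ▸ hν))
  have h1P := DV_h1 p χ s hs ih1 (by
    intro c hc hN
    obtain ⟨d, hd, hcd⟩ := L1 c ((hinvK c).2 hc) (by simp only [hpow]; exact hN)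
    exact ⟨d, (hinvK d).1 hd, by rw [hcd, ← hact]⟩)
  obtain ⟨h2a, h2b⟩ := DV_h2 p χ s hs ih1 ⟨c0, (hinvP c0).1 hc0, by
    intro c hc
    obtain ⟨k, d, hd, hcd⟩ := L2 c ((hinvP c).2 hc)
    exact ⟨k, d, (hinvK d).1 hd, by rw [hcd]; simp only [hpow]⟩⟩
  refine ⟨h1P, h2a, h2b.trans ?_⟩
  calc p * Nat.card (H2 χ.ker C) ≤ p * Nat.card χ.ker := Nat.mul_le_mul_left p ih3
    _ = Nat.card P := by rw [hcardker, hk, hpk, mul_comm]

/-- **p-group dévissage**: the class-module axioms `H¹ = 0`, `|H²| ≤ |H|` follow from the cyclic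
layers of order `p`.  `hlayer`: for `H' ◁ H` of index `p` (`p`-subgroups), `s ∈ H` generating
`H/H'`: on `C^{H'}`, `ker N_s = im (s - 1)` and `[C^H : N_s C^{H'}] ≤ p`. -/
theorem pgroup_devissage (p : ℕ) [Fact p.Prime]
    {C : Type} [AddCommGroup C] [DistribMulAction G C]
    (hlayer : ∀ (H H' : Subgroup G), IsPGroup p H → H' ≤ H → (H'.subgroupOf H).Normal →
      H'.relIndex H = p → ∀ s ∈ H, s ∉ H' →
      (∀ c ∈ inv H' C, (∑ i ∈ Finset.range p, s ^ i • c) = 0 → ∃ d ∈ inv H' C, c = s • d - d) ∧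
      (∃ c0 ∈ inv H C, ∀ c ∈ inv H C, ∃ k : ℤ, ∃ d ∈ inv H' C,
        c = k • c0 + ∑ i ∈ Finset.range p, s ^ i • d)) :
    ∀ H : Subgroup G, IsPGroup p H →
      (∀ f : H → C, IsCocycle₁ f → IsCoboundary₁ f) ∧
      (Finite (H2 H C) ∧ Nat.card (H2 H C) ≤ Nat.card H) := by
  intro H hH
  exact DV_main p hlayer (Nat.card H) H H.subtype Subtype.val_injective (fun _ _ => rfl) hH rfl

end Main

end Fermat.Agent.S55Lib
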