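import Fermat.Agent.S55.T.Basic
import Fermat.Agent.S55.B.Norm

/-! # S55 chapter T: `|Γ|` kills cohomology; Nakayama for `p`-groups (leaves T-CARD, T-NAK) -/

set_option autoImplicit false
set_option linter.unusedSectionVars false
set_option linter.unusedVariables false

namespace Fermat.Agent.S55Lib.TN

open groupCohomology

variable {Γ : Type} [Group Γ] [Finite Γ]

/-- (T-CARD1) `a := ∑ h, f h`; `n f g = a - g a`. -/
theorem K1_card (A : Type) [AddCommGroup A] [DistribMulAction Γ A] : K1 Γ (Nat.card Γ) A :=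
  fun _ hf => card_smul_isCoboundary₁ hf

/-- (T-CARD2) `F g := ∑ j, f (g, j)`; `n f = ∂ F`. -/
theorem K2_card (A : Type) [AddCommGroup A] [DistribMulAction Γ A] : K2 Γ (Nat.card Γ) A :=
  fun _ hf => card_smul_isCoboundary₂ hf

variable {M Mb : Type} [AddCommGroup M] [AddCommGroup Mb] [DistribMulAction Γ M]
  [DistribMulAction Γ Mb]

/-- one step: every 1-cocycle is a coboundary plus `p` times a cocycle -/
lemma nak1_step (p : ℕ) (q : M →+ Mb)
    (hq : ∀ (g : Γ) m, q (g • m) = g • q m) (hsurj : Function.Surjective q)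
    (hker : ∀ m, q m = 0 → ∃ m', m = p • m') (htf : ∀ m : M, p • m = 0 → m = 0)
    (h : K1 Γ 1 Mb) (f : Γ → M) (hf : IsCocycle₁ f) :
    ∃ f' : Γ → M, IsCocycle₁ f' ∧ IsCoboundary₁ (f - p • f') := by
  obtain ⟨xb, hxb⟩ := K1.one h (isCocycle₁_map q hq hf)
  obtain ⟨x, rfl⟩ := hsurj xb
  have h1 : ∀ g, ∃ m', f g - (g • x - x) = p • m' := fun g => hker _ (by
    rw [map_sub, map_sub, hq, hxb g]
    exact sub_self _)
  choose f' hf' using h1
  have hinj : ∀ a b : M, p • a = p • b → a = b := fun a b hab =>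
    sub_eq_zero.1 (htf _ (by rw [smul_sub, hab, sub_self]))
  refine ⟨f', fun g k => hinj _ _ ?_, x, fun g => ?_⟩
  · rw [smul_add, smul_comm p g, ← hf', ← hf', ← hf', hf g k, mul_smul, smul_sub, smul_sub]
    abel
  · show g • x - x = f g - p • f' g
    rw [← hf']
    abel

/-- one step: every 2-cocycle is a coboundary plus `p` times a cocycle -/
lemma nak2_step (p : ℕ) (q : M →+ Mb)
    (hq : ∀ (g : Γ) m, q (g • m) = g • q m) (hsurj : Function.Surjective q)
    (hker : ∀ m, q m = 0 → ∃ m', m = p • m') (htf : ∀ m : M, p • m = 0 → m = 0)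
    (h : K2 Γ 1 Mb) (f : Γ × Γ → M) (hf : IsCocycle₂ f) :
    ∃ f' : Γ × Γ → M, IsCocycle₂ f' ∧ IsCoboundary₂ (f - p • f') := by
  obtain ⟨xb, hxb⟩ := K2.one h (isCocycle₂_map q hq hf)
  choose x hx using fun g => hsurj (xb g)
  have h1 : ∀ gk : Γ × Γ, ∃ m', f gk - (gk.1 • x gk.2 - x (gk.1 * gk.2) + x gk.1) = p • m' :=
    fun gk => hker _ (by
      rw [map_sub, map_add, map_sub, hq, hx, hx, hx, hxb gk.1 gk.2]
      exact sub_self _)
  choose f' hf' using h1
  have hinj : ∀ a b : M, p • a = p • b → a = b := fun a b hab =>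
    sub_eq_zero.1 (htf _ (by rw [smul_sub, hab, sub_self]))
  refine ⟨f', fun g k l => hinj _ _ ?_, x, fun g k => ?_⟩
  · rw [smul_add, smul_add, smul_comm p g, ← hf', ← hf', ← hf', ← hf']
    have := hf g k l
    simp only [smul_sub, smul_add, mul_smul, mul_assoc]
    have h2 : f (g * k, l) = g • f (k, l) + f (g, k * l) - f (g, k) := by
      rw [← this]; abel
    rw [h2]
    abel
  · show g • x k - x (g * k) + x g = f (g, k) - p • f' (g, k)
    rw [← hf']
    abel

/-- (T-NAK1) by induction on `j`: every cocycle `f` is `∂ g + p^j f_j` with `f_j` a cocycle. -/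
theorem nak1 (p : ℕ) [Fact p.Prime] (hΓ : IsPGroup p Γ) (q : M →+ Mb)
    (hq : ∀ (g : Γ) m, q (g • m) = g • q m) (hsurj : Function.Surjective q)
    (hker : ∀ m, q m = 0 → ∃ m', m = p • m') (htf : ∀ m : M, p • m = 0 → m = 0)
    (h : K1 Γ 1 Mb) : K1 Γ 1 M := by
  have key : ∀ (n : ℕ) (f : Γ → M), IsCocycle₁ f →
      ∃ f' : Γ → M, IsCocycle₁ f' ∧ IsCoboundary₁ (f - p ^ n • f') := by
    intro n
    induction n with
    | zero => exact fun f hf => ⟨f, hf, 0, fun g => by simp⟩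
    | succ n ih =>
      intro f hf
      obtain ⟨f1, hf1, h1⟩ := ih f hf
      obtain ⟨f2, hf2, h2⟩ := nak1_step p q hq hsurj hker htf h f1 hf1
      refine ⟨f2, hf2, ?_⟩
      have : f - p ^ (n + 1) • f2 = (f - p ^ n • f1) + p ^ n • (f1 - p • f2) := by
        rw [smul_sub, pow_succ, mul_smul]; abel
      rw [this]
      exact isCoboundary₁_add h1 (isCoboundary₁_nsmul _ h2)
  obtain ⟨n, hn⟩ := IsPGroup.iff_card.1 hΓ
  intro f hf
  rw [one_smul]
  obtain ⟨f', hf', h1⟩ := key n f hf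
  have h2 := K1_card (Γ := Γ) M f' hf'
  rw [hn] at h2
  have : f = (f - p ^ n • f') + p ^ n • f' := by abel
  rw [this]
  exact isCoboundary₁_add h1 h2

/-- (T-NAK2) -/
theorem nak2 (p : ℕ) [Fact p.Prime] (hΓ : IsPGroup p Γ) (q : M →+ Mb)
    (hq : ∀ (g : Γ) m, q (g • m) = g • q m) (hsurj : Function.Surjective q)
    (hker : ∀ m, q m = 0 → ∃ m', m = p • m') (htf : ∀ m : M, p • m = 0 → m = 0)
    (h : K2 Γ 1 Mb) : K2 Γ 1 M := by
  have key : ∀ (n : ℕ) (f : Γ × Γ → M), IsCocycle₂ f →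
      ∃ f' : Γ × Γ → M, IsCocycle₂ f' ∧ IsCoboundary₂ (f - p ^ n • f') := by
    intro n
    induction n with
    | zero => exact fun f hf => ⟨f, hf, 0, fun g k => by simp⟩
    | succ n ih =>
      intro f hf
      obtain ⟨f1, hf1, h1⟩ := ih f hf
      obtain ⟨f2, hf2, h2⟩ := nak2_step p q hq hsurj hker htf h f1 hf1
      refine ⟨f2, hf2, ?_⟩
      have : f - p ^ (n + 1) • f2 = (f - p ^ n • f1) + p ^ n • (f1 - p • f2) := by
        rw [smul_sub, pow_succ, mul_smul]; abel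
      rw [this]
      exact isCoboundary₂_add h1 (isCoboundary₂_nsmul _ h2)
  obtain ⟨n, hn⟩ := IsPGroup.iff_card.1 hΓ
  intro f hf
  rw [one_smul]
  obtain ⟨f', hf', h1⟩ := key n f hf
  have h2 := K2_card (Γ := Γ) M f' hf'
  rw [hn] at h2
  have : f = (f - p ^ n • f') + p ^ n • f' := by abel
  rw [this]
  exact isCoboundary₂_add h1 h2

end Fermat.Agent.S55Lib.TN
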