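import Fermat.Agent.S55.T.Basic

/-! # S55 chapter T: `Hom` modules (leaves T-HC1, T-HC2, T-HEX, T-HMODP) -/

set_option autoImplicit false
set_option linter.unusedSectionVars false
set_option linter.unusedVariables false

namespace Fermat.Agent.S55Lib.TN

open groupCohomology

variable {Γ : Type} [Group Γ] [Finite Γ] {Y A B C : Type} [AddCommGroup Y] [AddCommGroup A]
  [AddCommGroup B] [AddCommGroup C] [DistribMulAction Γ Y] [DistribMulAction Γ A]
  [DistribMulAction Γ B] [DistribMulAction Γ C]

/-- (T-HC1) `E φ x y := e (φ (x⁻¹ • y)) x`, inverse `Ψ ↦ (y ↦ e.symm (x ↦ Ψ x (x • y)))`. -/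
theorem isCoind_HomM_right (h : IsCoind Γ B) : IsCoind Γ (HomM Γ Y B) := by
  obtain ⟨V, _, e, he⟩ := h
  let E : HomM Γ Y B ≃+ (Γ → (Y →+ V)) :=
    { toFun := fun φ x =>
        { toFun := fun y => e (φ (x⁻¹ • y)) x
          map_zero' := by simp
          map_add' := fun y y' => by simp [smul_add] }
      invFun := fun Ψ => HomM.of
        { toFun := fun y => e.symm (fun x => Ψ x (x • y))
          map_zero' := by
            rw [AddEquiv.symm_apply_eq, map_zero]
            funext x
            simp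
          map_add' := fun y y' => by
            rw [AddEquiv.symm_apply_eq, map_add, AddEquiv.apply_symm_apply,
              AddEquiv.apply_symm_apply]
            funext x
            simp [smul_add] }
      left_inv := fun φ => by
        ext y
        show e.symm (fun x => e (φ (x⁻¹ • x • y)) x) = φ y
        rw [AddEquiv.symm_apply_eq]
        funext x
        simp
      right_inv := fun Ψ => by
        funext x
        ext y
        show e (e.symm (fun x' => Ψ x' (x' • x⁻¹ • y))) x = Ψ x y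
        rw [AddEquiv.apply_symm_apply]
        simp
      map_add' := fun φ ψ => by
        funext x
        ext y
        show e (φ (x⁻¹ • y) + ψ (x⁻¹ • y)) x = e (φ (x⁻¹ • y)) x + e (ψ (x⁻¹ • y)) x
        rw [map_add]
        rfl }
  refine ⟨Y →+ V, inferInstance, E, fun γ φ x => ?_⟩
  ext y
  show e (γ • φ (γ⁻¹ • x⁻¹ • y)) x = e (φ ((x * γ)⁻¹ • y)) (x * γ)
  rw [he, mul_inv_rev, mul_smul]

/-- (T-HC2) `E φ x v := x • φ (e.symm (Pi.single x v))`,
inverse `Ψ ↦ (b ↦ ∑ x, x⁻¹ • Ψ x (e b x))`. -/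
theorem isCoind_HomM_left (h : IsCoind Γ B) : IsCoind Γ (HomM Γ B C) := by
  classical
  cases nonempty_fintype Γ
  obtain ⟨V, _, e, he⟩ := h
  have hsum : ∀ b : B, b = ∑ x : Γ, e.symm (Pi.single x (e b x)) := fun b => by
    apply e.injective
    rw [map_sum]
    simp only [AddEquiv.apply_symm_apply]
    rw [Finset.univ_sum_single]
  have hδ : ∀ (γ x : Γ) (v : V), γ⁻¹ • e.symm (Pi.single x v) = e.symm (Pi.single (x * γ) v) := by
    intro γ x v
    apply e.injective
    rw [AddEquiv.apply_symm_apply]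
    funext y
    rw [he, AddEquiv.apply_symm_apply]
    by_cases hy : y = x * γ
    · subst hy
      simp
    · rw [Pi.single_eq_of_ne hy, Pi.single_eq_of_ne]
      intro h2
      exact hy (by rw [← h2]; group)
  let E : HomM Γ B C ≃+ (Γ → (V →+ C)) :=
    { toFun := fun φ x =>
        { toFun := fun v => x • φ (e.symm (Pi.single x v))
          map_zero' := by simp
          map_add' := fun v v' => by simp [Pi.single_add, smul_add] }
      invFun := fun Ψ => HomM.of
        { toFun := fun b => ∑ x : Γ, x⁻¹ • Ψ x (e b x)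
          map_zero' := by simp
          map_add' := fun b b' => by simp [smul_add, Finset.sum_add_distrib] }
      left_inv := fun φ => by
        ext b
        show ∑ x : Γ, x⁻¹ • x • φ (e.symm (Pi.single x (e b x))) = φ b
        conv_rhs => rw [hsum b, map_sum]
        exact Finset.sum_congr rfl fun x _ => by simp
      right_inv := fun Ψ => by
        funext x
        ext v
        show x • ∑ x' : Γ, x'⁻¹ • Ψ x' (e (e.symm (Pi.single x v)) x') = Ψ x v
        rw [AddEquiv.apply_symm_apply, Finset.sum_eq_single x]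
        · simp
        · intro y _ hy
          rw [Pi.single_eq_of_ne hy, map_zero, smul_zero]
        · intro h
          exact absurd (Finset.mem_univ _) h
      map_add' := fun φ ψ => by
        funext x
        ext v
        show x • (φ (e.symm (Pi.single x v)) + ψ (e.symm (Pi.single x v))) = _
        rw [smul_add]
        rfl }
  refine ⟨V →+ C, inferInstance, E, fun γ φ x => ?_⟩
  ext v
  show x • γ • φ (γ⁻¹ • e.symm (Pi.single x v)) = (x * γ) • φ (e.symm (Pi.single (x * γ) v))
  rw [hδ, mul_smul]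

lemma HomM.post_smul (T : A →+ B) (hT : ∀ (g : Γ) a, T (g • a) = g • T a) (g : Γ)
    (φ : HomM Γ Y A) : HomM.post (G := Γ) (X := Y) T (g • φ) = g • HomM.post (G := Γ) (X := Y) T φ := by
  ext y
  exact hT g _

lemma HomM.pre_smul (j : Y →+ A) (hj : ∀ (g : Γ) a, j (g • a) = g • j a) (g : Γ)
    (φ : HomM Γ A C) : HomM.pre (G := Γ) (A := C) j (g • φ) = g • HomM.pre (G := Γ) (A := C) j φ := by
  ext y
  show g • φ (g⁻¹ • j y) = g • φ (j (g⁻¹ • y))
  rw [hj]

lemma HC_lift [Module.Free ℤ Y] (π : B →+ C) (hπ : Function.Surjective π) (φ : Y →+ C) :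
    ∃ ψ : Y →+ B, ∀ y, π (ψ y) = φ y := by
  obtain ⟨h, hh⟩ := Module.projective_lifting_property π.toIntLinearMap φ.toIntLinearMap hπ
  exact ⟨h.toAddMonoidHom, fun y => congrArg (fun F : Y →ₗ[ℤ] C => F y) hh⟩

/-- (T-HEX) `Hom(Y,-)` is exact for `Y` free. -/
theorem GSES.homM [Module.Free ℤ Y] {i : A →+ B} {π : B →+ C} (h : GSES Γ i π) :
    GSES Γ (HomM.post (G := Γ) (X := Y) i) (HomM.post (G := Γ) (X := Y) π) where
  i_smul g φ := HomM.post_smul i h.i_smul g φ
  π_smul g φ := HomM.post_smul π h.π_smul g φ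
  inj φ ψ hφ := by
    ext y
    exact h.inj (congrArg (fun F : HomM Γ Y B => F y) hφ)
  comp φ := by
    ext y
    exact h.comp _
  exact φ hφ := by
    have h1 : ∀ y, ∃ a, i a = φ y := fun y =>
      h.exact _ (congrArg (fun F : HomM Γ Y C => F y) hφ)
    choose f hf using h1
    refine ⟨HomM.of (AddMonoidHom.mk' f fun y y' => h.inj (by
      rw [map_add, hf, hf, hf, map_add])), ?_⟩
    ext y
    exact hf y
  surj φ := by
    obtain ⟨ψ, hψ⟩ := HC_lift π h.surj φ.toHom
    exact ⟨HomM.of ψ, by ext y; exact hψ y⟩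

/-- (T-HMODP) -/
theorem homM_modp [Module.Free ℤ Y] (p : ℕ) (hp : p ≠ 0) (q : A →+ B)
    (hsurj : Function.Surjective q) (hker : ∀ r, q r = 0 ↔ ∃ r', r = p • r')
    (htf : ∀ r : A, p • r = 0 → r = 0) :
    Function.Surjective (HomM.post (G := Γ) (X := Y) q) ∧
    (∀ φ : HomM Γ Y A, HomM.post (G := Γ) (X := Y) q φ = 0 → ∃ φ', φ = p • φ') ∧
    (∀ φ : HomM Γ Y A, p • φ = 0 → φ = 0) := by
  refine ⟨fun φ => ?_, fun φ hφ => ?_, fun φ hφ => ?_⟩
  · obtain ⟨ψ, hψ⟩ := HC_lift q hsurj φ.toHom
    exact ⟨HomM.of ψ, by ext y; exact hψ y⟩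
  · have h1 : ∀ y, ∃ r', φ y = p • r' := fun y =>
      (hker _).1 (congrArg (fun F : HomM Γ Y B => F y) hφ)
    choose f hf using h1
    have hinj : ∀ a b : A, p • a = p • b → a = b := fun a b hab =>
      sub_eq_zero.1 (htf _ (by rw [smul_sub, hab, sub_self]))
    refine ⟨HomM.of (AddMonoidHom.mk' f fun y y' => hinj _ _ (by
      rw [smul_add, ← hf, ← hf, ← hf, map_add])), ?_⟩
    ext y
    exact hf y
  · ext y
    exact htf _ (congrArg (fun F : HomM Γ Y A => F y) hφ)

end Fermat.Agent.S55Lib.TN
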