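import Fermat.Agent.S55.T.Basic
import Fermat.Agent.S55.B.LinAlg

/-! # S55 chapter T: `Γ` a `p`-group, `pA = 0`, `H¹(Γ,A) = 0` => `A` coinduced
(leaves T-FP, T-PROJ, T-KEY) -/

set_option autoImplicit false

namespace Fermat.Agent.S55Lib.TN

open groupCohomology

variable {Γ : Type} [Group Γ] [Finite Γ]

/-- (T-FP) a nonzero `p`-torsion module of a `p`-group has a nonzero fixed vector.
Take `m ≠ 0`, `M₀` := image of `(Γ → ZMod p) → M`, `c ↦ ∑ g, c g • g • m` (finite, stable);
`IsPGroup.exists_fixed_point_of_prime_dvd_card_of_fixed_point`. -/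
theorem exists_fixed_ne_zero (p : ℕ) [Fact p.Prime] (hΓ : IsPGroup p Γ)
    (M : Type) [AddCommGroup M] [DistribMulAction Γ M] (hp : ∀ m : M, p • m = 0)
    (hM : ∃ m : M, m ≠ 0) : ∃ m : M, m ≠ 0 ∧ ∀ g : Γ, g • m = m := by
  classical
  obtain ⟨m, hm⟩ := hM
  let M₀ : AddSubgroup M := AddSubgroup.closure (Set.range fun g : Γ => g • m)
  have hst : ∀ (h : Γ), ∀ x ∈ M₀, h • x ∈ M₀ := by
    intro h
    have : M₀ ≤ M₀.comap (DistribSMul.toAddMonoidHom M h) := by
      refine (AddSubgroup.closure_le _).2 ?_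
      rintro _ ⟨g, rfl⟩
      show h • g • m ∈ M₀
      rw [← mul_smul]
      exact AddSubgroup.subset_closure ⟨h * g, rfl⟩
    exact fun x hx => this hx
  have hmem : m ∈ M₀ := AddSubgroup.subset_closure ⟨1, one_smul _ _⟩
  have hfg : AddGroup.FG M₀ := by
    rw [AddGroup.fg_iff_addSubgroup_fg]
    exact ⟨(Set.finite_range fun g : Γ => g • m).toFinset, by simp [M₀]⟩
  have htor : IsAddTorsion M₀ := fun x =>
    isOfFinAddOrder_iff_nsmul_eq_zero.2 ⟨p, (Fact.out : p.Prime).pos, Subtype.ext (hp x)⟩
  have hfin : Finite M₀ := AddCommGroup.finite_of_fg_isAddTorsion _ htor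
  letI : DistribMulAction Γ M₀ := subAction M₀ hst
  have hdvd : p ∣ Nat.card M₀ := by
    have h1 : addOrderOf (⟨m, hmem⟩ : M₀) = p := by
      refine addOrderOf_eq_prime (Subtype.ext (hp m)) ?_
      intro h0
      exact hm (congrArg Subtype.val h0)
    rw [← h1]
    exact addOrderOf_dvd_natCard _
  obtain ⟨b, hb, hb0⟩ := hΓ.exists_fixed_point_of_prime_dvd_card_of_fixed_point M₀ hdvd
    (a := (0 : M₀)) (fun g => smul_zero g)
  refine ⟨b, fun h0 => hb0 (Subtype.ext h0.symm), fun g => ?_⟩
  exact congrArg Subtype.val (hb g)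

/-- (T-PROJ) an additive projection onto a subgroup of a `p`-torsion group
(`AddCommGroup.zmodModule`, `Submodule.exists_isCompl`). -/
theorem exists_proj (p : ℕ) [Fact p.Prime] (A : Type) [AddCommGroup A] (hp : ∀ a : A, p • a = 0)
    (S : AddSubgroup A) : ∃ pr : A →+ S, ∀ a : S, pr (a : A) = a :=
  exists_retraction p hp S

/-- (T-KEY) `V := A^Γ`, `j a x := pr (x • a)`; `ker j` has no fixed vector => `j` injective;
`Fun(Γ,V) / j A` has no fixed vector (uses `H¹ = 0`) => `j` surjective. -/
theorem isCoind_of_K1 (p : ℕ) [Fact p.Prime] (hΓ : IsPGroup p Γ)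
    (A : Type) [AddCommGroup A] [DistribMulAction Γ A] (hp : ∀ a : A, p • a = 0)
    (h1 : K1 Γ 1 A) : IsCoind Γ A := by
  classical
  let V : AddSubgroup A := inv (⊤ : Subgroup Γ) A
  obtain ⟨pr, hpr⟩ := exists_proj p A hp V
  let jm : A →+ Co Γ V :=
    { toFun := fun a => Co.of fun x => pr (x • a)
      map_zero' := by ext x; simp
      map_add' := fun a b => by ext x; simp [smul_add] }
  have hjm : ∀ a x, jm a x = pr (x • a) := fun a x => rfl
  have hjs : ∀ (γ : Γ) a, jm (γ • a) = γ • jm a := fun γ a => by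
    ext x
    simp [hjm, mul_smul]
  have hfix : ∀ a : A, (∀ g : Γ, g • a = a) → ∀ x, ((jm a x : V) : A) = a := fun a ha x => by
    rw [hjm, ha x]
    exact congrArg Subtype.val (hpr ⟨a, fun g _ => ha g⟩)
  -- injectivity
  have hinj : Function.Injective jm := by
    rw [injective_iff_map_eq_zero]
    by_contra hcon
    push Not at hcon
    obtain ⟨a, ha, ha0⟩ := hcon
    have hst : ∀ (g : Γ), ∀ m ∈ jm.ker, g • m ∈ jm.ker := fun g m hm => by
      rw [AddMonoidHom.mem_ker] at hm ⊢
      rw [hjs, hm, smul_zero]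
    letI : DistribMulAction Γ jm.ker := subAction jm.ker hst
    obtain ⟨k, hk0, hk⟩ := exists_fixed_ne_zero p hΓ jm.ker (fun m => Subtype.ext (hp m))
      ⟨⟨a, ha⟩, fun h => ha0 (congrArg Subtype.val h)⟩
    apply hk0
    apply Subtype.ext
    have h2 := hfix (k : A) (fun g => congrArg Subtype.val (hk g)) 1
    have h3 : jm (k : A) = 0 := k.2
    rw [h3] at h2
    exact h2.symm
  -- surjectivity
  have hsurj : Function.Surjective jm := by
    have hst : ∀ (g : Γ), ∀ m ∈ jm.range, g • m ∈ jm.range := by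
      rintro g _ ⟨a, rfl⟩
      exact ⟨g • a, hjs g a⟩
    letI : DistribMulAction Γ (Co Γ V ⧸ jm.range) := quotAction jm.range hst
    by_contra hcon
    have hne : ∃ q : Co Γ V ⧸ jm.range, q ≠ 0 := by
      by_contra hall
      push Not at hall
      apply hcon
      intro F
      have := hall (F : Co Γ V ⧸ jm.range)
      rw [QuotientAddGroup.eq_zero_iff] at this
      exact this
    obtain ⟨q, hq0, hq⟩ := exists_fixed_ne_zero p hΓ (Co Γ V ⧸ jm.range) (fun q => by
      induction q using QuotientAddGroup.induction_on with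
      | H F =>
        have : p • F = 0 := by
          ext x
          exact congrArg Subtype.val (Subtype.ext (hp (F x : A)) : p • F x = 0)
        show ((p • F : Co Γ V) : Co Γ V ⧸ jm.range) = 0
        rw [this]
        rfl) hne
    induction q using QuotientAddGroup.induction_on with
    | H F =>
      apply hq0
      have hF : ∀ γ : Γ, ∃ a, jm a = γ • F - F := fun γ => by
        have h2 : ((γ • F : Co Γ V) : Co Γ V ⧸ jm.range) = (F : Co Γ V ⧸ jm.range) := hq γ
        rw [QuotientAddGroup.eq] at h2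
        obtain ⟨a, ha⟩ := h2
        exact ⟨-a, by rw [map_neg, ha]; abel⟩
      choose f hf using hF
      have hcoc : IsCocycle₁ f := fun γ δ => hinj (by
        rw [map_add, hjs, hf, hf, hf, mul_smul, smul_sub]
        abel)
      obtain ⟨a, ha⟩ := K1.one h1 hcoc
      have hF' : ∀ γ : Γ, γ • (F - jm a) = F - jm a := fun γ => by
        rw [smul_sub, ← hjs]
        have h3 : jm (γ • a) = jm a + (γ • F - F) := by
          rw [← hf, ← map_add, ← ha γ]
          congr 1
          abel
        rw [h3]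
        abel
      have hconst : ∀ x, (F - jm a) x = (F - jm a) 1 := fun x => by
        have := congrArg (fun E : Co Γ V => E 1) (hF' x)
        simpa using this
      set v : V := (F - jm a) 1 with hv
      have hjv : jm (v : A) = F - jm a := by
        ext x
        rw [hconst x]
        exact hfix (v : A) (fun g => v.2 g trivial) x
      rw [QuotientAddGroup.eq_zero_iff]
      exact ⟨(v : A) + a, by rw [map_add, hjv]; abel⟩
  refine ⟨V, inferInstance, (AddEquiv.ofBijective jm ⟨hinj, hsurj⟩).trans Co.toPi, ?_⟩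
  intro γ a x
  show jm (γ • a) x = jm a (x * γ)
  rw [hjs]
  rfl

end Fermat.Agent.S55Lib.TN
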