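import Fermat.Agent.S55.T.Basic

/-! # S55 chapter T: presentations (leaves T-PRES, T-MODP) -/

set_option autoImplicit false

namespace Fermat.Agent.S55Lib.TN

open groupCohomology

variable {Γ : Type} [Group Γ]

lemma Co.eps_smul [Finite Γ] {A : Type} [AddCommGroup A] [DistribMulAction Γ A] (γ : Γ)
    (f : Co Γ A) : Co.eps (γ • f) = γ • Co.eps f := by
  cases nonempty_fintype Γ
  rw [Co.eps_apply, Co.eps_apply, Finset.smul_sum]
  refine Fintype.sum_equiv (Equiv.mulRight γ) _ _ (fun x => ?_)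
  simp [mul_smul]

/-- (T-PRES) `F := Co Γ (A →₀ ℤ)`, `π f := ∑ x, x⁻¹ • ev (f x)`, `R := ker π` (`subAction`). -/
theorem exists_pres [Finite Γ] (A : Type) [AddCommGroup A] [DistribMulAction Γ A] :
    ∃ (R F : Type) (_ : AddCommGroup R) (_ : AddCommGroup F) (_ : DistribMulAction Γ R)
      (_ : DistribMulAction Γ F) (i : R →+ F) (π : F →+ A),
      GSES Γ i π ∧ IsCoind Γ F ∧ ∀ (n : ℕ) (r : R), n ≠ 0 → n • r = 0 → r = 0 := by
  classical
  cases nonempty_fintype Γ
  let ev : (A →₀ ℤ) →+ A := Finsupp.liftAddHom (fun a => zmultiplesHom A a)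
  let π : Co Γ (A →₀ ℤ) →+ A := (Co.eps : Co Γ A →+ A).comp (Co.map ev)
  have hπs : ∀ (g : Γ) f, π (g • f) = g • π f := fun g f => by
    show Co.eps (Co.map ev (g • f)) = g • Co.eps (Co.map ev f)
    rw [Co.map_smul, Co.eps_smul]
  have hst : ∀ (g : Γ), ∀ m ∈ π.ker, g • m ∈ π.ker := fun g m hm => by
    rw [AddMonoidHom.mem_ker] at hm ⊢
    rw [hπs, hm, smul_zero]
  refine ⟨π.ker, Co Γ (A →₀ ℤ), inferInstance, inferInstance, subAction _ hst, inferInstance,
    π.ker.subtype, π, ?_, isCoind_Co Γ _, ?_⟩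
  · letI : DistribMulAction Γ π.ker := subAction _ hst
    refine GSES.mk (fun g a => rfl) hπs Subtype.val_injective (fun a => a.2)
      (fun b hb => ⟨⟨b, hb⟩, rfl⟩) ?_
    intro a
    refine ⟨Co.of (Pi.single 1 (Finsupp.single a 1)), ?_⟩
    show Co.eps (Co.map ev _) = a
    rw [Co.eps_apply, Finset.sum_eq_single 1]
    · simp [ev]
    · intro x _ hx
      simp [Pi.single_eq_of_ne hx]
    · intro h
      exact absurd (Finset.mem_univ _) h
  · intro n r hn h
    apply Subtype.ext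
    ext x a
    have h1 := congrArg (fun z : π.ker => ((z : Co Γ (A →₀ ℤ)) x) a) h
    simp only [AddSubgroup.coe_nsmul, Co.nsmul_apply, Finsupp.smul_apply, AddSubgroup.coe_zero,
      Co.zero_apply, Finsupp.coe_zero, Pi.zero_apply, nsmul_eq_mul] at h1
    rcases mul_eq_zero.1 h1 with h2 | h2
    · exact absurd (by exact_mod_cast h2) hn
    · simpa using h2

/-- (T-MODP) `Rb := R ⧸ pR` (`quotAction`). -/
theorem exists_modp (p : ℕ) (R : Type) [AddCommGroup R] [DistribMulAction Γ R] :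
    ∃ (Rb : Type) (_ : AddCommGroup Rb) (_ : DistribMulAction Γ Rb) (q : R →+ Rb),
      (∀ (g : Γ) r, q (g • r) = g • q r) ∧ Function.Surjective q ∧
      (∀ r, q r = 0 ↔ ∃ r', r = p • r') ∧ ∀ x : Rb, p • x = 0 := by
  let S : AddSubgroup R := (p • AddMonoidHom.id R).range
  have hst : ∀ (g : Γ), ∀ m ∈ S, g • m ∈ S := by
    rintro g _ ⟨r, rfl⟩
    exact ⟨g • r, by
      show p • (g • r) = g • (p • r)
      rw [smul_comm]⟩
  refine ⟨R ⧸ S, inferInstance, quotAction S hst, QuotientAddGroup.mk' S, fun g r => rfl,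
    QuotientAddGroup.mk'_surjective S, fun r => ?_, fun x => ?_⟩
  · rw [QuotientAddGroup.mk'_apply, QuotientAddGroup.eq_zero_iff]
    constructor
    · rintro ⟨r', rfl⟩
      exact ⟨r', rfl⟩
    · rintro ⟨r', rfl⟩
      exact ⟨r', rfl⟩
  · induction x using QuotientAddGroup.induction_on with
    | H r =>
      show ((p • r : R) : R ⧸ S) = 0
      rw [QuotientAddGroup.eq_zero_iff]
      exact ⟨r, rfl⟩

end Fermat.Agent.S55Lib.TN
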