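import Fermat.Agent.S55.T.Basic

/-! # S55 chapter T: dimension shifting with multipliers (leaves T-S01, T-S12, T-S10, T-S21) -/

set_option autoImplicit false
set_option linter.unusedSectionVars false
set_option linter.unusedVariables false

namespace Fermat.Agent.S55Lib.TN

open groupCohomology

variable {Γ : Type} [Group Γ] {A B C : Type} [AddCommGroup A] [AddCommGroup B] [AddCommGroup C]
  [DistribMulAction Γ A] [DistribMulAction Γ B] [DistribMulAction Γ C]
  {i : A →+ B} {π : B →+ C}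

/-- (T-S01) `c` fixed, lift `b`, `g b - b = i (f g)`, `m f = ∂ a`, `m b - i a` fixed,
`m' (m b - i a) = N b'`, so `m m' c = N (π b')`. -/
theorem S01 [Finite Γ] (h : GSES Γ i π) {m m' : ℕ} (hA : K1 Γ m A) (hB : K0 Γ m' B) :
    K0 Γ (m * m') C := by
  intro c hc
  obtain ⟨b, rfl⟩ := h.surj c
  have h1 : ∀ g : Γ, ∃ a, i a = g • b - b := fun g => h.exact _ (by
    rw [map_sub, h.π_smul, hc g, sub_self])
  choose f hf using h1
  have hcoc : IsCocycle₁ f := fun g k => h.inj (by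
    rw [map_add, h.i_smul, hf, hf, hf, mul_smul, smul_sub]; abel)
  obtain ⟨a, ha⟩ := hA f hcoc
  have hfix : ∀ g : Γ, g • (m • b - i a) = m • b - i a := fun g => by
    have h2 : i (g • a - a) = m • (g • b - b) := by
      rw [ha g, Pi.smul_apply, map_nsmul, hf]
    rw [map_sub, h.i_smul, smul_sub] at h2
    rw [smul_sub, smul_comm g m b]
    have h3 : g • i a = m • g • b - m • b + i a := by rw [← h2]; abel
    rw [h3]
    abel
  obtain ⟨b', hb'⟩ := hB _ hfix
  refine ⟨π b', ?_⟩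
  rw [← normG_map π h.π_smul, ← hb', map_nsmul, map_sub, h.comp, sub_zero, map_nsmul, mul_comm,
    mul_smul]

/-- (T-S12) `e ∈ Z¹(C)`, lift `b : Γ → B`, `∂ b = i ∘ f`, `m f = ∂ a`, `m b - i a ∈ Z¹(B)`. -/
theorem S12 (h : GSES Γ i π) {m m' : ℕ} (hA : K2 Γ m A) (hB : K1 Γ m' B) :
    K1 Γ (m * m') C := by
  intro e he
  choose b hb using fun g => h.surj (e g)
  have h1 : ∀ gk : Γ × Γ, ∃ a, i a = gk.1 • b gk.2 - b (gk.1 * gk.2) + b gk.1 := fun gk =>
    h.exact _ (by
      rw [map_add, map_sub, h.π_smul, hb, hb, hb, he gk.1 gk.2]; abel)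
  choose f hf using h1
  have hcoc : IsCocycle₂ f := fun g k l => h.inj (by
    rw [map_add, map_add, h.i_smul, hf, hf, hf, hf]
    simp only [smul_add, smul_sub, mul_smul, mul_assoc]
    abel)
  obtain ⟨a, ha⟩ := hA f hcoc
  have hcoc' : IsCocycle₁ (fun g => m • b g - i (a g)) := fun g k => by
    have h2 : i (g • a k - a (g * k) + a g) = m • (g • b k - b (g * k) + b g) := by
      rw [ha g k, Pi.smul_apply, map_nsmul, hf]
    rw [map_add, map_sub, h.i_smul, smul_add, smul_sub] at h2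
    show m • b (g * k) - i (a (g * k)) = g • (m • b k - i (a k)) + (m • b g - i (a g))
    rw [smul_sub, smul_comm g m]
    have h3 : i (a (g * k)) = g • i (a k) + i (a g) - (m • g • b k - m • b (g * k) + m • b g) := by
      rw [← h2]; abel
    rw [h3]
    abel
  obtain ⟨x, hx⟩ := hB _ hcoc'
  refine ⟨π x, fun g => ?_⟩
  have h4 := congrArg π (hx g)
  rw [map_sub, h.π_smul] at h4
  rw [h4]
  show π (m' • (m • b g - i (a g))) = (m * m') • e g
  rw [map_nsmul, map_sub, h.comp, sub_zero, map_nsmul, hb, mul_comm, mul_smul]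

/-- (T-S10) `f ∈ Z¹(A)`, `m' i f = ∂ b`, `π b` fixed, `m π b = N c' = π (N b')`,
`m b - N b' = i a`, `∂ a = m m' f`. -/
theorem S10 [Finite Γ] (h : GSES Γ i π) {m m' : ℕ} (hC : K0 Γ m C) (hB : K1 Γ m' B) :
    K1 Γ (m * m') A := by
  intro f hf
  obtain ⟨b, hb⟩ := hB _ (isCocycle₁_map i h.i_smul hf)
  have hb' : ∀ g, g • b - b = m' • i (f g) := hb
  have hfix : ∀ g : Γ, g • π b = π b := fun g => by
    have := congrArg π (hb' g)
    rw [map_sub, h.π_smul, map_nsmul, h.comp, smul_zero] at this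
    exact sub_eq_zero.1 this
  obtain ⟨c', hc'⟩ := hC _ hfix
  obtain ⟨b', rfl⟩ := h.surj c'
  obtain ⟨a, ha⟩ := h.exact (m • b - normG Γ B b') (by
    rw [map_sub, map_nsmul, hc', normG_map π h.π_smul, sub_self])
  refine ⟨a, fun g => h.inj ?_⟩
  show i (g • a - a) = i ((m * m') • f g)
  rw [map_sub, h.i_smul, ha, smul_sub, smul_normG, map_nsmul, mul_smul, ← hb', smul_sub,
    smul_comm g m]
  abel

/-- (T-S21) `f ∈ Z²(A)`, `m' i f = ∂ b`, `π b ∈ Z¹(C)`, `m π b = ∂ c = π ∂ β`,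
`m b - ∂ β = i ∘ a`, `∂ a = m m' f`. -/
theorem S21 (h : GSES Γ i π) {m m' : ℕ} (hC : K1 Γ m C) (hB : K2 Γ m' B) :
    K2 Γ (m * m') A := by
  intro f hf
  obtain ⟨b, hb⟩ := hB _ (isCocycle₂_map i h.i_smul hf)
  have hb' : ∀ g k, g • b k - b (g * k) + b g = m' • i (f (g, k)) := hb
  have hcoc : IsCocycle₁ (fun g => π (b g)) := fun g k => by
    have := congrArg π (hb' g k)
    rw [map_add, map_sub, h.π_smul, map_nsmul, h.comp, smul_zero] at this
    show π (b (g * k)) = g • π (b k) + π (b g)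
    have h2 : π (b (g * k)) = g • π (b k) + π (b g) - (g • π (b k) - π (b (g * k)) + π (b g)) := by
      abel
    rw [h2, this, sub_zero]
  obtain ⟨c, hc⟩ := hC _ hcoc
  obtain ⟨β, rfl⟩ := h.surj c
  have hc' : ∀ g, g • π β - π β = m • π (b g) := hc
  have h1 : ∀ g, ∃ a, i a = m • b g - (g • β - β) := fun g => h.exact _ (by
    rw [map_sub, map_nsmul, map_sub, h.π_smul, hc', sub_self])
  choose a ha using h1
  refine ⟨a, fun g k => h.inj ?_⟩
  show i (g • a k - a (g * k) + a g) = i ((m * m') • f (g, k))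
  rw [map_add, map_sub, h.i_smul, ha, ha, ha, map_nsmul, mul_smul m m', ← hb']
  simp only [smul_sub, smul_add, mul_smul, smul_comm g m]
  abel

end Fermat.Agent.S55Lib.TN
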