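import Fermat.Agent.S55.T.Acyclic
import Fermat.Agent.S55.T.Shift
import Fermat.Agent.S55.T.Card
import Fermat.Agent.S55.T.KeyLemma
import Fermat.Agent.S55.T.Pres
import Fermat.Agent.S55.T.HomCoind

/-! # S55 chapter T: the cohomological triviality criterion for `p`-groups -/

set_option autoImplicit false
set_option linter.unusedSectionVars false
set_option linter.unusedVariables false

namespace Fermat.Agent.S55Lib.TN

open groupCohomology

/-- **C.T.**: `Γ` a `p`-group, `H¹(Γ,A) = H²(Γ,A) = 0`, `Y` a free abelian group with `Γ`-action.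
Then `H¹(Γ,Hom(Y,A)) = H²(Γ,Hom(Y,A)) = 0`. -/
theorem CT (p : ℕ) [Fact p.Prime] {Γ : Type} [Group Γ] [Finite Γ] (hΓ : IsPGroup p Γ)
    {A Y : Type} [AddCommGroup A] [AddCommGroup Y] [DistribMulAction Γ A] [DistribMulAction Γ Y]
    [Module.Free ℤ Y] (h1 : K1 Γ 1 A) (h2 : K2 Γ 1 A) :
    K1 Γ 1 (HomM Γ Y A) ∧ K2 Γ 1 (HomM Γ Y A) := by
  have hp0 : p ≠ 0 := (Fact.out : p.Prime).ne_zero
  have hCo := isCoind_Co Γ A
  -- step 1
  have a0 : K0 Γ 1 (Up Γ A) := S01 (m := 1) (m' := 1) Up.gses h1 hCo.K0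
  have a1 : K1 Γ 1 (Up Γ A) := S12 (m := 1) (m' := 1) Up.gses h2 hCo.K1
  -- step 2
  obtain ⟨R, F, _, _, _, _, i, π, hses, hF, htf⟩ := exists_pres (Γ := Γ) (Up Γ A)
  have r1 : K1 Γ 1 R := S10 (m := 1) (m' := 1) hses a0 hF.K1
  have r2 : K2 Γ 1 R := S21 (m := 1) (m' := 1) hses a1 hF.K2
  -- step 3
  obtain ⟨Rb, _, _, q, hq, hqs, hqk, hRb⟩ := exists_modp (Γ := Γ) p R
  have hsesp : GSES Γ (p • AddMonoidHom.id R) q :=
    { i_smul := fun g a => by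
        show p • (g • a) = g • (p • a)
        rw [smul_comm]
      π_smul := hq
      inj := fun a b hab => by
        have h3 : p • (a - b) = 0 := by
          rw [smul_sub]
          exact sub_eq_zero.2 hab
        exact sub_eq_zero.1 (htf p _ hp0 h3)
      comp := fun a => (hqk _).2 ⟨a, rfl⟩
      exact := fun b hb => by
        obtain ⟨r', hr'⟩ := (hqk b).1 hb
        exact ⟨r', hr'.symm⟩
      surj := hqs }
  have rb1 : K1 Γ 1 Rb := S12 (m := 1) (m' := 1) hsesp r2 r1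
  -- step 4, 5
  have hRbC : IsCoind Γ Rb := isCoind_of_K1 p hΓ Rb hRb rb1
  have hHb : IsCoind Γ (HomM Γ Y Rb) := isCoind_HomM_right hRbC
  -- step 6
  obtain ⟨m1, m2, m3⟩ := homM_modp (Γ := Γ) (Y := Y) p hp0 q hqs hqk (fun r => htf p r hp0)
  have hr1 : K1 Γ 1 (HomM Γ Y R) :=
    nak1 p hΓ (HomM.post (G := Γ) (X := Y) q) (HomM.post_smul q hq) m1 m2 m3 hHb.K1
  have hr2 : K2 Γ 1 (HomM Γ Y R) :=
    nak2 p hΓ (HomM.post (G := Γ) (X := Y) q) (HomM.post_smul q hq) m1 m2 m3 hHb.K2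
  -- step 7
  have hHF : IsCoind Γ (HomM Γ Y F) := isCoind_HomM_right hF
  have b0 : K0 Γ 1 (HomM Γ Y (Up Γ A)) :=
    S01 (m := 1) (m' := 1) (GSES.homM (Y := Y) hses) hr1 hHF.K0
  have b1 : K1 Γ 1 (HomM Γ Y (Up Γ A)) :=
    S12 (m := 1) (m' := 1) (GSES.homM (Y := Y) hses) hr2 hHF.K1
  -- step 8
  have hHC : IsCoind Γ (HomM Γ Y (Co Γ A)) := isCoind_HomM_right hCo
  exact ⟨S10 (m := 1) (m' := 1) (GSES.homM (Y := Y) Up.gses) b0 hHC.K1,
    S21 (m := 1) (m' := 1) (GSES.homM (Y := Y) Up.gses) b1 hHC.K2⟩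

/-- (T-CT) the `K2` half of `CT`. -/
theorem CT2 (p : ℕ) [Fact p.Prime] {Γ : Type} [Group Γ] [Finite Γ] (hΓ : IsPGroup p Γ)
    {A Y : Type} [AddCommGroup A] [AddCommGroup Y] [DistribMulAction Γ A] [DistribMulAction Γ Y]
    [Module.Free ℤ Y] (h1 : K1 Γ 1 A) (h2 : K2 Γ 1 A) : K2 Γ 1 (HomM Γ Y A) :=
  (CT p hΓ h1 h2).2

end Fermat.Agent.S55Lib.TN
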