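import Fermat.Agent.S55.T.Basic

/-! # S55 chapter T: connecting maps of additively split sequences (leaves T-SPa .. T-SPd)

For `0 → A → B → C → 0` with additive splitting `(r,s)` put `τ g c := r (g • s c)`.
`δ⁰ c = (g ↦ τ g c)`, `δ¹ e = ((g,h) ↦ τ g (e h))`.  Key identity:
`g • s c = s (g • c) + i (τ g c)`. -/

set_option autoImplicit false

namespace Fermat.Agent.S55Lib.TN

open groupCohomology

variable {Γ : Type} [Group Γ] {A B C : Type} [AddCommGroup A] [AddCommGroup B] [AddCommGroup C]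
  [DistribMulAction Γ A] [DistribMulAction Γ B] [DistribMulAction Γ C]
  {i : A →+ B} {π : B →+ C} {r : B →+ A} {s : C →+ B}

theorem split_key (h : GSES Γ i π) (hs : GSplit i π r s) (g : Γ) (c : C) :
    g • s c = s (g • c) + i (r (g • s c)) := by
  have h1 := hs.decomp (g • s c)
  rw [h.π_smul, hs.πs] at h1
  rw [add_comm, h1]

theorem split_key' (h : GSES Γ i π) (hs : GSplit i π r s) (g : Γ) (c : C) :
    i (r (g • s c)) = g • s c - s (g • c) := by
  rw [eq_sub_iff_add_eq, add_comm, ← split_key h hs]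

/-- (T-SPa0) -/
theorem split_coc₁ (h : GSES Γ i π) (hs : GSplit i π r s) {c : C} (hc : ∀ g : Γ, g • c = c) :
    IsCocycle₁ (fun g : Γ => r (g • s c)) := by
  intro g k
  apply h.inj
  show i (r ((g * k) • s c)) = i (g • r (k • s c) + r (g • s c))
  rw [map_add, h.i_smul, split_key' h hs, split_key' h hs, split_key' h hs, hc, hc, hc, smul_sub,
    mul_smul]
  abel

/-- (T-SPa1) -/
theorem split_coc₂ (h : GSES Γ i π) (hs : GSplit i π r s) {e : Γ → C} (he : IsCocycle₁ e) :
    IsCocycle₂ (fun x : Γ × Γ => r (x.1 • s (e x.2))) := by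
  intro g k j
  apply h.inj
  show i (r ((g * k) • s (e j)) + r (g • s (e k)))
    = i (g • r (k • s (e j)) + r (g • s (e (k * j))))
  rw [map_add, map_add, h.i_smul, split_key' h hs, split_key' h hs, split_key' h hs,
    split_key' h hs, he k j, smul_sub, mul_smul, mul_smul, smul_add, map_add, map_add, smul_add]
  abel

/-- (T-SPb0) surjectivity of `δ⁰` -/
theorem split_surj₁ (h : GSES Γ i π) (hs : GSplit i π r s) (hB : K1 Γ 1 B) {f : Γ → A}
    (hf : IsCocycle₁ f) :
    ∃ c : C, (∀ g : Γ, g • c = c) ∧ IsCoboundary₁ (f - fun g : Γ => r (g • s c)) := by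
  obtain ⟨b, hb⟩ := hB.one (isCocycle₁_map i h.i_smul hf)
  replace hb : ∀ g : Γ, g • b - b = i (f g) := hb
  have hc : ∀ g : Γ, g • π b = π b := fun g => by
    rw [← sub_eq_zero, ← h.π_smul, ← map_sub, hb g, h.comp]
  refine ⟨π b, hc, r b, fun g => ?_⟩
  apply h.inj
  show i (g • r b - r b) = i (f g - r (g • s (π b)))
  have h1 := hs.decomp b
  have h2 : g • b = g • i (r b) + g • s (π b) := by rw [← smul_add, h1]
  have h3 : b = i (r b) + s (π b) := h1.symm
  rw [map_sub, map_sub, h.i_smul, split_key' h hs, hc g, ← hb g, h2]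
  generalize π b = c at *
  generalize i (r b) = t at *
  rw [h3]
  abel

/-- (T-SPb1) surjectivity of `δ¹` -/
theorem split_surj₂ (h : GSES Γ i π) (hs : GSplit i π r s) (hB : K2 Γ 1 B) {f : Γ × Γ → A}
    (hf : IsCocycle₂ f) :
    ∃ e : Γ → C, IsCocycle₁ e ∧ IsCoboundary₂ (f - fun x : Γ × Γ => r (x.1 • s (e x.2))) := by
  obtain ⟨b, hb⟩ := hB.one (isCocycle₂_map i h.i_smul hf)
  have he : IsCocycle₁ (fun g => π (b g)) := fun g k => by
    have h1 := congrArg π (hb g k)
    simp only [map_add, map_sub, h.π_smul, h.comp] at h1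
    show π (b (g * k)) = g • π (b k) + π (b g)
    rw [← sub_eq_zero, ← neg_eq_zero, ← h1]
    abel
  refine ⟨fun g => π (b g), he, fun g => r (b g), fun g k => ?_⟩
  apply h.inj
  show i (g • r (b k) - r (b (g * k)) + r (b g)) = i (f (g, k) - r (g • s (π (b k))))
  have h1 : ∀ x, i (r (b x)) = b x - s (π (b x)) := fun x => by
    rw [eq_sub_iff_add_eq, hs.decomp]
  have h2 : i (f (g, k)) = g • b k - b (g * k) + b g := (hb g k).symm
  have h3 : π (b (g * k)) = g • π (b k) + π (b g) := he g k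
  rw [map_add, map_sub, map_sub, h.i_smul, h1, h1, h1, split_key' h hs, h2, h3, map_add, smul_sub]
  abel

/-- (T-SPc0) injectivity of `δ⁰` -/
theorem split_inj₁ [Finite Γ] (h : GSES Γ i π) (hs : GSplit i π r s) (hB : K0 Γ 1 B) {c : C}
    (hc : ∀ g : Γ, g • c = c) (hcob : IsCoboundary₁ (fun g : Γ => r (g • s c))) :
    ∃ c' : C, c = normG Γ C c' := by
  obtain ⟨a, ha⟩ := hcob
  replace ha : ∀ g : Γ, g • a - a = r (g • s c) := ha
  have hfix : ∀ g : Γ, g • (s c - i a) = s c - i a := fun g => by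
    have h1 := split_key' h hs g c
    rw [← ha g, hc g, map_sub, h.i_smul] at h1
    rw [smul_sub, ← sub_eq_zero, ← neg_eq_zero, ← sub_eq_zero.2 h1]
    abel
  obtain ⟨b', hb'⟩ := hB.one hfix
  refine ⟨π b', ?_⟩
  rw [← normG_map π h.π_smul, ← hb', map_sub, hs.πs, h.comp, sub_zero]

/-- (T-SPc1) injectivity of `δ¹` -/
theorem split_inj₂ (h : GSES Γ i π) (hs : GSplit i π r s) (hB : K1 Γ 1 B) {e : Γ → C}
    (he : IsCocycle₁ e) (hcob : IsCoboundary₂ (fun x : Γ × Γ => r (x.1 • s (e x.2)))) :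
    IsCoboundary₁ e := by
  obtain ⟨a, ha⟩ := hcob
  have hcoc : IsCocycle₁ (fun g => s (e g) - i (a g)) := fun g k => by
    have h1 := split_key' h hs g (e k)
    have h2 : g • a k - a (g * k) + a g = r (g • s (e k)) := ha g k
    rw [← h2, map_add, map_sub, h.i_smul] at h1
    show s (e (g * k)) - i (a (g * k)) = g • (s (e k) - i (a k)) + (s (e g) - i (a g))
    rw [he g k, map_add, smul_sub, ← sub_eq_zero, ← sub_eq_zero.2 h1]
    abel
  obtain ⟨β, hβ⟩ := hB.one hcoc
  refine ⟨π β, fun g => ?_⟩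
  rw [← h.π_smul, ← map_sub, hβ g, map_sub, hs.πs, h.comp, sub_zero]

/-- (T-SPd0) `δ⁰` kills norms -/
theorem split_norm₁ [Finite Γ] (h : GSES Γ i π) (hs : GSplit i π r s) (c' : C) :
    IsCoboundary₁ (fun g : Γ => r (g • s (normG Γ C c'))) := by
  obtain ⟨a, ha⟩ := h.exact (s (normG Γ C c') - normG Γ B (s c')) (by
    rw [map_sub, hs.πs, normG_map π h.π_smul, hs.πs, sub_self])
  refine ⟨a, fun g => ?_⟩
  apply h.inj
  show i (g • a - a) = i (r (g • s (normG Γ C c')))
  rw [split_key' h hs, smul_normG, map_sub, h.i_smul, ha, smul_sub, smul_normG]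
  abel

/-- (T-SPd1) `δ¹` kills coboundaries -/
theorem split_cob₂ (h : GSES Γ i π) (hs : GSplit i π r s) {e : Γ → C} (he : IsCoboundary₁ e) :
    IsCoboundary₂ (fun x : Γ × Γ => r (x.1 • s (e x.2))) := by
  obtain ⟨c, hc⟩ := he
  refine ⟨fun g => -r (g • s c), fun g k => ?_⟩
  apply h.inj
  show i (g • (-r (k • s c)) - -r ((g * k) • s c) + -r (g • s c)) = i (r (g • s (e k)))
  rw [map_add, map_sub, map_neg, map_neg, h.i_smul, map_neg, split_key' h hs, split_key' h hs,
    split_key' h hs, split_key' h hs, ← hc k, smul_sub, map_sub, map_sub, smul_neg, smul_sub,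
    smul_sub, mul_smul, mul_smul]
  abel

end Fermat.Agent.S55Lib.TN
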