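import Fermat.Agent.S55.T.Acyclic
import Fermat.Agent.S55.T.Split
import Fermat.Agent.S55.T.HomCoind

/-! # S55 chapter T: the explicit double shift, contravariant side (leaves T-HS1 .. T-HS5) -/

set_option autoImplicit false
set_option linter.unusedSectionVars false

namespace Fermat.Agent.S55Lib.TN

open groupCohomology

variable {G : Type} [Group G] [Finite G] {W X C : Type} [AddCommGroup W] [AddCommGroup X]
  [AddCommGroup C] [DistribMulAction G W] [DistribMulAction G X] [DistribMulAction G C]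

lemma HomM.pre_apply' {X' Y' : Type} [AddCommGroup X'] [AddCommGroup Y'] [DistribMulAction G X']
    [DistribMulAction G Y'] (j : X' →+ Y') (φ : HomM G Y' C) (x : X') :
    HomM.pre (G := G) (A := C) j φ x = φ (j x) := rfl

/-- (T-HS1) `0 → Hom(Up W,C) → Hom(Co W,C) → Hom(W,C) → 0` -/
theorem homShift_gses :
    GSES G (HomM.pre (G := G) (A := C) (Up.π : Co G W →+ Up G W))
      (HomM.pre (G := G) (A := C) (Co.ι : W →+ Co G W)) where
  i_smul g θ := HomM.pre_smul _ (Up.gses (G := G) (A := W)).π_smul g θ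
  π_smul g Φ := HomM.pre_smul _ Co.ι_smul g Φ
  inj θ θ' h := by
    ext E
    have := congrArg (fun Φ : HomM G (Co G W) C => Φ (Up.σ E)) h
    simpa only [HomM.pre_apply', (Up.gsplit (G := G) (A := W)).πs] using this
  comp θ := by
    ext a
    rw [HomM.pre_apply', HomM.pre_apply', (Up.gses (G := G) (A := W)).comp]
    simp
  exact Φ hΦ := ⟨HomM.pre (G := G) (A := C) (Up.σ : Up G W →+ Co G W) Φ, by
    ext F
    have h1 : Φ (Co.ι (Co.ev F)) = 0 := congrArg (fun φ : HomM G W C => φ (Co.ev F)) hΦ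
    rw [HomM.pre_apply', HomM.pre_apply']
    conv_rhs => rw [← (Up.gsplit (G := G) (A := W)).decomp F]
    rw [map_add, h1, zero_add]⟩
  surj φ := ⟨HomM.pre (G := G) (A := C) (Co.ev : Co G W →+ W) φ, by
    ext a
    rw [HomM.pre_apply', HomM.pre_apply', (Up.gsplit (G := G) (A := W)).ri]⟩

/-- (T-HS1) its additive splitting -/
theorem homShift_gsplit :
    GSplit (HomM.pre (G := G) (A := C) (Up.π : Co G W →+ Up G W))
      (HomM.pre (G := G) (A := C) (Co.ι : W →+ Co G W))
      (HomM.pre (G := G) (A := C) (Up.σ : Up G W →+ Co G W))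
      (HomM.pre (G := G) (A := C) (Co.ev : Co G W →+ W)) where
  ri θ := by
    ext E
    rw [HomM.pre_apply', HomM.pre_apply', (Up.gsplit (G := G) (A := W)).πs]
  πs φ := by
    ext a
    rw [HomM.pre_apply', HomM.pre_apply', (Up.gsplit (G := G) (A := W)).ri]
  rs φ := by
    ext E
    rw [HomM.pre_apply', HomM.pre_apply', (Up.gsplit (G := G) (A := W)).rs]
    simp
  decomp Φ := by
    ext F
    rw [HomM.add_apply, HomM.pre_apply', HomM.pre_apply', HomM.pre_apply', HomM.pre_apply',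
      add_comm, ← map_add, (Up.gsplit (G := G) (A := W)).decomp]

/-- the twisting cochain of `homShift`: `τ g θ E = g • θ (E g⁻¹)` -/
theorem homShift_tau (g : G) (θ : HomM G W C) (E : Up G W) :
    HomM.pre (G := G) (A := C) (Up.σ : Up G W →+ Co G W)
      (g • HomM.pre (G := G) (A := C) (Co.ev : Co G W →+ W) θ) E = g • θ (E g⁻¹) := by
  rw [HomM.pre_apply', HomM.smul_apply, HomM.pre_apply']
  simp

/-- `δδφ`: `a2 φ (g,h) y = (g*h) • φ (y g⁻¹ h⁻¹)` -/
def a2 (φ : HomM G X C) : G × G → HomM G (Up G (Up G X)) C := fun x =>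
  HomM.of
    { toFun := fun y => (x.1 * x.2) • φ (y x.1⁻¹ x.2⁻¹)
      map_zero' := by simp
      map_add' := fun y y' => by simp }

@[simp] lemma a2_apply (φ : HomM G X C) (g h : G) (y : Up G (Up G X)) :
    a2 φ (g, h) y = (g * h) • φ (y g⁻¹ h⁻¹) := rfl

lemma a2_nsmul (n : ℕ) (φ : HomM G X C) : a2 (n • φ) = n • a2 φ := by
  funext x
  obtain ⟨g, h⟩ := x
  ext y
  show (g * h) • (n • φ (y g⁻¹ h⁻¹)) = n • ((g * h) • φ (y g⁻¹ h⁻¹))
  rw [smul_comm]

/-- (T-HS2) `a2 φ (g,h) = τ' g (τ h φ)` -/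
theorem a2_eq (φ : HomM G X C) (g h : G) :
    a2 φ (g, h) = HomM.pre (G := G) (A := C) (Up.σ : Up G (Up G X) →+ Co G (Up G X))
      (g • HomM.pre (G := G) (A := C) (Co.ev : Co G (Up G X) →+ Up G X)
        (HomM.pre (G := G) (A := C) (Up.σ : Up G X →+ Co G X)
          (h • HomM.pre (G := G) (A := C) (Co.ev : Co G X →+ X) φ))) := by
  ext y
  rw [homShift_tau, homShift_tau, a2_apply, mul_smul]

lemma a2_eq' (φ : HomM G X C) :
    a2 φ = fun x : G × G => HomM.pre (G := G) (A := C) (Up.σ : Up G (Up G X) →+ Co G (Up G X))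
      (x.1 • HomM.pre (G := G) (A := C) (Co.ev : Co G (Up G X) →+ Up G X)
        ((fun h : G => HomM.pre (G := G) (A := C) (Up.σ : Up G X →+ Co G X)
          (h • HomM.pre (G := G) (A := C) (Co.ev : Co G X →+ X) φ)) x.2)) := by
  funext x
  exact a2_eq φ x.1 x.2

/-- (T-HS3) `split_coc₁`, `split_coc₂` -/
theorem a2_isCocycle₂ {φ : HomM G X C} (hφ : ∀ g : G, g • φ = φ) : IsCocycle₂ (a2 φ) := by
  rw [a2_eq']
  have h1 := split_coc₁ (homShift_gses (G := G) (W := X) (C := C)) homShift_gsplit hφ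
  exact split_coc₂ (homShift_gses (G := G) (W := Up G X) (C := C)) homShift_gsplit h1

/-- (T-HS4) `split_surj₂` (for `W = Up G X`), `split_surj₁` (for `W = X`), `split_cob₂`;
`Hom(Co W,C)` is coinduced (`isCoind_HomM_left`). -/
theorem exists_a2 {F : G × G → HomM G (Up G (Up G X)) C} (hF : IsCocycle₂ F) :
    ∃ φ : HomM G X C, (∀ g : G, g • φ = φ) ∧ IsCoboundary₂ (F - a2 φ) := by
  obtain ⟨e, he, h1⟩ := split_surj₂ (homShift_gses (G := G) (W := Up G X) (C := C))
    homShift_gsplit (isCoind_HomM_left (isCoind_Co G (Up G X))).K2 hF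
  obtain ⟨φ, hφ, h2⟩ := split_surj₁ (homShift_gses (G := G) (W := X) (C := C))
    homShift_gsplit (isCoind_HomM_left (isCoind_Co G X)).K1 he
  refine ⟨φ, hφ, ?_⟩
  have h3 := split_cob₂ (homShift_gses (G := G) (W := Up G X) (C := C)) homShift_gsplit h2
  convert isCoboundary₂_add h1 h3 using 1
  rw [a2_eq']
  funext x
  simp only [Pi.sub_apply, Pi.add_apply, map_sub, smul_sub]
  abel

/-- (T-HS5) `split_inj₂`, `split_inj₁` -/
theorem a2_cob {φ : HomM G X C} (hφ : ∀ g : G, g • φ = φ) (h : IsCoboundary₂ (a2 φ)) :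
    ∃ ψ : HomM G X C, φ = normG G (HomM G X C) ψ := by
  rw [a2_eq'] at h
  have h1 := split_inj₂ (homShift_gses (G := G) (W := Up G X) (C := C)) homShift_gsplit
    (isCoind_HomM_left (isCoind_Co G (Up G X))).K1
    (split_coc₁ (homShift_gses (G := G) (W := X) (C := C)) homShift_gsplit hφ) h
  exact split_inj₁ (homShift_gses (G := G) (W := X) (C := C)) homShift_gsplit
    (isCoind_HomM_left (isCoind_Co G X)).K0 hφ h1

end Fermat.Agent.S55Lib.TN
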