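import Fermat.Agent.S55.T.Basic

/-! # S55 chapter T: lattices and lattice duality (leaves T-LAT, T-LD0, T-LDI, T-LDS) -/

set_option autoImplicit false
set_option linter.unusedSectionVars false
set_option linter.unusedVariables false

namespace Fermat.Agent.S55Lib.TN

open groupCohomology

variable {G : Type} [Group G] [Finite G]

section

variable {X : Type} [AddCommGroup X] [Module.Free ℤ X] [Module.Finite ℤ X]

/-- (T-LAT) via `Co.toPi.toIntLinearEquiv` -/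
instance Co.free : Module.Free ℤ (Co G X) :=
  Module.Free.of_equiv (Co.toPi (G := G) (A := X)).toIntLinearEquiv.symm
instance Co.finite : Module.Finite ℤ (Co G X) :=
  Module.Finite.equiv (Co.toPi (G := G) (A := X)).toIntLinearEquiv.symm
/-- (T-LAT) subgroup of a lattice (`AddSubgroup.toIntSubmodule`, Noetherian, torsion free) -/
instance Up.free : Module.Free ℤ (Up G X) :=
  Module.Free.of_equiv (LinearEquiv.ofInjective (UpS G X).subtype.toIntLinearMap
    Subtype.val_injective).symm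
instance Up.finite : Module.Finite ℤ (Up G X) :=
  Module.Finite.of_injective (UpS G X).subtype.toIntLinearMap Subtype.val_injective

end

variable {Y : Type} [AddCommGroup Y] [DistribMulAction G Y] [Module.Free ℤ Y] [Module.Finite ℤ Y]

/-- (T-LD0) `Y^G` is saturated, so `Y / Y^G` is f.g. torsion free, hence free, hence the sequence
splits: there is an additive retraction `Y → Y^G`. -/
theorem exists_retr_inv :
    ∃ ρ : Y →+ inv (⊤ : Subgroup G) Y, ∀ y : inv (⊤ : Subgroup G) Y, ρ (y : Y) = y := by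
  let S : Submodule ℤ Y := AddSubgroup.toIntSubmodule (inv (⊤ : Subgroup G) Y)
  have hS : ∀ y, y ∈ S ↔ y ∈ inv (⊤ : Subgroup G) Y := fun y => Iff.rfl
  have htf : Module.IsTorsionFree ℤ (Y ⧸ S) := by
    refine Module.IsTorsionFree.of_smul_eq_zero fun r q h => ?_
    by_cases hr : r = 0
    · exact Or.inl hr
    right
    obtain ⟨y, rfl⟩ := S.mkQ_surjective q
    rw [← map_smul, Submodule.mkQ_apply, Submodule.Quotient.mk_eq_zero, hS] at h
    rw [Submodule.mkQ_apply, Submodule.Quotient.mk_eq_zero, hS]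
    intro g hg
    have h1 := h g hg
    rw [smul_comm] at h1
    exact (smul_right_inj hr).1 h1
  obtain ⟨s, hs⟩ := Module.projective_lifting_property S.mkQ LinearMap.id S.mkQ_surjective
  have hs' : ∀ q, S.mkQ (s q) = q := fun q => congrArg (fun F : (Y ⧸ S) →ₗ[ℤ] (Y ⧸ S) => F q) hs
  have hmem : ∀ y, y - s (S.mkQ y) ∈ inv (⊤ : Subgroup G) Y := fun y => by
    rw [← hS, ← Submodule.Quotient.mk_eq_zero, ← Submodule.mkQ_apply, map_sub, hs', sub_self]
  refine ⟨AddMonoidHom.mk' (fun y => ⟨y - s (S.mkQ y), hmem y⟩) (fun a b => Subtype.ext ?_),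
    fun y => Subtype.ext ?_⟩
  · show a + b - s (S.mkQ (a + b)) = (a - s (S.mkQ a)) + (b - s (S.mkQ b))
    rw [map_add, map_add]
    abel
  · show (y : Y) - s (S.mkQ (y : Y)) = y
    have : S.mkQ (y : Y) = 0 := by
      rw [Submodule.mkQ_apply, Submodule.Quotient.mk_eq_zero]
      exact y.2
    rw [this, map_zero, sub_zero]

/-- exact division of an additive map by a nonzero integer -/
lemma LD_div {Z : Type} [AddCommGroup Z] (n : ℤ) (hn : n ≠ 0) (f : Z →+ ℤ) (h : ∀ y, n ∣ f y) :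
    ∃ f₀ : Z →+ ℤ, ∀ y, f y = n * f₀ y := by
  choose f₀ hf₀ using h
  exact ⟨AddMonoidHom.mk' f₀ fun a b => mul_left_cancel₀ hn (by
    rw [mul_add, ← hf₀, ← hf₀, ← hf₀, map_add]), hf₀⟩

lemma LD_norm_inv (ψ : Y →+ ℤ) (hψ : ∀ (g : G) y, ψ (g • y) = ψ y) (y : Y) :
    ψ (normG G Y y) = Nat.card G * ψ y := by
  cases nonempty_fintype G
  rw [normG_apply, map_sum, Finset.sum_congr rfl (fun g _ => hψ g y)]
  simp [Nat.card_eq_fintype_card]

/-- (T-LDI) `ψ₀ := (ψ ∘ ρ) / n`; `ψ₀ (N y) = ψ (N y) / n = ψ y`. -/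
theorem LD_inj (ψ : Y →+ ℤ) (hψ : ∀ (g : G) y, ψ (g • y) = ψ y)
    (h : ∀ y : Y, (∀ g : G, g • y = y) → (Nat.card G : ℤ) ∣ ψ y) :
    ∃ ψ₀ : Y →+ ℤ, ∀ y, ψ y = ψ₀ (normG G Y y) := by
  obtain ⟨ρ, hρ⟩ := exists_retr_inv (G := G) (Y := Y)
  have hn : (Nat.card G : ℤ) ≠ 0 := by exact_mod_cast Nat.card_pos.ne'
  obtain ⟨ψ₀, hψ₀⟩ := LD_div (Nat.card G : ℤ) hn
    (ψ.comp ((inv (⊤ : Subgroup G) Y).subtype.comp ρ))
    (fun y => h _ (fun g => (ρ y).2 g trivial))
  refine ⟨ψ₀, fun y => mul_left_cancel₀ hn ?_⟩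
  rw [← hψ₀, ← LD_norm_inv ψ hψ]
  show _ = ψ ((ρ (normG G Y y) : inv (⊤ : Subgroup G) Y) : Y)
  have := hρ ⟨normG G Y y, fun g _ => smul_normG g y⟩
  rw [this]

/-- (T-LDS) lift `χ` to `χ' : Y^G →+ ℤ` (`Y^G` is free), `lam := χ' ∘ ρ`, `n ∣ lam (N y)`,
`ψ y := lam (N y) / n`. -/
theorem LD_surj (χ : inv (⊤ : Subgroup G) Y →+ ZMod (Nat.card G))
    (hχ : ∀ y : inv (⊤ : Subgroup G) Y, (∃ z, (y : Y) = normG G Y z) → χ y = 0) :
    ∃ ψ : Y →+ ℤ, (∀ (g : G) y, ψ (g • y) = ψ y) ∧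
      ∀ y : inv (⊤ : Subgroup G) Y, ((ψ (y : Y) : ℤ) : ZMod (Nat.card G)) = χ y := by
  obtain ⟨ρ, hρ⟩ := exists_retr_inv (G := G) (Y := Y)
  have hn : (Nat.card G : ℤ) ≠ 0 := by exact_mod_cast Nat.card_pos.ne'
  have hfree : Module.Free ℤ (inv (⊤ : Subgroup G) Y) :=
    Module.Free.of_equiv (LinearEquiv.ofInjective (inv (⊤ : Subgroup G) Y).subtype.toIntLinearMap
      Subtype.val_injective).symm
  obtain ⟨χl, hχl⟩ := Module.projective_lifting_property
    (Int.castAddHom (ZMod (Nat.card G))).toIntLinearMap χ.toIntLinearMap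
    (fun z => ZMod.intCast_surjective z)
  have hχ' : ∀ y, ((χl y : ℤ) : ZMod (Nat.card G)) = χ y := fun y =>
    congrArg (fun F : inv (⊤ : Subgroup G) Y →ₗ[ℤ] ZMod (Nat.card G) => F y) hχl
  let Nm : Y →+ inv (⊤ : Subgroup G) Y :=
    AddMonoidHom.mk' (fun y => ⟨normG G Y y, fun g _ => smul_normG g y⟩)
      (fun a b => Subtype.ext (map_add _ a b))
  obtain ⟨ψ, hψ⟩ := LD_div (Nat.card G : ℤ) hn (χl.toAddMonoidHom.comp Nm) (fun y => by
    rw [← ZMod.intCast_zmod_eq_zero_iff_dvd]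
    show ((χl (Nm y) : ℤ) : ZMod (Nat.card G)) = 0
    rw [hχ']
    exact hχ _ ⟨y, rfl⟩)
  have hψ' : ∀ y, χl (Nm y) = Nat.card G * ψ y := hψ
  refine ⟨ψ, fun g y => mul_left_cancel₀ hn ?_, fun y => ?_⟩
  · rw [← hψ', ← hψ']
    congr 1
    exact Subtype.ext (normG_smul g y)
  · rw [← hχ']
    congr 1
    apply mul_left_cancel₀ hn
    rw [← hψ']
    have : Nm (y : Y) = Nat.card G • y :=
      Subtype.ext (normG_of_fixed (y : Y) (fun g => y.2 g trivial))
    rw [this, map_nsmul]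
    simp

end Fermat.Agent.S55Lib.TN
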