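import Fermat.Agent.S55.T.Acyclic
import Fermat.Agent.S55.T.Split

/-! # S55 chapter T: the explicit double shift `Y = Up G (Up G X)`, covariant side
(leaves T-P1 .. T-P4).  `Y^G` = normalised 2-cocycles via `cocOf y (g,h) = y h g`. -/

set_option autoImplicit false
set_option linter.unusedSectionVars false

namespace Fermat.Agent.S55Lib.TN

open groupCohomology

variable {G : Type} [Group G] {X : Type} [AddCommGroup X] [DistribMulAction G X]

/-- the 2-cochain attached to `y ∈ Up G (Up G X)` -/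
def cocOf (y : Up G (Up G X)) : G × G → X := fun x => y x.2 x.1

@[simp] lemma cocOf_apply (y : Up G (Up G X)) (g h : G) : cocOf y (g, h) = y h g := rfl

lemma cocOf_add (y y' : Up G (Up G X)) : cocOf (y + y') = cocOf y + cocOf y' := rfl

/-- (T-P1) direct, or `split_coc₁` + `split_coc₂` for `Up.gses`, `Up.gsplit`
(`Co.ev (g • Up.σ E) = E g`). -/
theorem cocOf_isCocycle₂ {y : Up G (Up G X)} (hy : ∀ g : G, g • y = y) :
    IsCocycle₂ (cocOf y) := by
  intro g h j
  have h1 : (j • y) h g = y h g := by rw [hy j]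
  simp only [Up.smul_apply, Up.sub_apply] at h1
  simp only [cocOf_apply]
  rw [← h1]
  abel

/-- (T-P2) `f' := f - ∂ (const f(1,1))` is normalised (`f'(1,h) = 0 = f'(g,1)`);
`y h g := f' (g,h)`. -/
theorem exists_cocOf {f : G × G → X} (hf : IsCocycle₂ f) :
    ∃ y : Up G (Up G X), (∀ g : G, g • y = y) ∧ IsCoboundary₂ (f - cocOf y) := by
  let E : G → Up G X := fun h => ⟨Co.of fun g => f (g, h) - g • f (1, 1), by
    show f (1, h) - (1 : G) • f (1, 1) = 0
    rw [map_one_fst_of_isCocycle₂ hf, one_smul, sub_self]⟩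
  have hE : ∀ h g, E h g = f (g, h) - g • f (1, 1) := fun _ _ => rfl
  let y : Up G (Up G X) := ⟨Co.of E, by
    show E 1 = 0
    ext g
    rw [hE, map_one_snd_of_isCocycle₂ hf, sub_self]
    rfl⟩
  have hy : ∀ h g, y h g = f (g, h) - g • f (1, 1) := fun _ _ => rfl
  refine ⟨y, fun γ => ?_, fun _ => f (1, 1), fun g h => ?_⟩
  · ext x z
    simp only [Up.smul_apply, Up.sub_apply, hy, smul_sub, mul_smul]
    have := hf z x γ
    rw [← sub_eq_zero] at this ⊢
    rw [← neg_eq_zero, ← this]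
    abel
  · simp only [Pi.sub_apply, cocOf_apply, hy]
    abel

/-- (T-P3) `split_norm₁` then `split_cob₂`. -/
theorem cocOf_norm [Finite G] (y' : Up G (Up G X)) :
    IsCoboundary₂ (cocOf (normG G (Up G (Up G X)) y')) := by
  have h1 := split_norm₁ (Up.gses (G := G) (A := Up G X)) Up.gsplit y'
  have h2 := split_cob₂ (Up.gses (G := G) (A := X)) Up.gsplit h1
  convert h2 using 1
  funext x
  obtain ⟨g, h⟩ := x
  simp

/-- (T-P4) PAIRING LEMMA.  `f := cocOf y` is a normalised cocycle; `c g := f (g, g⁻¹)`;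
identities `(g,h,h⁻¹)`: `g • c h = f (g*h, h⁻¹) + f (g,h)` and `(g*h, h⁻¹, g⁻¹)`:
`(g*h) • f (h⁻¹,g⁻¹) = c g - c (g*h) + f (g*h,h⁻¹)`. -/
theorem pair_cob {y : Up G (Up G X)} (hy : ∀ g : G, g • y = y) :
    IsCoboundary₂ (fun x : G × G => cocOf y x + (x.1 * x.2) • cocOf y (x.2⁻¹, x.1⁻¹)) := by
  have hf := cocOf_isCocycle₂ hy
  refine ⟨fun g => cocOf y (g, g⁻¹), fun g h => ?_⟩
  have h1 := hf g h h⁻¹
  have h2 := hf (g * h) h⁻¹ g⁻¹
  have h3 : cocOf y (g, 1) = 0 := by simp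
  rw [mul_inv_cancel, h3, add_zero] at h1
  rw [mul_inv_cancel_right, ← mul_inv_rev] at h2
  show g • cocOf y (h, h⁻¹) - cocOf y (g * h, (g * h)⁻¹) + cocOf y (g, g⁻¹)
    = cocOf y (g, h) + (g * h) • cocOf y (h⁻¹, g⁻¹)
  rw [← h1]
  rw [← sub_eq_zero] at h2 ⊢
  rw [← h2]
  abel

end Fermat.Agent.S55Lib.TN
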