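import Fermat.Agent.S55.T.Basic

/-! # S55 chapter T: coinduced modules are acyclic (leaves T-ACY, T-RES) -/

set_option autoImplicit false
set_option linter.unusedSectionVars false
set_option linter.unusedVariables false

namespace Fermat.Agent.S55Lib.TN

open groupCohomology

section

variable {Γ : Type} [Group Γ] {A : Type} [AddCommGroup A] [DistribMulAction Γ A]

/-- (T-ACY0) `a` fixed => `e a` constant `= v`; `b := e.symm (Pi.single 1 v)`. -/
theorem IsCoind.K0 [Finite Γ] (h : IsCoind Γ A) : K0 Γ 1 A := by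
  classical
  cases nonempty_fintype Γ
  obtain ⟨V, _, e, he⟩ := h
  intro a ha
  refine ⟨e.symm (Pi.single 1 (e a 1)), ?_⟩
  rw [one_smul, normG_apply]
  apply e.injective
  rw [map_sum]
  funext x
  rw [Finset.sum_apply]
  simp only [he, AddEquiv.apply_symm_apply]
  rw [Finset.sum_eq_single x⁻¹]
  · have h1 := he x a 1
    rw [ha x, one_mul] at h1
    simp [h1]
  · intro g _ hg
    rw [Pi.single_eq_of_ne]
    intro h2
    exact hg (eq_inv_of_mul_eq_one_right h2)
  · intro h2
    exact absurd (Finset.mem_univ _) h2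

/-- (T-ACY1) `b := e.symm (fun x => e (f x) 1)`. -/
theorem IsCoind.K1 (h : IsCoind Γ A) : K1 Γ 1 A := by
  obtain ⟨V, _, e, he⟩ := h
  intro f hf
  rw [one_smul]
  refine ⟨e.symm (fun x => e (f x) 1), fun g => ?_⟩
  apply e.injective
  rw [map_sub]
  funext x
  rw [Pi.sub_apply, he, AddEquiv.apply_symm_apply, hf x g, map_add, Pi.add_apply, he, one_mul]
  abel

/-- (T-ACY2) `c h := e.symm (fun x => e (f (x, h)) 1)`. -/
theorem IsCoind.K2 (h : IsCoind Γ A) : K2 Γ 1 A := by
  obtain ⟨V, _, e, he⟩ := h
  intro f hf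
  rw [one_smul]
  refine ⟨fun k => e.symm (fun x => e (f (x, k)) 1), fun g k => ?_⟩
  apply e.injective
  rw [map_add, map_sub]
  funext x
  rw [Pi.add_apply, Pi.sub_apply, he, AddEquiv.apply_symm_apply, AddEquiv.apply_symm_apply,
    AddEquiv.apply_symm_apply]
  have h1 := congrArg (fun a => e a 1) (hf x g k)
  simp only [map_add, Pi.add_apply, he, one_mul] at h1
  have h2 : e (f (g, k)) x = e (f (x * g, k)) 1 + e (f (x, g)) 1 - e (f (x, g * k)) 1 := by
    rw [h1]; abel
  rw [h2]
  abel

end

/-- (T-RES) a module coinduced for `G` is coinduced for every subgroup: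
`V' := (G ⧸ H → V)`, `e' a h q := e a (q.out * h)`. -/
theorem IsCoind.restrict {G : Type} [Group G] {A : Type} [AddCommGroup A] [DistribMulAction G A]
    (h : IsCoind G A) (H : Subgroup G) : IsCoind H A := by
  classical
  obtain ⟨V, _, e, he⟩ := h
  -- the bijection `(G ⧸ H) × H ≃ G`
  have hb : Function.Bijective (fun qd : (G ⧸ H) × H => qd.1.out * (qd.2 : G)) := by
    constructor
    · rintro ⟨q, d⟩ ⟨q', d'⟩ h
      simp only at h
      have h1 : ((q.out * (d : G) : G) : G ⧸ H) = q := by
        rw [QuotientGroup.mk_mul_of_mem _ d.2]; exact q.out_eq'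
      have h2 : ((q'.out * (d' : G) : G) : G ⧸ H) = q' := by
        rw [QuotientGroup.mk_mul_of_mem _ d'.2]; exact q'.out_eq'
      have h3 : q = q' := by rw [← h1, ← h2, h]
      subst h3
      have h4 : (d : G) = d' := mul_left_cancel h
      rw [Subtype.ext h4]
    · intro g
      have h1 : ((g : G ⧸ H).out)⁻¹ * g ∈ H := by
        rw [← QuotientGroup.eq]; exact (g : G ⧸ H).out_eq'
      exact ⟨((g : G ⧸ H), ⟨_, h1⟩), by simp⟩
  let β : (G ⧸ H) × H ≃ G := Equiv.ofBijective _ hb
  have hβ : ∀ q d, β (q, d) = q.out * (d : G) := fun q d => rfl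
  let E : A ≃+ (H → (G ⧸ H → V)) :=
    { toFun := fun a d q => e a (β (q, d))
      invFun := fun Ψ => e.symm (fun g => Ψ (β.symm g).2 (β.symm g).1)
      left_inv := fun a => by
        rw [AddEquiv.symm_apply_eq]
        funext g
        simp
      right_inv := fun Ψ => by
        funext d q
        simp
      map_add' := fun a b => by
        funext d q
        simp }
  refine ⟨G ⧸ H → V, inferInstance, E, fun γ a x => ?_⟩
  funext q
  show e ((γ : G) • a) (β (q, x)) = e a (β (q, x * γ))
  rw [he, hβ, hβ, mul_assoc]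
  rfl

end Fermat.Agent.S55Lib.TN
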