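import Fermat.Agent.S55.T.SplDefs
import Fermat.Agent.S55.T.Acyclic

/-! # S55 chapter T: the splitting module is acyclic on `p`-subgroups
(leaves T-AG1, T-AG2, T-AG3, T-SK1, T-SK2) -/

set_option autoImplicit false
set_option linter.unusedSectionVars false
set_option linter.unusedVariables false

namespace Fermat.Agent.S55Lib.TN

open groupCohomology

variable {G : Type} [Group G] [Finite G]

lemma SK_tot_smul {A : Type} [AddCommGroup A] (g : G) (x : Co G A) :
    Co.tot (g • x) = Co.tot x := by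
  cases nonempty_fintype G
  rw [Co.tot_apply, Co.tot_apply]
  exact Fintype.sum_equiv (Equiv.mulRight g) _ _ (fun z => rfl)

/-- an additive function on a finite group with values in `ℤ` vanishes -/
lemma SK_add_zero {P : Type} [Group P] [Finite P] (t : P → ℤ) (ht : ∀ g h, t (g * h) = t g + t h)
    (g : P) : t g = 0 := by
  have h1 : t 1 = 0 := by
    have := ht 1 1
    rw [mul_one] at this
    omega
  have h2 : ∀ n : ℕ, t (g ^ n) = n * t g := by
    intro n
    induction n with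
    | zero => simp [h1]
    | succ n ih => rw [pow_succ, ht, ih]; push_cast; ring
  have h3 := h2 (Nat.card P)
  rw [pow_card_eq_one', h1] at h3
  have h4 : (Nat.card P : ℤ) ≠ 0 := by exact_mod_cast Nat.card_pos.ne'
  rcases mul_eq_zero.1 h3.symm with h5 | h5
  · exact absurd h5 h4
  · exact h5

/-- (T-AG1) `f ∈ Z²(P, Aug G)`; in `Co G ℤ` (coinduced for `P`: `(isCoind_Co G ℤ).restrict P`)
`f = ∂ b`; `Co.tot ∘ b : P → ℤ` is additive on the finite group `P`, hence `0`; so `b` has values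
in `Aug G`. -/
theorem Aug_K2 (P : Subgroup G) : K2 P 1 (Aug G) := by
  intro f hf
  rw [one_smul]
  have hc : IsCocycle₂ (fun x : P × P => ((f x : Aug G) : Co G ℤ)) :=
    isCocycle₂_map (AugS G).subtype (fun g a => rfl) hf
  obtain ⟨b, hb⟩ := K2.one ((isCoind_Co G ℤ).restrict P).K2 hc
  have hb' : ∀ g h : P, g • b h - b (g * h) + b g = ((f (g, h) : Aug G) : Co G ℤ) := hb
  have ht : ∀ g h : P, Co.tot (b (g * h)) = Co.tot (b g) + Co.tot (b h) := fun g h => by
    have h1 := congrArg (Co.tot : Co G ℤ →+ ℤ) (hb' g h)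
    have h2 : Co.tot ((f (g, h) : Aug G) : Co G ℤ) = 0 := (f (g, h)).2
    have h3 : Co.tot (g • b h) = Co.tot (b h) := SK_tot_smul (g : G) (b h)
    rw [map_add, map_sub, h2, h3] at h1
    omega
  have h0 : ∀ g : P, b g ∈ AugS G := fun g => SK_add_zero (fun g => Co.tot (b g)) ht g
  exact ⟨fun g => ⟨b g, h0 g⟩, fun g h => Subtype.ext (hb' g h)⟩

lemma SK_smul_single_one (g : G) :
    g • (Co.single 1 1 : Co G ℤ) - Co.single 1 1 = (augGen g : Co G ℤ) := by
  rw [Co.smul_single, one_mul, coe_augGen]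

/-- (T-AG2) `f ∈ Z¹(P, Aug G)`; in `Co G ℤ`: `f g = g • y - y`; `k := Co.tot y`,
`x := y - k • Co.single 1 1 ∈ Aug G`; `g • Co.single 1 1 - Co.single 1 1 = augGen g`. -/
theorem Aug_Z1 (P : Subgroup G) (f : P → Aug G) (hf : IsCocycle₁ f) :
    ∃ (k : ℤ) (x : Aug G), ∀ g : P, f g = k • augGen (g : G) + (g • x - x) := by
  have hc : IsCocycle₁ (fun x : P => ((f x : Aug G) : Co G ℤ)) :=
    isCocycle₁_map (AugS G).subtype (fun g a => rfl) hf
  obtain ⟨y, hy⟩ := K1.one ((isCoind_Co G ℤ).restrict P).K1 hc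
  have hy' : ∀ g : P, (g : G) • y - y = ((f g : Aug G) : Co G ℤ) := hy
  have hx : y - Co.tot y • (Co.single 1 1 : Co G ℤ) ∈ AugS G := by
    refine (AddMonoidHom.mem_ker).2 ?_
    rw [map_sub, map_zsmul, Co.tot_single]
    simp
  refine ⟨Co.tot y, ⟨_, hx⟩, fun g => Subtype.ext ?_⟩
  show ((f g : Aug G) : Co G ℤ) = Co.tot y • (augGen (g : G) : Co G ℤ) +
    ((g : G) • (y - Co.tot y • (Co.single 1 1 : Co G ℤ)) - (y - Co.tot y • Co.single 1 1))
  rw [← hy', ← SK_smul_single_one, smul_sub, smul_sub, smul_comm (g : G) (Co.tot y)]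
  abel

/-- (T-AG3) `z := |P| • δ_1 - ∑_{h ∈ P} δ_{h⁻¹}`. -/
theorem Aug_card (P : Subgroup G) :
    ∃ z : Aug G, ∀ g : P, Nat.card P • augGen (g : G) = g • z - z := by
  classical
  have := Fintype.ofFinite P
  have hz : Nat.card P • (Co.single 1 1 : Co G ℤ) - ∑ h : P, Co.single ((h : G)⁻¹) 1 ∈ AugS G := by
    refine (AddMonoidHom.mem_ker).2 ?_
    rw [map_sub, map_nsmul, map_sum, Co.tot_single]
    simp [Co.tot_single, Nat.card_eq_fintype_card]
  refine ⟨⟨_, hz⟩, fun g => Subtype.ext ?_⟩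
  show Nat.card P • (augGen (g : G) : Co G ℤ) =
    (g : G) • (Nat.card P • (Co.single 1 1 : Co G ℤ) - ∑ h : P, Co.single ((h : G)⁻¹) 1) -
      (Nat.card P • (Co.single 1 1 : Co G ℤ) - ∑ h : P, Co.single ((h : G)⁻¹) 1)
  have h1 : (g : G) • ∑ h : P, (Co.single ((h : G)⁻¹) 1 : Co G ℤ) =
      ∑ h : P, Co.single ((h : G)⁻¹) 1 := by
    rw [Finset.smul_sum]
    refine Fintype.sum_equiv (Equiv.mulLeft g) _ _ (fun h => ?_)
    rw [Co.smul_single]
    simp
  rw [smul_sub, h1, ← SK_smul_single_one, smul_sub, smul_comm (g : G) (Nat.card P)]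
  abel

variable {C : Type} [AddCommGroup C] [DistribMulAction G C] {u : G × G → C}

/-- an element of `Spl` with vanishing second component comes from `C` -/
lemma SK_eq_inl {hu : IsCocycle₂ u} (w : Spl u hu) (hw : Spl.snd w = 0) :
    w = Spl.inl (Spl.fst w) := by
  apply Spl.ext
  · simp
  · simp [hw]

/-- (T-SK2) `f ∈ Z²(P, Spl)`; `snd ∘ f = ∂ ḡ` (`Aug_K2`); `f - ∂ (inr ∘ ḡ) = inl ∘ f₁`,
`f₁ ∈ Z²(P,C)`, `f₁ = k u + ∂ e` (`h2gen`), `inl ∘ u = ∂ β` (`Spl.d_beta`). -/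
theorem Spl_K2 (p : ℕ) (hC : IsClassModule p G C u) (P : Subgroup G) (hP : IsPGroup p P) :
    K2 P 1 (Spl u hC.cocycle) := by
  intro f hf
  rw [one_smul]
  have hses := (Spl.gses (u := u) (hu := hC.cocycle)).restrict P
  obtain ⟨gb, hgb⟩ := K2.one (Aug_K2 P) (isCocycle₂_map Spl.snd hses.π_smul hf)
  have hgb' : ∀ g h : P, g • gb h - gb (g * h) + gb g = Spl.snd (f (g, h)) := hgb
  -- the correction
  let d1 : P × P → Spl u hC.cocycle := fun x =>
    x.1 • Spl.inr (gb x.2) - Spl.inr (gb (x.1 * x.2)) + Spl.inr (gb x.1)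
  have hd1 : IsCoboundary₂ d1 := ⟨fun g => Spl.inr (gb g), fun g h => rfl⟩
  have hsnd : ∀ x, Spl.snd (f x - d1 x) = 0 := fun x => by
    show Spl.snd (f x - (x.1 • Spl.inr (gb x.2) - Spl.inr (gb (x.1 * x.2)) + Spl.inr (gb x.1))) = 0
    rw [map_sub, map_add, map_sub, hses.π_smul, Spl.snd_inr, Spl.snd_inr, Spl.snd_inr, hgb',
      sub_self]
  let f1 : P × P → C := fun x => Spl.fst (f x - d1 x)
  have hf1 : ∀ x, Spl.inl (f1 x) = f x - d1 x := fun x => (SK_eq_inl _ (hsnd x)).symm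
  have hf1c : IsCocycle₂ f1 := by
    refine isCocycle₂_of_map (Spl.inl : C →+ Spl u hC.cocycle) hses.i_smul hses.inj ?_
    have : (fun x => (Spl.inl (f1 x) : Spl u hC.cocycle)) = f - d1 := funext hf1
    rw [this]
    exact isCocycle₂_sub hf (isCocycle₂_of_cob hd1)
  obtain ⟨k, hk⟩ := hC.h2gen P hP f1 hf1c
  have h1 := isCoboundary₂_map (Spl.inl : C →+ Spl u hC.cocycle) hses.i_smul hk
  have hβ : IsCoboundary₂ (fun x : P × P => (Spl.inl (u ((x.1 : G), (x.2 : G))) :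
      Spl u hC.cocycle)) :=
    ⟨fun g => Spl.beta (g : G), fun g h => Spl.d_beta (g : G) (h : G)⟩
  have h2 : f = (fun x => (Spl.inl ((f1 - k • fun x : P × P => u ((x.1 : G), (x.2 : G))) x) :
      Spl u hC.cocycle)) + k • (fun x : P × P => (Spl.inl (u ((x.1 : G), (x.2 : G))) :
      Spl u hC.cocycle)) + d1 := by
    funext x
    simp only [Pi.add_apply, Pi.sub_apply, Pi.smul_apply, map_sub, map_zsmul, hf1]
    abel
  rw [h2]
  exact isCoboundary₂_add (isCoboundary₂_add h1 (isCoboundary₂_zsmul k hβ)) hd1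

/-- (T-SK1) `f ∈ Z¹(P, Spl)`; `snd ∘ f = k β̄ + ∂ x` (`Aug_Z1`); `f₁ := f - k β - ∂ (inr x)` has
values in `C` and `∂ f₁ = - k u`, so `|P| ∣ k` (`h2ord`); so `snd ∘ f = ∂ x'` (`Aug_card`);
`f - ∂ (inr x') ∈ Z¹(P,C)` is a coboundary (`h1`). -/
theorem Spl_K1 (p : ℕ) (hC : IsClassModule p G C u) (P : Subgroup G) (hP : IsPGroup p P) :
    K1 P 1 (Spl u hC.cocycle) := by
  intro f hf
  rw [one_smul]
  have hses := (Spl.gses (u := u) (hu := hC.cocycle)).restrict P
  obtain ⟨k, x, hkx⟩ := Aug_Z1 P _ (isCocycle₁_map Spl.snd hses.π_smul hf)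
  have hkx' : ∀ g : P, Spl.snd (f g) = k • augGen (g : G) + (g • x - x) := hkx
  -- first step: `|P| ∣ k`
  let c1 : P → Spl u hC.cocycle := fun g =>
    f g - k • Spl.beta (g : G) - (g • Spl.inr x - Spl.inr x)
  have hsnd1 : ∀ g, Spl.snd (c1 g) = 0 := fun g => by
    show Spl.snd (f g - k • Spl.beta (g : G) - (g • Spl.inr x - Spl.inr x)) = 0
    rw [map_sub, map_sub, map_sub, map_zsmul, hses.π_smul, Spl.snd_inr, hkx']
    simp only [Spl.beta, Spl.snd_mk]
    abel
  have hc1 : ∀ g, c1 g = Spl.inl (Spl.fst (c1 g)) := fun g => SK_eq_inl _ (hsnd1 g)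
  have hdvd : (Nat.card P : ℤ) ∣ -k := by
    apply hC.h2ord P hP
    refine ⟨fun g => Spl.fst (c1 g), fun g h => hses.inj ?_⟩
    rw [map_add, map_sub, hses.i_smul, ← hc1, ← hc1, ← hc1]
    show g • (f h - k • Spl.beta (h : G) - (h • Spl.inr x - Spl.inr x)) -
      (f (g * h) - k • Spl.beta ((g * h : P) : G) - ((g * h) • Spl.inr x - Spl.inr x)) +
      (f g - k • Spl.beta (g : G) - (g • Spl.inr x - Spl.inr x)) =
      Spl.inl ((-k) • u ((g : G), (h : G)))
    have hb := Spl.d_beta (u := u) (hu := hC.cocycle) (g : G) (h : G)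
    rw [map_zsmul, ← hb, hf g h]
    simp only [smul_sub, smul_add, mul_smul, Subgroup.coe_mul, neg_smul]
    rw [smul_comm g k]
    have : g • (Spl.beta (h : G) : Spl u hC.cocycle) = (g : G) • Spl.beta (h : G) := rfl
    rw [this]
    abel
  obtain ⟨k', hk'⟩ := (dvd_neg.1 hdvd)
  obtain ⟨z, hz⟩ := Aug_card P
  -- second step
  let x' : Aug G := x + k' • z
  have hx' : ∀ g : P, Spl.snd (f g) = g • x' - x' := fun g => by
    rw [hkx', hk', mul_comm, mul_smul, natCast_zsmul, hz]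
    show _ = g • (x + k' • z) - (x + k' • z)
    rw [smul_add, smul_comm g k', smul_sub]
    abel
  let c2 : P → Spl u hC.cocycle := fun g => f g - (g • Spl.inr x' - Spl.inr x')
  have hcob2 : IsCoboundary₁ (fun g : P => g • (Spl.inr x' : Spl u hC.cocycle) - Spl.inr x') :=
    ⟨Spl.inr x', fun g => rfl⟩
  have hsnd2 : ∀ g, Spl.snd (c2 g) = 0 := fun g => by
    show Spl.snd (f g - (g • Spl.inr x' - Spl.inr x')) = 0
    rw [map_sub, map_sub, hses.π_smul, Spl.snd_inr, hx', sub_self]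
  have hc2 : ∀ g, Spl.inl (Spl.fst (c2 g)) = c2 g := fun g => (SK_eq_inl _ (hsnd2 g)).symm
  have hcoc : IsCocycle₁ (fun g => Spl.fst (c2 g)) := by
    refine isCocycle₁_of_map (Spl.inl : C →+ Spl u hC.cocycle) hses.i_smul hses.inj ?_
    have : (fun g => (Spl.inl (Spl.fst (c2 g)) : Spl u hC.cocycle)) =
        f - fun g : P => g • (Spl.inr x' : Spl u hC.cocycle) - Spl.inr x' := funext hc2
    rw [this]
    exact isCocycle₁_sub hf (isCocycle₁_of_cob hcob2)
  have h3 := isCoboundary₁_map (Spl.inl : C →+ Spl u hC.cocycle) hses.i_smul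
    (hC.h1 P hP _ hcoc)
  have h4 : f = (fun g => (Spl.inl (Spl.fst (c2 g)) : Spl u hC.cocycle)) +
      fun g : P => g • (Spl.inr x' : Spl u hC.cocycle) - Spl.inr x' := by
    funext g
    simp only [Pi.add_apply, hc2]
    show f g = f g - (g • Spl.inr x' - Spl.inr x') + (g • Spl.inr x' - Spl.inr x')
    abel
  rw [h4]
  exact isCoboundary₁_add h3 hcob2

end Fermat.Agent.S55Lib.TN
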