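import Fermat.Agent.S55.T.Acyclic
import Fermat.Agent.S55.T.Shift
import Fermat.Agent.S55.B.WP

/-! # S55 chapter T: Sylow reduction (leaf T-SYL0; syl1, syl2 are assemblies) -/

set_option autoImplicit false

namespace Fermat.Agent.S55Lib.TN

open groupCohomology

variable {G : Type} [Group G] [Finite G] {B : Type} [AddCommGroup B] [DistribMulAction G B]

/-- (T-SYL0) `b` fixed by `G`, `b = N_P b'`; `N_G b' = ∑_{t ∈ G/P} t N_P b' = [G:P] b`
(`Subgroup.groupEquivQuotientProdSubgroup`, or helper22's `W_sum_coset`). -/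
theorem syl0 (P : Subgroup G) (h : K0 P 1 B) : K0 G P.index B := by
  classical
  cases nonempty_fintype G
  have := Fintype.ofFinite P
  have := Fintype.ofFinite (G ⧸ P)
  intro b hb
  obtain ⟨b', hb'⟩ := h b (fun g => hb g)
  rw [one_smul] at hb'
  refine ⟨b', ?_⟩
  rw [normG_apply, W_sum_coset P]
  have h1 : ∀ q : G ⧸ P, ∑ d : P, (q.out * (d : G)) • b' = b := fun q => by
    have h2 : ∑ d : P, (q.out * (d : G)) • b' = q.out • ∑ d : P, d • b' := by
      rw [Finset.smul_sum]
      exact Finset.sum_congr rfl fun d _ => mul_smul _ _ _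
    rw [h2, ← normG_apply, ← hb', hb]
  rw [Finset.sum_congr rfl (fun q _ => h1 q)]
  simp [Subgroup.index, Nat.card_eq_fintype_card]

theorem syl1 (P : Subgroup G) (h : K1 P 1 B) : K1 G P.index B := by
  have hCo := isCoind_Co G B
  have h0 : K0 P 1 (Up G B) := by
    simpa using S01 ((Up.gses (G := G) (A := B)).restrict P) h (hCo.restrict P).K0
  simpa using S10 (Up.gses (G := G) (A := B)) (syl0 P h0) hCo.K1

theorem syl2 (P : Subgroup G) (h : K2 P 1 B) : K2 G P.index B := by
  have hCo := isCoind_Co G B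
  have h0 : K1 P 1 (Up G B) := by
    simpa using S12 ((Up.gses (G := G) (A := B)).restrict P) h (hCo.restrict P).K1
  simpa using S21 (Up.gses (G := G) (A := B)) (syl1 P h0) hCo.K2

end Fermat.Agent.S55Lib.TN
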