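import Fermat.Agent.S55.T.SplDefs
import Fermat.Agent.S55.T.Acyclic
import Fermat.Agent.S55.T.HomCoind

/-! # S55 chapter T: `Hom_G(Y,ℤ) → H²(G,Hom(Y,C))`, `ψ ↦ ψ·u` is surjective up to `m`
(leaf T-TN20) -/

set_option autoImplicit false
set_option linter.unusedSectionVars false

namespace Fermat.Agent.S55Lib.TN

open groupCohomology

variable {G : Type} [Group G] [Finite G] {C : Type} [AddCommGroup C] [DistribMulAction G C]
  {u : G × G → C}

section scal

variable {Y : Type} [AddCommGroup Y] [DistribMulAction G Y]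

lemma scal_smul (ψ : Y →+ ℤ) (hψ : ∀ (g : G) y, ψ (g • y) = ψ y) (g : G) (c : C) :
    g • scal G ψ c = scal G ψ (g • c) := by
  ext y
  rw [HomM.smul_apply, scal_apply, scal_apply, hψ, smul_comm]

lemma scal_add (ψ : Y →+ ℤ) (c c' : C) : scal G ψ (c + c') = scal G ψ c + scal G ψ c' := by
  ext y
  simp

lemma scal_sub (ψ : Y →+ ℤ) (c c' : C) : scal G ψ (c - c') = scal G ψ c - scal G ψ c' := by
  ext y
  simp [smul_sub]

end scal

/-- `ψ` invariant, `u` cocycle => `ψ·u` cocycle -/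
theorem scal_isCocycle₂ (hu : IsCocycle₂ u) {Y : Type} [AddCommGroup Y] [DistribMulAction G Y]
    (ψ : Y →+ ℤ) (hψ : ∀ (g : G) y, ψ (g • y) = ψ y) :
    IsCocycle₂ (fun x : G × G => scal G ψ (u x)) := by
  intro g h j
  show scal G ψ (u (g * h, j)) + scal G ψ (u (g, h))
    = g • scal G ψ (u (h, j)) + scal G ψ (u (g, h * j))
  rw [scal_smul ψ hψ, ← scal_add, ← scal_add, hu g h j]

lemma Co.tot_smul {A : Type} [AddCommGroup A] (g : G) (F : Co G A) :
    Co.tot (g • F) = Co.tot F := by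
  cases nonempty_fintype G
  rw [Co.tot_apply, Co.tot_apply]
  exact Fintype.sum_equiv (Equiv.mulRight g) _ _ (fun z => rfl)

/-- (T-TN20) `m F = ∂ E` in `Hom(Y,Spl)` (post-compose `F` with `Spl.inl`);
`Ē := snd ∘ E ∈ Z¹(G,Hom(Y,Aug))`; in `Hom(Y,Co G ℤ)` (coinduced: `isCoind_HomM_right`)
`Ē = ∂ D`; `ψ := Co.tot ∘ D` is invariant.  `D' y := ψ y • δ_1`; `D - D' ∈ Hom(Y,Aug)`;
`(∂ D')(g) y = ψ y • augGen g`.  `E' g y := ψ y • β g`, `E'' y := inr ((D - D') y)`.
`e := E - E' - ∂ E''` has values in `Hom(Y,C)` (its `snd` vanishes) and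
`(∂ E')(g,h) y = ψ y • inl (u (g,h))` (`Spl.d_beta`), so `m F = ψ·u + ∂ e`. -/
theorem TN20_surj (hu : IsCocycle₂ u) {Y : Type} [AddCommGroup Y] [DistribMulAction G Y]
    (m : ℕ) (hK2 : K2 G m (HomM G Y (Spl u hu)))
    (F : G × G → HomM G Y C) (hF : IsCocycle₂ F) :
    ∃ ψ : Y →+ ℤ, (∀ (g : G) y, ψ (g • y) = ψ y) ∧
      IsCoboundary₂ (m • F - fun x : G × G => scal G ψ (u x)) := by
  have hgs := Spl.gses (u := u) (hu := hu)
  -- step 1: `m F = ∂ E`
  obtain ⟨E, hE⟩ := hK2 _ (isCocycle₂_map (HomM.post (G := G) (X := Y) (Spl.inl : C →+ Spl u hu))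
    (HomM.post_smul _ hgs.i_smul) hF)
  replace hE : ∀ g h : G, g • E h - E (g * h) + E g
      = m • HomM.post (G := G) (X := Y) (Spl.inl : C →+ Spl u hu) (F (g, h)) := hE
  -- step 2: `snd ∘ E` is a cocycle in `Hom(Y, Co G ℤ)`
  let jj : Spl u hu →+ Co G ℤ := (AugS G).subtype.comp Spl.snd
  have hjj : ∀ (g : G) (w : Spl u hu), jj (g • w) = g • jj w := fun g w => rfl
  have hjj0 : ∀ c : C, jj (Spl.inl c) = 0 := fun c => rfl
  have hcoc : IsCocycle₁ (fun g => HomM.post (G := G) (X := Y) jj (E g)) := by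
    intro g h
    have h1 := congrArg (HomM.post (G := G) (X := Y) jj) (hE g h)
    rw [map_add, map_sub, HomM.post_smul jj hjj, map_nsmul] at h1
    have h2 : HomM.post (G := G) (X := Y) jj
        (HomM.post (G := G) (X := Y) (Spl.inl : C →+ Spl u hu) (F (g, h))) = 0 := by
      apply HomM.ext
      intro y
      exact hjj0 (F (g, h) y)
    rw [h2, smul_zero] at h1
    show HomM.post (G := G) (X := Y) jj (E (g * h)) = g • HomM.post (G := G) (X := Y) jj (E h)
      + HomM.post (G := G) (X := Y) jj (E g)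
    rw [← sub_eq_zero, ← neg_eq_zero, ← h1]
    abel
  obtain ⟨D, hD⟩ := (isCoind_HomM_right (Y := Y) (isCoind_Co G ℤ)).K1.one hcoc
  replace hD : ∀ (g : G) (y : Y), g • D (g⁻¹ • y) - D y = jj (E g y) := fun g y =>
    congrArg (fun θ : HomM G Y (Co G ℤ) => θ y) (hD g)
  -- step 3: `ψ`
  let ψ : Y →+ ℤ := (Co.tot : Co G ℤ →+ ℤ).comp (HomM.toHom D)
  have hψD : ∀ y, ψ y = Co.tot (D y) := fun _ => rfl
  have htot : ∀ w : Spl u hu, Co.tot (jj w) = 0 := fun w => (Spl.snd w).2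
  have hψ : ∀ (g : G) y, ψ (g • y) = ψ y := by
    intro g y
    have h1 := congrArg (Co.tot : Co G ℤ →+ ℤ) (hD g (g • y))
    rw [htot, map_sub, Co.tot_smul, inv_smul_smul, sub_eq_zero] at h1
    rw [hψD, hψD, h1]
  refine ⟨ψ, hψ, ?_⟩
  -- step 4: `x₀ = D - D'`
  let x₀ : Y →+ Aug G :=
    { toFun := fun y => ⟨D y - ψ y • Co.single 1 1, by
        refine (AddMonoidHom.mem_ker).2 ?_
        rw [map_sub, map_zsmul, Co.tot_single, hψD]
        simp⟩
      map_zero' := by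
        apply Subtype.ext
        simp
      map_add' := fun y y' => by
        apply Subtype.ext
        simp only [map_add, add_smul, AddSubgroup.coe_add]
        abel }
  have hx₀ : ∀ y, ((x₀ y : Aug G) : Co G ℤ) = D y - ψ y • Co.single 1 1 := fun _ => rfl
  let E'' : HomM G Y (Spl u hu) := HomM.of ((Spl.inr : Aug G →+ Spl u hu).comp x₀)
  have hE'' : ∀ y, E'' y = Spl.inr (x₀ y) := fun _ => rfl
  let e₀ : G → HomM G Y (Spl u hu) := fun g => E g - scal G ψ (Spl.beta g) - (g • E'' - E'')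
  have he₀ : ∀ g, e₀ g = E g - scal G ψ (Spl.beta g) - (g • E'' - E'') := fun _ => rfl
  -- step 5: `∂ e₀`
  have hd : ∀ g h : G, g • e₀ h - e₀ (g * h) + e₀ g
      = m • HomM.post (G := G) (X := Y) (Spl.inl : C →+ Spl u hu) (F (g, h))
        - scal G ψ (Spl.inl (u (g, h)) : Spl u hu) := by
    intro g h
    rw [← hE g h, ← Spl.d_beta g h, scal_add, scal_sub, ← scal_smul ψ hψ, he₀, he₀, he₀]
    simp only [smul_sub, mul_smul]
    abel
  -- step 6: `snd ∘ e₀ = 0`
  have hsnd : ∀ (g : G) (y : Y), Spl.snd (e₀ g y) = 0 := by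
    intro g y
    apply Subtype.ext
    have h1 : ((Spl.snd (E g y) : Aug G) : Co G ℤ) = g • D (g⁻¹ • y) - D y := (hD g y).symm
    have h2 : Spl.snd (e₀ g y) = Spl.snd (E g y) - ψ y • augGen g
        - (g • x₀ (g⁻¹ • y) - x₀ y) := by
      rw [he₀]
      simp only [HomM.sub_apply, HomM.smul_apply, scal_apply, map_sub, map_zsmul, hE'',
        Spl.snd_smul, Spl.snd_inr]
      rfl
    rw [h2]
    simp only [AddSubgroup.coe_sub, AddSubgroup.coe_zsmul, Aug.coe_smul, h1, hx₀, coe_augGen,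
      hψ, smul_sub, ZeroMemClass.coe_zero]
    rw [smul_comm g (ψ y), Co.smul_single, one_mul]
    abel
  -- step 7: conclusion
  let e : G → HomM G Y C := fun g => HomM.post (G := G) (X := Y) (Spl.fst : Spl u hu →+ C) (e₀ g)
  have he : ∀ (g : G) (y : Y), e₀ g y = Spl.inl (e g y) := by
    intro g y
    apply Spl.ext
    · rfl
    · rw [hsnd, Spl.snd_inl]
  refine ⟨e, fun g h => ?_⟩
  ext y
  apply hgs.inj
  have h1 := congrArg (fun θ : HomM G Y (Spl u hu) => θ y) (hd g h)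
  simp only [HomM.add_apply, HomM.sub_apply, HomM.smul_apply, he, scal_apply] at h1
  simp only [HomM.add_apply, HomM.sub_apply, HomM.smul_apply, Pi.sub_apply, Pi.smul_apply,
    scal_apply, map_add, map_sub, hgs.i_smul, map_zsmul]
  rw [h1]
  congr 1

end Fermat.Agent.S55Lib.TN
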