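import Fermat.Agent.S55.B.Norm
import Fermat.Agent.S55.T.CT
import Fermat.Agent.S55.T.Sylow
import Fermat.Agent.S55.T.SplK
import Fermat.Agent.S55.T.TN20
import Fermat.Agent.S55.T.Lattice
import Fermat.Agent.S55.T.Pair
import Fermat.Agent.S55.T.HomShift

/-! # S55 chapter T: the roots `TN_inj`, `TN_surj` -/

set_option autoImplicit false
set_option linter.unusedSectionVars false

namespace Fermat.Agent.S55Lib

open groupCohomology

namespace TN

variable {G : Type} [Group G] [Finite G] {C : Type} [AddCommGroup C] [DistribMulAction G C]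
  {u : G × G → C}

/-- `[G:P]` kills `H²(G, Hom(Y, Spl))`. -/
theorem K2_HomM_Spl (p : ℕ) [Fact p.Prime] (hC : IsClassModule p G C u) (P : Subgroup G)
    (hP : IsPGroup p P) {Y : Type} [AddCommGroup Y] [DistribMulAction G Y] [Module.Free ℤ Y] :
    K2 G P.index (HomM G Y (Spl u hC.cocycle)) := by
  apply syl2 P
  have h := CT2 p (Γ := P) hP (A := Spl u hC.cocycle) (Y := Y) (Spl_K1 p hC P hP)
    (Spl_K2 p hC P hP)
  exact K2.of_equiv (HomM.resEquiv P) (HomM.resEquiv_smul P) h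

/-- evaluation at `y` -/
def evY {Y : Type} [AddCommGroup Y] (y : Y) : HomM G Y C →+ C where
  toFun θ := θ y
  map_zero' := rfl
  map_add' _ _ := rfl

@[simp] lemma evY_apply {Y : Type} [AddCommGroup Y] (y : Y) (θ : HomM G Y C) :
    evY y θ = θ y := rfl

lemma evY_smul {Y : Type} [AddCommGroup Y] [DistribMulAction G Y] {y : Y}
    (hy : ∀ g : G, g • y = y) (g : G) (θ : HomM G Y C) : evY y (g • θ) = g • evY y θ := by
  simp [hy]

/-- norms of scalar homs give coboundaries -/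
theorem scal_norm_cob (hu : IsCocycle₂ u) {Y : Type} [AddCommGroup Y] [DistribMulAction G Y]
    (ψ₀ : Y →+ ℤ) : IsCoboundary₂ (fun x : G × G => scal G (ψ₀.comp (normG G Y)) (u x)) := by
  cases nonempty_fintype G
  let T : HomM G C (HomM G Y C) := HomM.of
    { toFun := fun c => scal G ψ₀ c
      map_zero' := by ext y; simp
      map_add' := fun c c' => by ext y; simp }
  have h := norm_isCoboundary₂ T hu
  convert h using 1
  funext x
  ext y
  rw [normG_HomM_apply]
  have h1 : (∑ g : G, g • T (g⁻¹ • u x)) y = ∑ g : G, (g • T (g⁻¹ • u x)) y :=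
    map_sum (evY y) _ _
  rw [h1]
  have h2 : ∀ g : G, (g • T (g⁻¹ • u x)) y = ψ₀ (g⁻¹ • y) • u x := fun g => by
    show g • (ψ₀ (g⁻¹ • y) • (g⁻¹ • u x)) = _
    rw [smul_comm g, smul_inv_smul]
  rw [Finset.sum_congr rfl (fun g _ => h2 g), ← Finset.sum_smul, scal_apply,
    AddMonoidHom.comp_apply, TN.normG_apply, map_sum]
  congr 1
  exact Fintype.sum_equiv (Equiv.inv G) _ _ (fun g => by simp)

variable {X : Type} [AddCommGroup X] [DistribMulAction G X]

/-- `ev_y (a2 φ) ~ - φ ∘ cocOf y` -/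
theorem a2_pair {φ : HomM G X C} (hφ : ∀ g : G, g • φ = φ) {y : Up G (Up G X)}
    (hy : ∀ g : G, g • y = y) :
    IsCoboundary₂ (fun x : G × G => φ (cocOf y x) + a2 φ x y) := by
  have hφ' : ∀ (g : G) (x : X), φ (g • x) = g • φ x :=
    HomM.mem_inv_top.1 (fun g _ => hφ g)
  have h := isCoboundary₂_map (HomM.toHom φ) hφ' (pair_cob hy)
  convert h using 1
  funext x
  obtain ⟨g, h⟩ := x
  show φ (cocOf y (g, h)) + a2 φ (g, h) y = φ (cocOf y (g, h) + (g * h) • cocOf y (h⁻¹, g⁻¹))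
  rw [map_add, hφ']
  rfl

end TN

open TN

variable {G : Type} [Group G] [Finite G]

/-- **TN, injectivity**: an equivariant `φ : X → C` inducing `0` on `H²` is, up to a factor prime
to `p`, a norm. -/
theorem TN_inj (p : ℕ) [Fact p.Prime]
    {C : Type} [AddCommGroup C] [DistribMulAction G C] (u : G × G → C)
    (hC : IsClassModule p G C u)
    {X : Type} [AddCommGroup X] [DistribMulAction G X] [Module.Free ℤ X] [Module.Finite ℤ X]
    (φ : HomM G X C) (hφ : φ ∈ inv (⊤ : Subgroup G) (HomM G X C))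
    (h0 : ∀ f : G × G → X, IsCocycle₂ f → IsCoboundary₂ (fun x => φ (f x))) :
    ∃ m : ℕ, m.Coprime p ∧ ∃ ψ : HomM G X C, m • φ = normG G (HomM G X C) ψ := by
  obtain ⟨P⟩ : Nonempty (Sylow p G) := inferInstance
  have hP : IsPGroup p (P : Subgroup G) := P.isPGroup'
  set m₁ := (P : Subgroup G).index with hm₁
  have hφ' : ∀ g : G, g • φ = φ := fun g => hφ g trivial
  have hu := hC.cocycle
  obtain ⟨ψ, hψ, hcob⟩ := TN20_surj hu m₁ (K2_HomM_Spl p hC P hP) (a2 φ) (a2_isCocycle₂ hφ')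
  -- `|P| ∣ ψ y` on invariants
  have hdiv : ∀ y : Up G (Up G X), (∀ g : G, g • y = y) → (Nat.card (P : Subgroup G) : ℤ) ∣ ψ y := by
    intro y hy
    have h1 := isCoboundary₂_map (evY y) (evY_smul hy) hcob
    have h2 := isCoboundary₂_sub (a2_pair hφ' hy) (h0 _ (cocOf_isCocycle₂ hy))
    have h3 := isCoboundary₂_sub (isCoboundary₂_nsmul m₁ h2) h1
    have h4 : IsCoboundary₂ (ψ y • u) := by
      convert h3 using 1
      funext x
      simp only [Pi.smul_apply, Pi.sub_apply, evY_apply, HomM.sub_apply, scal_apply]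
      have : (m₁ • a2 φ x) y = m₁ • (a2 φ x y) := rfl
      rw [this]
      abel_nf
    exact hC.h2ord P hP (ψ y) (isCoboundary₂_res (P : Subgroup G) h4)
  -- lattice duality
  have hcard : (Nat.card G : ℤ) = Nat.card (P : Subgroup G) * m₁ := by
    rw [← (P : Subgroup G).card_mul_index]; push_cast; rfl
  obtain ⟨ψ₀, hψ₀⟩ := LD_inj (G := G) (m₁ • ψ) (fun g y => by simp [hψ]) (fun y hy => by
    obtain ⟨k, hk⟩ := hdiv y hy
    refine ⟨k, ?_⟩
    rw [hcard, AddMonoidHom.nsmul_apply, hk, nsmul_eq_mul]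
    ring)
  have h5 : IsCoboundary₂ (m₁ • fun x : G × G => scal G ψ (u x)) := by
    convert scal_norm_cob hu ψ₀ using 1
    funext x
    ext y
    have : (m₁ • scal G ψ (u x)) y = m₁ • (scal G ψ (u x) y) := rfl
    simp only [Pi.smul_apply, this, scal_apply, AddMonoidHom.comp_apply, ← hψ₀,
      AddMonoidHom.nsmul_apply]
    rw [smul_assoc]
  have h6 : IsCoboundary₂ (a2 ((m₁ * m₁) • φ)) := by
    rw [a2_nsmul]
    convert isCoboundary₂_add (isCoboundary₂_nsmul m₁ hcob) h5 using 1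
    rw [smul_sub, sub_add_cancel, mul_smul]
  obtain ⟨ψ', hψ'⟩ := a2_cob (φ := (m₁ * m₁) • φ) (fun g => by rw [smul_comm, hφ' g]) h6
  have hcop : m₁.Coprime p :=
    ((Nat.Prime.coprime_iff_not_dvd Fact.out).2 P.not_dvd_index).symm
  exact ⟨m₁ * m₁, Nat.Coprime.mul_left hcop hcop, ψ', hψ'⟩

/-- **TN, surjectivity**: every homomorphism `H²(G,X) → H²(G,C)` is, up to a factor prime to `p`,
induced by an equivariant `φ : X → C`. -/
theorem TN_surj (p : ℕ) [Fact p.Prime]
    {C : Type} [AddCommGroup C] [DistribMulAction G C] (u : G × G → C)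
    (hC : IsClassModule p G C u)
    {X : Type} [AddCommGroup X] [DistribMulAction G X] [Module.Free ℤ X] [Module.Finite ℤ X]
    (lam : H2 G X →+ H2 G C) :
    ∃ m : ℕ, m.Coprime p ∧ ∃ φ ∈ inv (⊤ : Subgroup G) (HomM G X C),
      ∀ (f : Z2 G X) (f' : Z2 G C), (∀ x, (f' : G × G → C) x = φ ((f : G × G → X) x)) →
        H2.mk f' = m • lam (H2.mk f) := by
  obtain ⟨P⟩ : Nonempty (Sylow p G) := inferInstance
  have hP : IsPGroup p (P : Subgroup G) := P.isPGroup'
  set m₁ := (P : Subgroup G).index with hm₁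
  have hu := hC.cocycle
  set U : H2 G C := H2.mk ⟨u, hu⟩ with hU
  have hcard : (Nat.card G : ℤ) = Nat.card (P : Subgroup G) * m₁ := by
    rw [← (P : Subgroup G).card_mul_index]; push_cast; rfl
  -- (a) `m₁ c ∈ ℤ U`
  have ha : ∀ c : H2 G C, ∃ k : ℤ, m₁ • c = k • U := by
    intro c
    obtain ⟨f, rfl⟩ := H2.mk_surjective c
    obtain ⟨ψ, -, hcob⟩ := TN20_surj hu m₁ (K2_HomM_Spl p hC P hP (Y := TrivZ))
      (fun x => scal G TrivZ.toInt.toAddMonoidHom ((f : G × G → C) x))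
      (scal_isCocycle₂ f.2 _ (fun _ _ => rfl))
    have h1 := isCoboundary₂_map (evY (TrivZ.toInt.symm 1)) (evY_smul (fun _ => rfl)) hcob
    refine ⟨ψ (TrivZ.toInt.symm 1), ?_⟩
    rw [← H2.mk_nsmul, hU, ← H2.mk_zsmul, ← sub_eq_zero, ← H2.mk_sub, H2.mk_eq_zero]
    convert h1 using 1
    funext x
    have e1 : (m₁ • scal G TrivZ.toInt.toAddMonoidHom ((f : G × G → C) x)) (TrivZ.toInt.symm 1)
        = m₁ • (f : G × G → C) x := by
      show m₁ • ((1 : ℤ) • (f : G × G → C) x) = _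
      rw [one_smul]
    simp only [Pi.sub_apply, Pi.smul_apply, evY_apply, HomM.sub_apply, scal_apply, e1]
    rfl
  -- (b) order of `U`
  have hb : ∀ k : ℤ, k • U = 0 → (Nat.card (P : Subgroup G) : ℤ) ∣ k := by
    intro k hk
    rw [hU, ← H2.mk_zsmul, H2.mk_eq_zero] at hk
    exact hC.h2ord P hP k (isCoboundary₂_res (P : Subgroup G) hk)
  have hn : (Nat.card G : ℤ) • U = 0 := by
    rw [hU, ← H2.mk_zsmul, H2.mk_eq_zero]
    have := K2_card (Γ := G) C u hu
    convert this using 1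
    funext x
    simp
  -- (c) the homomorphism `κ`
  choose k hk using ha
  let κ : H2 G C →+ ZMod (Nat.card G) := AddMonoidHom.mk' (fun c => ((m₁ * k c : ℤ) : ZMod (Nat.card G)))
    (fun c c' => by
      have h1 : (k (c + c') - k c - k c') • U = 0 := by
        rw [sub_smul, sub_smul, ← hk, ← hk, ← hk, nsmul_add]; abel
      obtain ⟨t, ht⟩ := hb _ h1
      have h2 : (m₁ * k (c + c') : ℤ) = m₁ * k c + m₁ * k c' + Nat.card G * t := by
        rw [hcard]
        linear_combination (m₁ : ℤ) * ht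
      rw [h2]
      push_cast
      simp)
  have hκ : ∀ (c : H2 G C) (z : ℤ), (z : ZMod (Nat.card G)) = κ c → z • U = (m₁ * m₁) • c := by
    intro c z hz
    have h1 : ((z - m₁ * k c : ℤ) : ZMod (Nat.card G)) = 0 := by
      rw [Int.cast_sub, hz]; exact sub_self _
    obtain ⟨t, ht⟩ := (ZMod.intCast_zmod_eq_zero_iff_dvd _ _).1 h1
    have h2 : z = m₁ * k c + t * Nat.card G := by linear_combination ht
    rw [h2, add_zsmul, mul_zsmul U t, hn, zsmul_zero, add_zero, mul_zsmul, ← hk, mul_nsmul,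
      natCast_zsmul]
  -- (d) the homomorphism `D`
  let D : inv (⊤ : Subgroup G) (Up G (Up G X)) →+ H2 G X :=
    { toFun := fun y => H2.mk ⟨cocOf (y : Up G (Up G X)), cocOf_isCocycle₂ (fun g => y.2 g trivial)⟩
      map_zero' := rfl
      map_add' := fun y y' => rfl }
  obtain ⟨ψ, hψ, hψχ⟩ := LD_surj (G := G) (κ.comp (lam.comp D)) (fun y hy => by
    obtain ⟨z, hz⟩ := hy
    have : D y = 0 := by
      show H2.mk _ = 0
      rw [H2.mk_eq_zero]
      show IsCoboundary₂ (cocOf (y : Up G (Up G X)))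
      rw [hz]
      exact cocOf_norm z
    simp [this])
  obtain ⟨φ, hφ, hcob⟩ := exists_a2 (scal_isCocycle₂ hu ψ hψ)
  have hcop : m₁.Coprime p :=
    ((Nat.Prime.coprime_iff_not_dvd Fact.out).2 P.not_dvd_index).symm
  have hφn : ∀ g : G, g • (-φ) = -φ := fun g => by rw [smul_neg, hφ g]
  refine ⟨m₁ * m₁, Nat.Coprime.mul_left hcop hcop, -φ, fun g _ => hφn g, fun f f' hff' => ?_⟩
  obtain ⟨y, hy, hfy⟩ := exists_cocOf f.2
  have hD : H2.mk f = D ⟨y, fun g _ => hy g⟩ := by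
    rw [← sub_eq_zero]
    show H2.mk (f - ⟨cocOf y, cocOf_isCocycle₂ hy⟩) = 0
    rw [H2.mk_eq_zero]
    exact hfy
  rw [hD, ← hκ (lam (D ⟨y, fun g _ => hy g⟩)) (ψ y) (hψχ ⟨y, fun g _ => hy g⟩), hU, ← H2.mk_zsmul,
    ← sub_eq_zero, ← H2.mk_sub, H2.mk_eq_zero]
  have hφ' : ∀ (g : G) (x : X), φ (g • x) = g • φ x := HomM.mem_inv_top.1 (fun g _ => hφ g)
  have h1 := isCoboundary₂_map (HomM.toHom φ) hφ' hfy
  have h2 := isCoboundary₂_map (evY y) (evY_smul hy) hcob
  have h3 := isCoboundary₂_neg (isCoboundary₂_add (isCoboundary₂_add h1 h2) (a2_pair hφ hy))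
  convert h3 using 1
  funext x
  have e1 : HomM.toHom φ ((f : G × G → X) x - cocOf y x) = φ ((f : G × G → X) x) - φ (cocOf y x) :=
    map_sub φ _ _
  simp only [AddSubgroup.coe_sub, Pi.sub_apply, Pi.neg_apply, Pi.add_apply, evY_apply,
    HomM.sub_apply, scal_apply, hff' x, HomM.neg_apply, e1]
  show -φ ((f : G × G → X) x) - ψ y • u x = _
  abel

end Fermat.Agent.S55Lib
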