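import Fermat.Agent.S55.T.Defs

/-! # S55 chapter T: transfer lemmas (leaf T-BAS) -/

set_option autoImplicit false

namespace Fermat.Agent.S55Lib.TN

open groupCohomology

section Transfer

variable {Γ : Type} [Group Γ] {A B : Type} [AddCommGroup A] [AddCommGroup B]
  [DistribMulAction Γ A] [DistribMulAction Γ B]

/-- equivariant maps preserve 1-cocycles -/
lemma isCocycle₁_map (T : A →+ B) (hT : ∀ (g : Γ) a, T (g • a) = g • T a) {f : Γ → A}
    (hf : IsCocycle₁ f) : IsCocycle₁ (fun x => T (f x)) := fun g h => by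
  show T (f (g * h)) = g • T (f h) + T (f g)
  rw [hf g h, map_add, hT]

/-- equivariant maps preserve 1-coboundaries -/
lemma isCoboundary₁_map (T : A →+ B) (hT : ∀ (g : Γ) a, T (g • a) = g • T a) {f : Γ → A}
    (hf : IsCoboundary₁ f) : IsCoboundary₁ (fun x => T (f x)) := by
  obtain ⟨x, hx⟩ := hf
  exact ⟨T x, fun g => by
    show g • T x - T x = T (f g)
    rw [← hx g, map_sub, hT]⟩

/-- equivariant maps preserve 2-cocycles -/
lemma isCocycle₂_map (T : A →+ B) (hT : ∀ (g : Γ) a, T (g • a) = g • T a) {f : Γ × Γ → A}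
    (hf : IsCocycle₂ f) : IsCocycle₂ (fun x => T (f x)) := fun g h j => by
  show T (f (g * h, j)) + T (f (g, h)) = g • T (f (h, j)) + T (f (g, h * j))
  rw [← map_add, hf g h j, map_add, hT]

/-- equivariant maps preserve 2-coboundaries -/
lemma isCoboundary₂_map (T : A →+ B) (hT : ∀ (g : Γ) a, T (g • a) = g • T a) {f : Γ × Γ → A}
    (hf : IsCoboundary₂ f) : IsCoboundary₂ (fun x => T (f x)) := by
  obtain ⟨x, hx⟩ := hf
  exact ⟨fun g => T (x g), fun g h => by
    show g • T (x h) - T (x (g * h)) + T (x g) = T (f (g, h))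
    rw [← hx g h, map_add, map_sub, hT]⟩

/-- injective equivariant maps reflect 1-cocycles -/
lemma isCocycle₁_of_map (T : A →+ B) (hT : ∀ (g : Γ) a, T (g • a) = g • T a)
    (hinj : Function.Injective T) {f : Γ → A} (hf : IsCocycle₁ (fun x => T (f x))) :
    IsCocycle₁ f := fun g h => hinj (by
  have := hf g h
  simp only at this
  rw [this, map_add, hT])

/-- injective equivariant maps reflect 2-cocycles -/
lemma isCocycle₂_of_map (T : A →+ B) (hT : ∀ (g : Γ) a, T (g • a) = g • T a)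
    (hinj : Function.Injective T) {f : Γ × Γ → A} (hf : IsCocycle₂ (fun x => T (f x))) :
    IsCocycle₂ f := fun g h j => hinj (by
  have := hf g h j
  simp only at this
  rw [map_add, this, map_add, hT])

lemma normG_map [Finite Γ] (T : A →+ B) (hT : ∀ (g : Γ) a, T (g • a) = g • T a) (a : A) :
    T (normG Γ A a) = normG Γ B (T a) := by
  cases nonempty_fintype Γ
  rw [normG_apply, normG_apply, map_sum]
  exact Finset.sum_congr rfl (fun g _ => hT g a)

lemma smul_normG [Finite Γ] (g : Γ) (a : A) : g • normG Γ A a = normG Γ A a := by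
  cases nonempty_fintype Γ
  rw [normG_apply, Finset.smul_sum]
  exact Fintype.sum_equiv (Equiv.mulLeft g) _ _ (fun h => by simp [mul_smul])

lemma normG_smul [Finite Γ] (g : Γ) (a : A) : normG Γ A (g • a) = normG Γ A a := by
  cases nonempty_fintype Γ
  rw [normG_apply, normG_apply]
  exact Fintype.sum_equiv (Equiv.mulRight g) _ _ (fun h => by simp [mul_smul])

lemma normG_of_fixed [Finite Γ] (a : A) (ha : ∀ g : Γ, g • a = a) :
    normG Γ A a = Nat.card Γ • a := by
  cases nonempty_fintype Γ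
  rw [normG_apply, Finset.sum_congr rfl (fun g _ => ha g), Finset.sum_const, Finset.card_univ,
    Nat.card_eq_fintype_card]

lemma K0.of_equiv [Finite Γ] (e : A ≃+ B) (he : ∀ (g : Γ) a, e (g • a) = g • e a) {m : ℕ}
    (h : K0 Γ m A) : K0 Γ m B := by
  intro b hb
  obtain ⟨a, ha⟩ := h (e.symm b) (fun g => e.injective (by rw [he, e.apply_symm_apply, hb g]))
  refine ⟨e a, ?_⟩
  have h1 := normG_map e.toAddMonoidHom he a
  rw [← ha] at h1
  simpa using h1

lemma K1.of_equiv (e : A ≃+ B) (he : ∀ (g : Γ) a, e (g • a) = g • e a) {m : ℕ}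
    (h : K1 Γ m A) : K1 Γ m B := by
  intro f hf
  have hes : ∀ (g : Γ) b, e.symm (g • b) = g • e.symm b := fun g b =>
    e.injective (by rw [he, e.apply_symm_apply, e.apply_symm_apply])
  have h1 := h _ (isCocycle₁_map e.symm.toAddMonoidHom hes hf)
  have h2 := isCoboundary₁_map e.toAddMonoidHom he h1
  convert h2 using 1
  funext x
  simp

lemma K2.of_equiv (e : A ≃+ B) (he : ∀ (g : Γ) a, e (g • a) = g • e a) {m : ℕ}
    (h : K2 Γ m A) : K2 Γ m B := by
  intro f hf
  have hes : ∀ (g : Γ) b, e.symm (g • b) = g • e.symm b := fun g b =>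
    e.injective (by rw [he, e.apply_symm_apply, e.apply_symm_apply])
  have h1 := h _ (isCocycle₂_map e.symm.toAddMonoidHom hes hf)
  have h2 := isCoboundary₂_map e.toAddMonoidHom he h1
  convert h2 using 1
  funext x
  simp

lemma IsCoind.of_equiv (e : A ≃+ B) (he : ∀ (g : Γ) a, e (g • a) = g • e a)
    (h : IsCoind Γ A) : IsCoind Γ B := by
  obtain ⟨V, iV, e', he'⟩ := h
  have hes : ∀ (g : Γ) b, e.symm (g • b) = g • e.symm b := fun g b =>
    e.injective (by rw [he, e.apply_symm_apply, e.apply_symm_apply])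
  exact ⟨V, iV, e.symm.trans e', fun γ b x => by
    simp only [AddEquiv.trans_apply, hes, he']⟩

/-- sums / differences / multiples of coboundaries and cocycles -/
lemma isCoboundary₁_add {f f' : Γ → A} (h : IsCoboundary₁ f) (h' : IsCoboundary₁ f') :
    IsCoboundary₁ (f + f') := (B1 Γ A).add_mem h h'
lemma isCoboundary₁_sub {f f' : Γ → A} (h : IsCoboundary₁ f) (h' : IsCoboundary₁ f') :
    IsCoboundary₁ (f - f') := (B1 Γ A).sub_mem h h'
lemma isCoboundary₁_neg {f : Γ → A} (h : IsCoboundary₁ f) : IsCoboundary₁ (-f) :=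
  (B1 Γ A).neg_mem h
lemma isCoboundary₁_nsmul {f : Γ → A} (n : ℕ) (h : IsCoboundary₁ f) : IsCoboundary₁ (n • f) :=
  (B1 Γ A).nsmul_mem h n
lemma isCoboundary₁_zsmul {f : Γ → A} (n : ℤ) (h : IsCoboundary₁ f) : IsCoboundary₁ (n • f) :=
  (B1 Γ A).zsmul_mem h n
lemma isCoboundary₂_add {f f' : Γ × Γ → A} (h : IsCoboundary₂ f) (h' : IsCoboundary₂ f') :
    IsCoboundary₂ (f + f') := (B2 Γ A).add_mem h h'
lemma isCoboundary₂_sub {f f' : Γ × Γ → A} (h : IsCoboundary₂ f) (h' : IsCoboundary₂ f') :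
    IsCoboundary₂ (f - f') := (B2 Γ A).sub_mem h h'
lemma isCoboundary₂_neg {f : Γ × Γ → A} (h : IsCoboundary₂ f) : IsCoboundary₂ (-f) :=
  (B2 Γ A).neg_mem h
lemma isCoboundary₂_nsmul {f : Γ × Γ → A} (n : ℕ) (h : IsCoboundary₂ f) :
    IsCoboundary₂ (n • f) := (B2 Γ A).nsmul_mem h n
lemma isCoboundary₂_zsmul {f : Γ × Γ → A} (n : ℤ) (h : IsCoboundary₂ f) :
    IsCoboundary₂ (n • f) := (B2 Γ A).zsmul_mem h n
lemma isCocycle₁_add {f f' : Γ → A} (h : IsCocycle₁ f) (h' : IsCocycle₁ f') :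
    IsCocycle₁ (f + f') := (Z1 Γ A).add_mem h h'
lemma isCocycle₁_sub {f f' : Γ → A} (h : IsCocycle₁ f) (h' : IsCocycle₁ f') :
    IsCocycle₁ (f - f') := (Z1 Γ A).sub_mem h h'
lemma isCocycle₁_nsmul {f : Γ → A} (n : ℕ) (h : IsCocycle₁ f) : IsCocycle₁ (n • f) :=
  (Z1 Γ A).nsmul_mem h n
lemma isCocycle₁_zsmul {f : Γ → A} (n : ℤ) (h : IsCocycle₁ f) : IsCocycle₁ (n • f) :=
  (Z1 Γ A).zsmul_mem h n
lemma isCocycle₂_add {f f' : Γ × Γ → A} (h : IsCocycle₂ f) (h' : IsCocycle₂ f') :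
    IsCocycle₂ (f + f') := (Z2 Γ A).add_mem h h'
lemma isCocycle₂_sub {f f' : Γ × Γ → A} (h : IsCocycle₂ f) (h' : IsCocycle₂ f') :
    IsCocycle₂ (f - f') := (Z2 Γ A).sub_mem h h'
lemma isCocycle₂_nsmul {f : Γ × Γ → A} (n : ℕ) (h : IsCocycle₂ f) : IsCocycle₂ (n • f) :=
  (Z2 Γ A).nsmul_mem h n
lemma isCocycle₂_zsmul {f : Γ × Γ → A} (n : ℤ) (h : IsCocycle₂ f) : IsCocycle₂ (n • f) :=
  (Z2 Γ A).zsmul_mem h n

/-- coboundaries are cocycles -/
lemma isCocycle₁_of_cob {f : Γ → A} (h : IsCoboundary₁ f) : IsCocycle₁ f := by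
  obtain ⟨x, hx⟩ := h
  intro g h
  rw [← hx, ← hx, ← hx, smul_sub, mul_smul]
  abel
lemma isCocycle₂_of_cob {f : Γ × Γ → A} (h : IsCoboundary₂ f) : IsCocycle₂ f := by
  obtain ⟨x, hx⟩ := h
  intro g h j
  rw [← hx, ← hx, ← hx, ← hx, smul_add, smul_sub, mul_smul, mul_assoc]
  abel

lemma K1.one {f : Γ → A} (h : K1 Γ 1 A) (hf : IsCocycle₁ f) : IsCoboundary₁ f := by
  simpa using h f hf
lemma K2.one {f : Γ × Γ → A} (h : K2 Γ 1 A) (hf : IsCocycle₂ f) : IsCoboundary₂ f := by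
  simpa using h f hf
lemma K0.one [Finite Γ] (h : K0 Γ 1 A) {a : A} (ha : ∀ g : Γ, g • a = a) :
    ∃ b, a = normG Γ A b := by
  simpa using h a ha

end Transfer

section Restrict

variable {G : Type} [Group G] {A : Type} [AddCommGroup A] [DistribMulAction G A]

/-- restriction of cochains to a subgroup -/
lemma isCocycle₁_res (H : Subgroup G) {f : G → A} (hf : IsCocycle₁ f) :
    IsCocycle₁ (fun h : H => f (h : G)) := fun g h => hf (g : G) (h : G)
lemma isCocycle₂_res (H : Subgroup G) {f : G × G → A} (hf : IsCocycle₂ f) :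
    IsCocycle₂ (fun x : H × H => f ((x.1 : G), (x.2 : G))) :=
  fun g h j => hf (g : G) (h : G) (j : G)
lemma isCoboundary₁_res (H : Subgroup G) {f : G → A} (hf : IsCoboundary₁ f) :
    IsCoboundary₁ (fun h : H => f (h : G)) := by
  obtain ⟨x, hx⟩ := hf
  exact ⟨x, fun g => hx (g : G)⟩
lemma isCoboundary₂_res (H : Subgroup G) {f : G × G → A} (hf : IsCoboundary₂ f) :
    IsCoboundary₂ (fun x : H × H => f ((x.1 : G), (x.2 : G))) := by
  obtain ⟨x, hx⟩ := hf
  exact ⟨fun h => x (h : G), fun g h => hx (g : G) (h : G)⟩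

variable {Y : Type} [AddCommGroup Y] [DistribMulAction G Y]

/-- `HomM H Y A` and `HomM G Y A` (restricted to `H`) are the same `H`-module -/
def HomM.resEquiv (H : Subgroup G) : HomM H Y A ≃+ HomM G Y A := AddEquiv.refl (Y →+ A)

lemma HomM.resEquiv_smul (H : Subgroup G) (h : H) (φ : HomM H Y A) :
    HomM.resEquiv H (h • φ) = h • HomM.resEquiv H φ := rfl

end Restrict

end Fermat.Agent.S55Lib.TN
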