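import Fermat.Agent.S55.T.Root
import Fermat.Agent.S55.B.ThmB
import Fermat.Agent.S55.L.Transport

/-! # S55 chapter T: the norm index `|C^V / N_V C| = |V|` (root `TN_norm_index`) -/

set_option autoImplicit false
set_option linter.unusedSectionVars false
set_option linter.unusedVariables false

namespace Fermat.Agent.S55Lib

open groupCohomology

namespace TN

/-! ## duality for finite abelian groups with values in `ZMod n` -/

lemma NI_enough (n : ℕ) [NeZero n] : HasEnoughRootsOfUnity (Multiplicative (ZMod n)) n where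
  prim := ⟨Multiplicative.ofAdd 1, by
    refine ⟨?_, fun l hl => ?_⟩
    · rw [← ofAdd_nsmul]
      simp
    · rw [← ofAdd_nsmul] at hl
      have h1 : (l • (1 : ZMod n)) = 0 := hl
      rw [nsmul_eq_mul, mul_one] at h1
      exact (ZMod.natCast_eq_zero_iff l n).1 h1⟩
  cyc := by
    have : IsCyclic (Multiplicative (ZMod n))ˣ :=
      isCyclic_of_surjective (toUnits (G := Multiplicative (ZMod n))) (toUnits.surjective)
    infer_instance

lemma NI_card_hom (n : ℕ) [NeZero n] (P : Type) [CommGroup P] [Finite P]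
    (hP : ∀ g : P, g ^ n = 1) : Nat.card (P →* Multiplicative (ZMod n)) = Nat.card P := by
  have := NI_enough n
  have : HasEnoughRootsOfUnity (Multiplicative (ZMod n)) (Monoid.exponent P) :=
    HasEnoughRootsOfUnity.of_dvd _ (Monoid.exponent_dvd_of_forall_pow_eq_one hP)
  rw [← CommGroup.card_monoidHom_of_hasEnoughRootsOfUnity P (Multiplicative (ZMod n))]
  exact Nat.card_congr (MulEquiv.monoidHomCongrRight (toUnits (G := Multiplicative (ZMod n)))).toEquiv

lemma NI_card_addHom (n : ℕ) [NeZero n] (A : Type) [AddCommGroup A] [Finite A]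
    (hA : ∀ a : A, n • a = 0) : Nat.card (A →+ ZMod n) = Nat.card A := by
  have h := NI_card_hom n (Multiplicative A) (fun g => hA (Multiplicative.toAdd g))
  rw [Nat.card_congr (AddMonoidHom.toMultiplicative (α := A) (β := ZMod n))]
  exact h

/-! ## restriction of a class module to a subgroup -/

theorem NI_restrict {G : Type} [Group G] {C : Type} [AddCommGroup C] [DistribMulAction G C]
    {u : G × G → C} (p : ℕ) (hC : IsClassModule p G C u) (V : Subgroup G) :
    IsClassModule p V C (fun x : V × V => u ((x.1 : G), (x.2 : G))) := by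
  have e : ∀ H' : Subgroup V, H' ≃* H'.map V.subtype := fun H' =>
    H'.equivMapOfInjective V.subtype V.subtype_injective
  have hP : ∀ H' : Subgroup V, IsPGroup p H' → IsPGroup p (H'.map V.subtype) :=
    fun H' hp => hp.of_equiv (H'.equivMapOfInjective V.subtype V.subtype_injective)
  refine ⟨isCocycle₂_res V hC.cocycle, ?_, ?_, ?_⟩
  · intro H' hp f' hf'
    let e := H'.equivMapOfInjective V.subtype V.subtype_injective
    let f : H'.map V.subtype → C := fun x => f' (e.symm x)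
    have hff : (fun x : H' => (AddEquiv.refl C) (f (e x))) = f' := by
      funext x
      simp [f]
    have h1 : IsCocycle₁ f :=
      (transport_isCocycle₁ e (AddEquiv.refl C) (fun g a => rfl) f).1 (by rw [hff]; exact hf')
    have h2 := (transport_isCoboundary₁ e (AddEquiv.refl C) (fun g a => rfl) f).2
      (hC.h1 _ (hP H' hp) f h1)
    rw [hff] at h2
    exact h2
  · intro H' hp f' hf'
    let e := H'.equivMapOfInjective V.subtype V.subtype_injective
    let f : H'.map V.subtype × H'.map V.subtype → C := fun x => f' (e.symm x.1, e.symm x.2)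
    have hff : (fun x : H' × H' => (AddEquiv.refl C) (f (e x.1, e x.2))) = f' := by
      funext x
      simp [f]
    have h1 : IsCocycle₂ f :=
      (transport_isCocycle₂ e (AddEquiv.refl C) (fun g a => rfl) f).1 (by rw [hff]; exact hf')
    obtain ⟨k, hk⟩ := hC.h2gen _ (hP H' hp) f h1
    refine ⟨k, ?_⟩
    have h2 := (transport_isCoboundary₂ e (AddEquiv.refl C) (fun g a => rfl) _).2 hk
    have h3 : (fun x : H' × H' => (AddEquiv.refl C)
        ((f - k • fun x : H'.map V.subtype × H'.map V.subtype => u ((x.1 : G), (x.2 : G)))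
          (e x.1, e x.2))) =
        f' - k • fun x : H' × H' => u ((((x.1 : V)) : G), ((x.2 : V) : G)) := by
      funext x
      have := congrFun hff x
      simp only [AddEquiv.refl_apply] at this
      simp only [AddEquiv.refl_apply, Pi.sub_apply, Pi.smul_apply, this]
      rfl
    rw [h3] at h2
    exact h2
  · intro H' hp k hk
    let e := H'.equivMapOfInjective V.subtype V.subtype_injective
    have h2 := (transport_isCoboundary₂ e (AddEquiv.refl C) (fun g a => rfl)
      (k • fun x : H'.map V.subtype × H'.map V.subtype => u ((x.1 : G), (x.2 : G)))).1 hk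
    have h3 := hC.h2ord _ (hP H' hp) k h2
    rwa [← Nat.card_congr e.toEquiv] at h3

/-! ## `H²(P,ℤ) = Hom(P, ℤ/n)`, `n = |P|` -/

section HZ

variable {P : Type} [Group P] [Finite P]

/-- the identity `TrivZ → ℤ` -/
local notation "τ" => TrivZ.toInt

lemma NI_coc_iff (f : P × P → TrivZ) : IsCocycle₂ f ↔
    ∀ g h j : P, τ (f (g * h, j)) + τ (f (g, h)) = τ (f (h, j)) + τ (f (g, h * j)) := Iff.rfl

lemma NI_cob_iff (f : P × P → TrivZ) : IsCoboundary₂ f ↔
    ∃ x : P → ℤ, ∀ g h : P, x h - x (g * h) + x g = τ (f (g, h)) := Iff.rfl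

/-- the integer lift of a character -/
noncomputable def NIval (n : ℕ) (χ : P →* Multiplicative (ZMod n)) (g : P) : ℤ :=
  ((Multiplicative.toAdd (χ g)).val : ℤ)

lemma NIval_cast (n : ℕ) [NeZero n] (χ : P →* Multiplicative (ZMod n)) (g : P) :
    ((NIval n χ g : ℤ) : ZMod n) = Multiplicative.toAdd (χ g) := by
  simp [NIval]

lemma NIval_dvd (n : ℕ) [NeZero n] (χ : P →* Multiplicative (ZMod n)) (g h : P) :
    (n : ℤ) ∣ NIval n χ h - NIval n χ (g * h) + NIval n χ g := by
  rw [← ZMod.intCast_zmod_eq_zero_iff_dvd]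
  push_cast
  rw [NIval_cast, NIval_cast, NIval_cast, map_mul, toAdd_mul]
  abel

/-- the 2-cocycle `∂(lift χ)/n` -/
noncomputable def NIcoc (n : ℕ) (χ : P →* Multiplicative (ZMod n)) : P × P → TrivZ :=
  fun x => TrivZ.toInt.symm ((NIval n χ x.2 - NIval n χ (x.1 * x.2) + NIval n χ x.1) / (n : ℤ))

lemma NIcoc_mul (n : ℕ) [NeZero n] (χ : P →* Multiplicative (ZMod n)) (g h : P) :
    (n : ℤ) * τ (NIcoc n χ (g, h)) = NIval n χ h - NIval n χ (g * h) + NIval n χ g :=
  Int.mul_ediv_cancel' (NIval_dvd n χ g h)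

lemma NIcoc_isCocycle₂ (n : ℕ) [NeZero n] (χ : P →* Multiplicative (ZMod n)) :
    IsCocycle₂ (NIcoc n χ) := by
  rw [NI_coc_iff]
  intro g h j
  have hn : (n : ℤ) ≠ 0 := by exact_mod_cast NeZero.ne n
  apply mul_left_cancel₀ hn
  rw [mul_add, mul_add, NIcoc_mul, NIcoc_mul, NIcoc_mul, NIcoc_mul, mul_assoc]
  ring

/-- a cochain `x` with `∂x ≡ 0 mod n` defines a character -/
lemma NI_char (n : ℕ) (x : P → ℤ) (f : P × P → ℤ)
    (h : ∀ g k : P, x k - x (g * k) + x g = n * f (g, k)) :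
    ∃ χ : P →* Multiplicative (ZMod n), ∀ g, Multiplicative.toAdd (χ g) = ((x g : ℤ) : ZMod n) := by
  refine ⟨MonoidHom.mk' (fun g => Multiplicative.ofAdd ((x g : ℤ) : ZMod n)) (fun g k => ?_),
    fun g => rfl⟩
  rw [← ofAdd_add]
  congr 1
  have h1 := congrArg (fun z : ℤ => (z : ZMod n)) (h g k)
  simp only [Int.cast_add, Int.cast_sub, Int.cast_mul, Int.cast_natCast, ZMod.natCast_self,
    zero_mul] at h1
  have h2 : ((x (g * k) : ℤ) : ZMod n) = (x g : ZMod n) + (x k : ZMod n) -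
      ((x k : ZMod n) - (x (g * k) : ZMod n) + (x g : ZMod n)) := by ring
  rw [h2, h1, sub_zero]

lemma NI_card_cob (f : P × P → TrivZ) (hf : IsCocycle₂ f) :
    ∃ x : P → ℤ, ∀ g k : P, x k - x (g * k) + x g = (Nat.card P : ℤ) * τ (f (g, k)) := by
  obtain ⟨x, hx⟩ := (NI_cob_iff _).1 (card_smul_isCoboundary₂ hf)
  refine ⟨x, fun g k => ?_⟩
  rw [hx g k, Pi.smul_apply, map_nsmul, nsmul_eq_mul]

/-- the map `Hom(P,ℤ/n) → H²(P,ℤ)` -/
noncomputable def NIXi (χ : P →* Multiplicative (ZMod (Nat.card P))) : H2 P TrivZ :=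
  haveI : NeZero (Nat.card P) := ⟨Nat.card_pos.ne'⟩
  H2.mk ⟨NIcoc (Nat.card P) χ, NIcoc_isCocycle₂ (Nat.card P) χ⟩

lemma NIXi_bijective : Function.Bijective (NIXi (P := P)) := by
  have : NeZero (Nat.card P) := ⟨Nat.card_pos.ne'⟩
  have hn : (Nat.card P : ℤ) ≠ 0 := by exact_mod_cast NeZero.ne (Nat.card P)
  constructor
  · intro χ χ' h
    have h1 : H2.mk (⟨NIcoc (Nat.card P) χ, NIcoc_isCocycle₂ (Nat.card P) χ⟩ -
        ⟨NIcoc (Nat.card P) χ', NIcoc_isCocycle₂ (Nat.card P) χ'⟩ : Z2 P TrivZ) = 0 := by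
      rw [H2.mk_sub]
      exact sub_eq_zero.2 h
    rw [H2.mk_eq_zero, NI_cob_iff] at h1
    obtain ⟨y, hy⟩ := h1
    have hy' : ∀ g k : P, y k - y (g * k) + y g =
        τ (NIcoc (Nat.card P) χ (g, k)) - τ (NIcoc (Nat.card P) χ' (g, k)) := hy
    have hz := SK_add_zero
      (fun g => NIval (Nat.card P) χ g - NIval (Nat.card P) χ' g - Nat.card P * y g) (fun g k => by
        have h2 := NIcoc_mul (Nat.card P) χ g k
        have h3 := NIcoc_mul (Nat.card P) χ' g k
        have h4 := hy' g k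
        have h5 : (Nat.card P : ℤ) * (y k - y (g * k) + y g) =
          (Nat.card P : ℤ) * τ (NIcoc (Nat.card P) χ (g, k)) -
            (Nat.card P : ℤ) * τ (NIcoc (Nat.card P) χ' (g, k)) := by rw [h4]; ring
        rw [h2, h3] at h5
        linarith)
    ext g
    have h6 := congrArg (fun z : ℤ => (z : ZMod (Nat.card P))) (hz g)
    simp only [Int.cast_sub, Int.cast_mul, Int.cast_natCast, ZMod.natCast_self, zero_mul,
      sub_zero, Int.cast_zero, NIval_cast] at h6
    have h7 : Multiplicative.toAdd (χ g) = Multiplicative.toAdd (χ' g) := sub_eq_zero.1 h6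
    exact Multiplicative.toAdd.injective h7
  · intro w
    obtain ⟨f, rfl⟩ := H2.mk_surjective w
    obtain ⟨x, hx⟩ := NI_card_cob (f : P × P → TrivZ) f.2
    obtain ⟨χ, hχ⟩ := NI_char (Nat.card P) x (fun z => τ ((f : P × P → TrivZ) z)) hx
    refine ⟨χ, ?_⟩
    have hdvd : ∀ g, (Nat.card P : ℤ) ∣ x g - NIval (Nat.card P) χ g := fun g => by
      rw [← ZMod.intCast_zmod_eq_zero_iff_dvd]
      push_cast
      rw [NIval_cast, hχ, sub_self]
    choose y hy using hdvd
    have h1 : H2.mk (f - ⟨NIcoc (Nat.card P) χ, NIcoc_isCocycle₂ (Nat.card P) χ⟩ : Z2 P TrivZ)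
        = 0 := by
      rw [H2.mk_eq_zero, NI_cob_iff]
      refine ⟨y, fun g k => mul_left_cancel₀ hn ?_⟩
      show (Nat.card P : ℤ) * (y k - y (g * k) + y g) = (Nat.card P : ℤ) *
        (τ ((f : P × P → TrivZ) (g, k)) - τ (NIcoc (Nat.card P) χ (g, k)))
      rw [mul_sub, NIcoc_mul, ← hx g k, mul_add, mul_sub, ← hy, ← hy, ← hy]
      ring
    rw [H2.mk_sub] at h1
    exact (sub_eq_zero.1 h1).symm

/-- the exponent of `P` kills `H²(P,ℤ)` -/
lemma NI_exp_kills (e : ℕ) (he : ∀ s : P, s ^ e = 1) (w : H2 P TrivZ) : e • w = 0 := by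
  have hn : (Nat.card P : ℤ) ≠ 0 := by exact_mod_cast Nat.card_pos.ne'
  obtain ⟨f, rfl⟩ := H2.mk_surjective w
  obtain ⟨x, hx⟩ := NI_card_cob (f : P × P → TrivZ) f.2
  obtain ⟨χ, hχ⟩ := NI_char (Nat.card P) x (fun z => τ ((f : P × P → TrivZ) z)) hx
  have hdvd : ∀ g, (Nat.card P : ℤ) ∣ e * x g := fun g => by
    rw [← ZMod.intCast_zmod_eq_zero_iff_dvd]
    push_cast
    rw [← hχ]
    have h1 : χ g ^ e = 1 := by rw [← map_pow, he, map_one]
    have h2 := congrArg Multiplicative.toAdd h1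
    rw [toAdd_pow, toAdd_one, nsmul_eq_mul] at h2
    exact h2
  choose y hy using hdvd
  rw [← H2.mk_nsmul, H2.mk_eq_zero, NI_cob_iff]
  refine ⟨y, fun g k => mul_left_cancel₀ hn ?_⟩
  show (Nat.card P : ℤ) * (y k - y (g * k) + y g) = (Nat.card P : ℤ) *
    τ (e • ((f : P × P → TrivZ) (g, k)))
  rw [map_nsmul, mul_add, mul_sub, ← hy, ← hy, ← hy, nsmul_eq_mul, mul_left_comm, ← hx g k]
  ring

end HZ

/-! ## `H²(V,C) = ℤ/n` -/

section HC

variable {G : Type} [Group G] [Finite G] {C : Type} [AddCommGroup C] [DistribMulAction G C]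
  {u : G × G → C}

lemma NI_H2C (p : ℕ) (hC : IsClassModule p G C u) (V : Subgroup G) (hV : IsPGroup p V) :
    Nonempty (ZMod (Nat.card V) ≃+ H2 V C) := by
  let uV : Z2 V C := ⟨fun x : V × V => u ((x.1 : G), (x.2 : G)), isCocycle₂_res V hC.cocycle⟩
  have h0 : (zmultiplesHom (H2 V C) (H2.mk uV)) (Nat.card V : ℤ) = 0 := by
    rw [zmultiplesHom_apply, natCast_zsmul, ← H2.mk_nsmul, H2.mk_eq_zero]
    exact card_smul_isCoboundary₂ uV.2
  let L : ZMod (Nat.card V) →+ H2 V C := ZMod.lift (Nat.card V) ⟨zmultiplesHom _ (H2.mk uV), h0⟩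
  have hL : ∀ k : ℤ, L (k : ZMod (Nat.card V)) = k • H2.mk uV := fun k => by
    show ZMod.lift (Nat.card V) _ _ = _
    rw [ZMod.lift_coe]
    rfl
  refine ⟨AddEquiv.ofBijective L ⟨?_, ?_⟩⟩
  · rw [injective_iff_map_eq_zero]
    intro z hz
    obtain ⟨k, rfl⟩ := ZMod.intCast_surjective z
    rw [hL, ← H2.mk_zsmul, H2.mk_eq_zero] at hz
    exact (ZMod.intCast_zmod_eq_zero_iff_dvd k _).2 (hC.h2ord V hV k hz)
  · intro w
    obtain ⟨f, rfl⟩ := H2.mk_surjective w
    obtain ⟨k, hk⟩ := hC.h2gen V hV f f.2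
    refine ⟨(k : ZMod (Nat.card V)), ?_⟩
    rw [hL]
    have h1 : H2.mk (f - k • uV) = 0 := H2.mk_eq_zero.2 hk
    rw [H2.mk_sub, H2.mk_zsmul] at h1
    exact (sub_eq_zero.1 h1).symm

end HC

end TN

open TN in
/-- Corollary (`X = ℤ`): for a normal `p`-subgroup `V` which is abelian,
`|C^V / N_V C| = |V|`, and the quotient is killed by the exponent of `V`. -/
theorem TN_norm_index {G : Type} [Group G] [Finite G] (p : ℕ) [Fact p.Prime]
    {C : Type} [AddCommGroup C] [DistribMulAction G C] (u : G × G → C)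
    (hC : IsClassModule p G C u) (V : Subgroup G) (hV : IsPGroup p V)
    (hab : ∀ s ∈ V, ∀ t ∈ V, s * t = t * s) :
    (((normG V C).range).addSubgroupOf (inv V C)).index = Nat.card V ∧
    ∀ e : ℕ, (∀ s ∈ V, s ^ e = 1) → ∀ c ∈ inv V C, e • c ∈ (normG V C).range := by
  classical
  have hCV := NI_restrict p hC V
  have hne : NeZero (Nat.card V) := ⟨Nat.card_pos.ne'⟩
  obtain ⟨a, ha⟩ := IsPGroup.iff_card.1 hV
  -- the map `c ↦ φ_c`
  let Φ : inv V C →+ inv (⊤ : Subgroup V) (HomM V TrivZ C) :=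
    { toFun := fun c => ⟨scal V (TrivZ.toInt : TrivZ →+ ℤ) (c : C), HomM.mem_inv_top.2 fun g z => by
        show TrivZ.toInt z • (c : C) = g • (TrivZ.toInt z • (c : C))
        rw [smul_comm, show g • (c : C) = c from c.2 g g.2]⟩
      map_zero' := Subtype.ext (by ext z; simp)
      map_add' := fun c c' => Subtype.ext (by ext z; simp) }
  have hΦ : ∀ (c : inv V C) (z : TrivZ), (Φ c : HomM V TrivZ C) z = TrivZ.toInt z • (c : C) :=
    fun c z => rfl
  let Θ : inv V C →+ (H2 V TrivZ →+ H2 V C) := H2.pushHom.comp Φ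
  have hΘ : ∀ c w, Θ c w = H2.push (Φ c) w := fun c w => rfl
  have hcardC : ∀ w : H2 V C, Nat.card V • w = 0 := fun w => by
    obtain ⟨f, rfl⟩ := H2.mk_surjective w
    rw [← H2.mk_nsmul, H2.mk_eq_zero]
    exact card_smul_isCoboundary₂ f.2
  have hcardZ : ∀ w : H2 V TrivZ, Nat.card V • w = 0 := fun w => by
    obtain ⟨f, rfl⟩ := H2.mk_surjective w
    rw [← H2.mk_nsmul, H2.mk_eq_zero]
    exact card_smul_isCoboundary₂ f.2
  -- kernel
  have hker : Θ.ker = ((normG V C).range).addSubgroupOf (inv V C) := by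
    ext c
    rw [AddMonoidHom.mem_ker, AddSubgroup.mem_addSubgroupOf]
    constructor
    · intro h
      obtain ⟨m, hm, ψ, hψ⟩ := TN_inj p _ hCV (Φ c : HomM V TrivZ C) (Φ c).2 (fun f hf =>
        (M_push_mk (Φ c) ⟨f, hf⟩).1 (by rw [← hΘ, h]; rfl))
      have hm' : m.Coprime (Nat.card V) := by rw [ha]; exact Nat.Coprime.pow_right a hm
      refine M_mem_of_coprime hm' _ ?_ ?_
      · have := Fintype.ofFinite V
        refine ⟨ψ (TrivZ.toInt.symm 1), ?_⟩
        have h1 : (m • (Φ c : HomM V TrivZ C)) (TrivZ.toInt.symm 1) =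
            normG V (HomM V TrivZ C) ψ (TrivZ.toInt.symm 1) :=
          congrArg (fun F : HomM V TrivZ C => F (TrivZ.toInt.symm 1)) hψ
        rw [normG_HomM_apply] at h1
        rw [S55Lib.normG_apply]
        have h2 : (m • (Φ c : HomM V TrivZ C)) (TrivZ.toInt.symm 1) = m • (c : C) := by
          show m • ((Φ c : HomM V TrivZ C) (TrivZ.toInt.symm 1)) = _
          rw [hΦ]
          simp
        rw [← h2, h1]
        rfl
      · exact ⟨(c : C), normG_of_mem_inv (G := V) (fun g _ => c.2 g g.2)⟩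
    · rintro ⟨c', hc'⟩
      refine AddMonoidHom.ext fun w => ?_
      obtain ⟨f, rfl⟩ := H2.mk_surjective w
      rw [hΘ]
      refine (M_push_mk _ f).2 ?_
      have h1 := norm_isCoboundary₂ (G := V) (scal V (TrivZ.toInt : TrivZ →+ ℤ) c') f.2
      convert h1 using 1
      funext x
      have := Fintype.ofFinite V
      rw [normG_HomM_apply, hΦ, ← hc', S55Lib.normG_apply, Finset.smul_sum]
      refine Finset.sum_congr rfl fun g _ => ?_
      show _ = g • (TrivZ.toInt (g⁻¹ • (f : V × V → TrivZ) x) • c')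
      rw [smul_comm]
      rfl
  -- surjectivity
  have hsurj : Function.Surjective Θ := by
    intro lam
    obtain ⟨m, hm, φ, hφ, h⟩ := TN_surj p _ hCV lam
    have hm' : m.Coprime (Nat.card V) := by rw [ha]; exact Nat.Coprime.pow_right a hm
    obtain ⟨m1, hm1⟩ := M_bezout (A := H2 V C) hm'
    have hfix : (m1 • φ) (TrivZ.toInt.symm 1) ∈ inv V C := fun s hs => by
      have h1 := HomM.mem_inv_top.1 ((inv (⊤ : Subgroup V) (HomM V TrivZ C)).zsmul_mem hφ m1)
        ⟨s, hs⟩ (TrivZ.toInt.symm 1)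
      exact h1.symm
    refine ⟨⟨_, hfix⟩, AddMonoidHom.ext fun w => ?_⟩
    have h2 : Φ ⟨_, hfix⟩ = m1 • (⟨φ, hφ⟩ : inv (⊤ : Subgroup V) (HomM V TrivZ C)) := by
      apply Subtype.ext
      ext z
      rw [hΦ]
      show TrivZ.toInt z • (m1 • φ) (TrivZ.toInt.symm 1) = (m1 • φ) z
      rw [← map_zsmul]
      congr 1
      show TrivZ.toInt z • (1 : ℤ) = TrivZ.toInt z
      simp
    rw [hΘ, h2, M_push_zsmul]
    obtain ⟨f, rfl⟩ := H2.mk_surjective w
    have h3 : H2.push ⟨φ, hφ⟩ (H2.mk f) = m • lam (H2.mk f) := h f _ (fun x => rfl)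
    rw [h3]
    exact hm1 _ (hcardC _)
  constructor
  · rw [← hker, AddSubgroup.index,
      Nat.card_congr (QuotientAddGroup.quotientKerEquivOfSurjective Θ hsurj).toEquiv]
    obtain ⟨eC⟩ := NI_H2C p hC V hV
    have hfinH : Finite (V →* Multiplicative (ZMod (Nat.card V))) :=
      Finite.of_injective (fun χ : V →* Multiplicative (ZMod (Nat.card V)) => (χ : V → _))
        DFunLike.coe_injective
    have hfinZ : Finite (H2 V TrivZ) :=
      Finite.of_surjective _ (NIXi_bijective (P := V)).2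
    rw [← Nat.card_congr (AddEquiv.addMonoidHomCongrRight (M := H2 V TrivZ) eC).toEquiv,
      NI_card_addHom _ _ hcardZ, ← Nat.card_congr (Equiv.ofBijective _ (NIXi_bijective (P := V)))]
    letI : CommGroup V :=
      { (inferInstance : Group V) with
        mul_comm := fun s t => Subtype.ext (hab s s.2 t t.2) }
    exact NI_card_hom _ V (fun g => pow_card_eq_one')
  · intro e he c hc
    have h1 : (⟨c, hc⟩ : inv V C) ∈ (Θ.ker).comap (e • AddMonoidHom.id _) := by
      rw [AddSubgroup.mem_comap, AddMonoidHom.mem_ker]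
      show Θ (e • ⟨c, hc⟩) = 0
      refine AddMonoidHom.ext fun w => ?_
      rw [map_nsmul, AddMonoidHom.nsmul_apply, ← map_nsmul,
        NI_exp_kills e (fun s => Subtype.ext (he s s.2)) w, map_zero]
      rfl
    rw [AddSubgroup.mem_comap, hker, AddSubgroup.mem_addSubgroupOf] at h1
    exact h1

end Fermat.Agent.S55Lib
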