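import Fermat.Agent.S55.RootDefs

/-!
# S55 chapter T: definitions

* `K0 Γ m A`, `K1 Γ m A`, `K2 Γ m A` : the integer `m` kills `Ĥ⁰`, `H¹`, `H²`;
* `IsCoind Γ A` : `A` is (isomorphic to) a module of functions `Γ → V` with right translation;
* `Co G A`, `Up G A` : the standard coinduced module and the dimension shift `Co G A / A`
  (explicit model: functions vanishing at `1` with a twisted action);
* `GSES`, `GSplit` : short exact sequences of `Γ`-modules, additive splittings;
* `subAction`, `quotAction` : actions on stable subgroups and on quotients;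
* `TrivZ` : `ℤ` with trivial action;  `scal ψ c` : `y ↦ ψ y • c`;
* `Aug G`, `Spl u hu` : augmentation module and Tate's splitting module of a 2-cocycle.
-/

set_option autoImplicit false
set_option linter.unusedSectionVars false
set_option linter.unusedVariables false

namespace Fermat.Agent.S55Lib.TN

open groupCohomology

/-! ## predicates -/

section Preds

variable (Γ : Type) [Group Γ] (m : ℕ) (A : Type) [AddCommGroup A] [DistribMulAction Γ A]

/-- `m` kills `Ĥ⁰(Γ,A)` -/
def K0 [Finite Γ] : Prop := ∀ a : A, (∀ g : Γ, g • a = a) → ∃ b : A, m • a = normG Γ A b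
/-- `m` kills `H¹(Γ,A)` -/
def K1 : Prop := ∀ f : Γ → A, IsCocycle₁ f → IsCoboundary₁ (m • f)
/-- `m` kills `H²(Γ,A)` -/
def K2 : Prop := ∀ f : Γ × Γ → A, IsCocycle₂ f → IsCoboundary₂ (m • f)

/-- `A ≅ Fun(Γ,V)` with `Γ` acting by right translation. -/
def IsCoind : Prop :=
  ∃ (V : Type) (_ : AddCommGroup V) (e : A ≃+ (Γ → V)),
    ∀ (γ : Γ) (a : A) (x : Γ), e (γ • a) x = e a (x * γ)

end Preds

lemma normG_apply (G : Type) [Group G] [Fintype G] (A : Type) [AddCommGroup A]
    [DistribMulAction G A] (a : A) : normG G A a = ∑ g : G, g • a := by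
  unfold normG
  rw [AddMonoidHom.finsetSum_apply]
  apply Finset.sum_congr
  · ext; simp
  · intros; rfl

/-! ## short exact sequences -/

section SES

variable (Γ : Type) [Group Γ] {A B C : Type} [AddCommGroup A] [AddCommGroup B] [AddCommGroup C]
  [DistribMulAction Γ A] [DistribMulAction Γ B] [DistribMulAction Γ C]

/-- a short exact sequence `0 → A → B → C → 0` of `Γ`-modules -/
structure GSES (i : A →+ B) (π : B →+ C) : Prop where
  i_smul : ∀ (g : Γ) (a : A), i (g • a) = g • i a
  π_smul : ∀ (g : Γ) (b : B), π (g • b) = g • π b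
  inj : Function.Injective i
  comp : ∀ a, π (i a) = 0
  exact : ∀ b, π b = 0 → ∃ a, i a = b
  surj : Function.Surjective π

/-- an additive splitting `(r,s)` of `0 → A → B → C → 0` -/
structure GSplit (i : A →+ B) (π : B →+ C) (r : B →+ A) (s : C →+ B) : Prop where
  ri : ∀ a, r (i a) = a
  πs : ∀ c, π (s c) = c
  rs : ∀ c, r (s c) = 0
  decomp : ∀ b, i (r b) + s (π b) = b

end SES

/-- restriction of a short exact sequence to a subgroup -/
lemma GSES.restrict {G : Type} [Group G] {A B C : Type} [AddCommGroup A] [AddCommGroup B]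
    [AddCommGroup C] [DistribMulAction G A] [DistribMulAction G B] [DistribMulAction G C]
    {i : A →+ B} {π : B →+ C} (h : GSES G i π) (H : Subgroup G) : GSES H i π where
  i_smul g a := h.i_smul (g : G) a
  π_smul g b := h.π_smul (g : G) b
  inj := h.inj
  comp := h.comp
  exact := h.exact
  surj := h.surj

/-! ## actions on stable subgroups and quotients -/

section SubQuot

variable {Γ : Type} [Group Γ] {M : Type} [AddCommGroup M] [DistribMulAction Γ M]

/-- the action on a stable subgroup -/
@[reducible] def subAction (S : AddSubgroup M) (hS : ∀ (g : Γ), ∀ m ∈ S, g • m ∈ S) :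
    DistribMulAction Γ S where
  smul g a := ⟨g • (a : M), hS g a a.2⟩
  one_smul a := Subtype.ext (one_smul Γ (a : M))
  mul_smul g h a := Subtype.ext (mul_smul g h (a : M))
  smul_zero g := Subtype.ext (smul_zero g)
  smul_add g a b := Subtype.ext (smul_add g (a : M) (b : M))

/-- the action on the quotient by a stable subgroup -/
@[reducible] def quotAction (S : AddSubgroup M) (hS : ∀ (g : Γ), ∀ m ∈ S, g • m ∈ S) :
    DistribMulAction Γ (M ⧸ S) where
  smul g := QuotientAddGroup.map S S (DistribSMul.toAddMonoidHom M g) (fun m hm => hS g m hm)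
  one_smul a := by
    induction a using QuotientAddGroup.induction_on with
    | H a => exact congrArg (QuotientAddGroup.mk' S) (one_smul Γ a)
  mul_smul g h a := by
    induction a using QuotientAddGroup.induction_on with
    | H a => exact congrArg (QuotientAddGroup.mk' S) (mul_smul g h a)
  smul_zero g := map_zero _
  smul_add g a b := map_add _ a b

end SubQuot

/-! ## the coinduced module `Co G A` -/

/-- functions `G → A`, with `G` acting by right translation -/
structure Co (G : Type) (A : Type) : Type where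
  /-- build an element of `Co G A` -/
  of ::
  /-- the underlying function -/
  fn : G → A

namespace Co

variable {G : Type} {A B : Type} [AddCommGroup A] [AddCommGroup B]

instance : FunLike (Co G A) G A where
  coe f := f.fn
  coe_injective := fun f f' h => by cases f; cases f'; congr

/-- `Co G A ≃ (G → A)` -/
def equivPi : Co G A ≃ (G → A) where
  toFun f := f.fn
  invFun f := of f
  left_inv _ := rfl
  right_inv _ := rfl

instance : AddCommGroup (Co G A) := equivPi.addCommGroup

@[ext] lemma ext {f f' : Co G A} (h : ∀ x, f x = f' x) : f = f' := DFunLike.ext _ _ h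

@[simp] lemma of_apply (f : G → A) (x : G) : (of f : Co G A) x = f x := rfl
@[simp] lemma add_apply (f f' : Co G A) (x : G) : (f + f') x = f x + f' x := rfl
@[simp] lemma sub_apply (f f' : Co G A) (x : G) : (f - f') x = f x - f' x := rfl
@[simp] lemma neg_apply (f : Co G A) (x : G) : (-f) x = -f x := rfl
@[simp] lemma zero_apply (x : G) : (0 : Co G A) x = 0 := rfl
@[simp] lemma nsmul_apply (n : ℕ) (f : Co G A) (x : G) : (n • f) x = n • f x := rfl
@[simp] lemma zsmul_apply (n : ℤ) (f : Co G A) (x : G) : (n • f) x = n • f x := rfl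

/-- the identity `Co G A ≃+ (G → A)` -/
def toPi : Co G A ≃+ (G → A) := { equivPi with map_add' := fun _ _ => rfl }

@[simp] lemma toPi_apply (f : Co G A) (x : G) : toPi f x = f x := rfl
@[simp] lemma toPi_symm_apply (f : G → A) (x : G) : (toPi.symm f : Co G A) x = f x := rfl

/-- evaluation at a point -/
def evAt (x : G) : Co G A →+ A where
  toFun f := f x
  map_zero' := rfl
  map_add' _ _ := rfl

@[simp] lemma evAt_apply (x : G) (f : Co G A) : evAt x f = f x := rfl

/-- post-composition -/
def map (T : A →+ B) : Co G A →+ Co G B where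
  toFun f := of fun x => T (f x)
  map_zero' := by ext x; exact map_zero T
  map_add' f f' := by ext x; exact map_add T _ _

@[simp] lemma map_apply (T : A →+ B) (f : Co G A) (x : G) : map T f x = T (f x) := rfl

/-- the sum of all values -/
noncomputable def tot [Finite G] : Co G A →+ A :=
  haveI := Fintype.ofFinite G
  ∑ x : G, evAt x

lemma tot_apply [Fintype G] (f : Co G A) : tot f = ∑ x : G, f x := by
  unfold tot
  rw [AddMonoidHom.finsetSum_apply]
  apply Finset.sum_congr
  · ext; simp
  · intros; rfl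

variable [Group G]

instance : DistribMulAction G (Co G A) where
  smul γ f := of fun x => f (x * γ)
  one_smul f := by
    ext x
    show f (x * 1) = f x
    rw [mul_one]
  mul_smul γ δ f := by
    ext x
    show f (x * (γ * δ)) = f (x * γ * δ)
    rw [mul_assoc]
  smul_zero γ := rfl
  smul_add γ f f' := rfl

@[simp] lemma smul_apply (γ : G) (f : Co G A) (x : G) : (γ • f) x = f (x * γ) := rfl

lemma map_smul (T : A →+ B) (γ : G) (f : Co G A) : map T (γ • f) = γ • map T f := rfl

/-- evaluation at `1` -/
def ev : Co G A →+ A := evAt 1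

@[simp] lemma ev_apply (f : Co G A) : ev f = f 1 := rfl

variable [DistribMulAction G A]

/-- the diagonal embedding `a ↦ (x ↦ x • a)` -/
def ι : A →+ Co G A where
  toFun a := of fun x => x • a
  map_zero' := by ext x; exact smul_zero x
  map_add' a b := by ext x; exact smul_add x a b

@[simp] lemma ι_apply (a : A) (x : G) : (ι a : Co G A) x = x • a := rfl

lemma ι_smul (γ : G) (a : A) : (ι (γ • a) : Co G A) = γ • ι a := by
  ext x
  simp [mul_smul]

/-- the "trace" `f ↦ ∑ x, x⁻¹ • f x` -/
noncomputable def eps [Finite G] : Co G A →+ A :=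
  haveI := Fintype.ofFinite G
  ∑ x : G, (DistribSMul.toAddMonoidHom A x⁻¹).comp (evAt x)

lemma eps_apply [Fintype G] (f : Co G A) : eps f = ∑ x : G, x⁻¹ • f x := by
  unfold eps
  rw [AddMonoidHom.finsetSum_apply]
  apply Finset.sum_congr
  · ext; simp
  · intros; rfl

end Co

lemma isCoind_Co (G : Type) [Group G] (A : Type) [AddCommGroup A] : IsCoind G (Co G A) :=
  ⟨A, inferInstance, Co.toPi, fun _ _ _ => rfl⟩

/-! ## the shift `Up G A = Co G A / A` -/

/-- functions vanishing at `1` -/
def UpS (G : Type) [Group G] (A : Type) [AddCommGroup A] : AddSubgroup (Co G A) where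
  carrier := {f | f 1 = 0}
  zero_mem' := rfl
  add_mem' := fun {a b} ha hb => by
    show a 1 + b 1 = 0
    rw [ha, hb, add_zero]
  neg_mem' := fun {a} ha => by
    show -a 1 = 0
    rw [ha, neg_zero]

/-- `Up G A ≅ Co G A / A`: functions `E` vanishing at `1`, with
`(γ • E) x = E (x * γ) - x • E γ`. -/
abbrev Up (G : Type) [Group G] (A : Type) [AddCommGroup A] : Type := ↥(UpS G A)

namespace Up

variable {G : Type} [Group G] {A : Type} [AddCommGroup A]

instance : FunLike (Up G A) G A where
  coe f := (f : Co G A)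
  coe_injective := fun _ _ h => Subtype.ext (DFunLike.coe_injective h)

@[ext] lemma ext {f f' : Up G A} (h : ∀ x, f x = f' x) : f = f' := DFunLike.ext _ _ h

@[simp] lemma apply_one (f : Up G A) : f 1 = 0 := f.2
@[simp] lemma coe_apply (f : Up G A) (x : G) : (f : Co G A) x = f x := rfl
@[simp] lemma mk_apply (f : Co G A) (hf : f ∈ UpS G A) (x : G) : (⟨f, hf⟩ : Up G A) x = f x := rfl
@[simp] lemma add_apply (f f' : Up G A) (x : G) : (f + f') x = f x + f' x := rfl
@[simp] lemma sub_apply (f f' : Up G A) (x : G) : (f - f') x = f x - f' x := rfl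
@[simp] lemma neg_apply (f : Up G A) (x : G) : (-f) x = -f x := rfl
@[simp] lemma zero_apply (x : G) : (0 : Up G A) x = 0 := rfl
@[simp] lemma nsmul_apply (n : ℕ) (f : Up G A) (x : G) : (n • f) x = n • f x := rfl
@[simp] lemma zsmul_apply (n : ℤ) (f : Up G A) (x : G) : (n • f) x = n • f x := rfl

/-- the additive section `Up G A → Co G A` (inclusion) -/
def σ : Up G A →+ Co G A := (UpS G A).subtype

@[simp] lemma σ_apply (f : Up G A) (x : G) : σ f x = f x := rfl

variable [DistribMulAction G A]

instance : DistribMulAction G (Up G A) where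
  smul γ E := ⟨Co.of fun x => E (x * γ) - x • E γ, by
    show E (1 * γ) - (1 : G) • E γ = 0
    simp⟩
  one_smul E := by
    ext x
    show E (x * 1) - x • E 1 = E x
    simp
  mul_smul γ δ E := by
    ext x
    show E (x * (γ * δ)) - x • E (γ * δ) = (E (x * γ * δ) - (x * γ) • E δ) - x • (E (γ * δ) - γ • E δ)
    rw [smul_sub, mul_smul, mul_assoc]
    abel
  smul_zero γ := by
    ext x
    show (0 : A) - x • (0 : A) = 0
    simp
  smul_add γ E E' := by
    ext x
    show (E (x * γ) + E' (x * γ)) - x • (E γ + E' γ) = (E (x * γ) - x • E γ) + (E' (x * γ) - x • E' γ)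
    rw [smul_add]
    abel

@[simp] lemma smul_apply (γ : G) (E : Up G A) (x : G) : (γ • E) x = E (x * γ) - x • E γ := rfl

/-- the projection `Co G A → Up G A`, `F ↦ (x ↦ F x - x • F 1)` -/
def π : Co G A →+ Up G A where
  toFun F := ⟨Co.of fun x => F x - x • F 1, by
    show F 1 - (1 : G) • F 1 = 0
    simp⟩
  map_zero' := by
    ext x
    show (0 : A) - x • (0 : A) = 0
    simp
  map_add' F F' := by
    ext x
    show (F x + F' x) - x • (F 1 + F' 1) = (F x - x • F 1) + (F' x - x • F' 1)
    rw [smul_add]
    abel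

@[simp] lemma π_apply (F : Co G A) (x : G) : π F x = F x - x • F 1 := rfl

lemma gses : GSES G (Co.ι : A →+ Co G A) (π : Co G A →+ Up G A) where
  i_smul := Co.ι_smul
  π_smul g F := by
    ext x
    simp [mul_smul, smul_sub]
  inj a b h := by
    have := congrArg (fun F : Co G A => F 1) h
    simpa using this
  comp a := by
    ext x
    simp
  exact F hF := ⟨F 1, by
    ext x
    have := congrArg (fun E : Up G A => E x) hF
    simp only [π_apply, zero_apply] at this
    simp only [Co.ι_apply]
    exact (sub_eq_zero.1 this).symm⟩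
  surj E := ⟨σ E, by
    ext x
    simp⟩

lemma gsplit : GSplit (Co.ι : A →+ Co G A) (π : Co G A →+ Up G A) Co.ev σ where
  ri a := by simp
  πs E := by
    ext x
    simp
  rs E := by simp
  decomp F := by
    ext x
    simp

end Up

/-! ## `ℤ` with trivial action, scalar homs -/

/-- `ℤ` with the trivial action of every group -/
def TrivZ : Type := ℤ

instance : AddCommGroup TrivZ := inferInstanceAs (AddCommGroup ℤ)
instance : Module.Free ℤ TrivZ := inferInstanceAs (Module.Free ℤ ℤ)
instance : Module.Finite ℤ TrivZ := inferInstanceAs (Module.Finite ℤ ℤ)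

instance (G : Type) [Group G] : DistribMulAction G TrivZ where
  smul _ z := z
  one_smul _ := rfl
  mul_smul _ _ _ := rfl
  smul_zero _ := rfl
  smul_add _ _ _ := rfl

@[simp] lemma TrivZ.smul_eq {G : Type} [Group G] (g : G) (z : TrivZ) : g • z = z := rfl

/-- the identity `TrivZ ≃+ ℤ` -/
def TrivZ.toInt : TrivZ ≃+ ℤ := AddEquiv.refl ℤ

/-- `y ↦ ψ y • c` -/
def scal (G : Type) {Y C : Type} [AddCommGroup Y] [AddCommGroup C] (ψ : Y →+ ℤ) (c : C) :
    HomM G Y C :=
  HomM.of (((smulAddHom ℤ C).flip c).comp ψ)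

@[simp] lemma scal_apply (G : Type) {Y C : Type} [AddCommGroup Y] [AddCommGroup C] (ψ : Y →+ ℤ)
    (c : C) (y : Y) : scal G ψ c y = ψ y • c := rfl

/-! ## augmentation module and splitting module -/

section Splitting

variable (G : Type) [Group G] [Finite G]

/-- `Aug G = ker (Co G ℤ → ℤ)` -/
noncomputable def AugS : AddSubgroup (Co G ℤ) := (Co.tot : Co G ℤ →+ ℤ).ker

lemma smul_mem_AugS (g : G) (x : Co G ℤ) (hx : x ∈ AugS G) : g • x ∈ AugS G := by
  cases nonempty_fintype G
  have h : ∑ z : G, x z = 0 := by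
    have := (AddMonoidHom.mem_ker).1 hx
    rwa [Co.tot_apply] at this
  refine (AddMonoidHom.mem_ker).2 ?_
  rw [Co.tot_apply, ← h]
  exact Fintype.sum_equiv (Equiv.mulRight g) _ _ (fun z => rfl)

/-- the augmentation module -/
abbrev Aug : Type := ↥(AugS G)

noncomputable instance : DistribMulAction G (Aug G) := subAction (AugS G) (smul_mem_AugS G)

variable {G}

@[simp] lemma Aug.coe_smul (g : G) (x : Aug G) : ((g • x : Aug G) : Co G ℤ) = g • (x : Co G ℤ) := rfl

lemma Aug.sum_eq_zero [Fintype G] (x : Aug G) : ∑ z : G, (x : Co G ℤ) z = 0 := by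
  have := (AddMonoidHom.mem_ker).1 x.2
  rwa [Co.tot_apply] at this

variable {C : Type} [AddCommGroup C] [DistribMulAction G C]

/-- the twisting map `x ↦ ∑ z, x z • u (γ, z⁻¹)` -/
noncomputable def tw (u : G × G → C) (γ : G) : Co G ℤ →+ C :=
  haveI := Fintype.ofFinite G
  ∑ z : G, ((smulAddHom ℤ C).flip (u (γ, z⁻¹))).comp (Co.evAt z)

lemma tw_apply [Fintype G] (u : G × G → C) (γ : G) (x : Co G ℤ) :
    tw u γ x = ∑ z : G, x z • u (γ, z⁻¹) := by
  unfold tw
  rw [AddMonoidHom.finsetSum_apply]
  apply Finset.sum_congr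
  · ext; simp
  · intros; rfl

lemma tw_one {u : G × G → C} (hu : IsCocycle₂ u) (x : Aug G) : tw u 1 (x : Co G ℤ) = 0 := by
  cases nonempty_fintype G
  rw [tw_apply]
  have : ∀ z : G, (x : Co G ℤ) z • u (1, z⁻¹) = (x : Co G ℤ) z • u (1, 1) := fun z => by
    rw [map_one_fst_of_isCocycle₂ hu]
  rw [Finset.sum_congr rfl (fun z _ => this z), ← Finset.sum_smul, Aug.sum_eq_zero, zero_smul]

lemma tw_mul {u : G × G → C} (hu : IsCocycle₂ u) (γ δ : G) (x : Aug G) :
    tw u (γ * δ) (x : Co G ℤ) = γ • tw u δ (x : Co G ℤ) + tw u γ (δ • (x : Co G ℤ)) := by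
  cases nonempty_fintype G
  simp only [tw_apply, Finset.smul_sum]
  have h2 : ∑ w : G, (δ • (x : Co G ℤ)) w • u (γ, w⁻¹)
      = ∑ z : G, (x : Co G ℤ) z • u (γ, δ * z⁻¹) := by
    refine Fintype.sum_equiv (Equiv.mulRight δ) _ _ (fun w => ?_)
    simp
  rw [h2, ← Finset.sum_add_distrib]
  have h3 : ∀ z : G, γ • (x : Co G ℤ) z • u (δ, z⁻¹) + (x : Co G ℤ) z • u (γ, δ * z⁻¹)
      = (x : Co G ℤ) z • u (γ * δ, z⁻¹) + (x : Co G ℤ) z • u (γ, δ) := fun z => by
    rw [smul_comm γ, ← smul_add, ← smul_add, hu γ δ z⁻¹]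
  rw [Finset.sum_congr rfl (fun z _ => h3 z), Finset.sum_add_distrib, ← Finset.sum_smul (M := C),
    Aug.sum_eq_zero, zero_smul, add_zero]

/-- Tate's splitting module of the 2-cocycle `u`: `C × Aug G` with the action
`γ • (c, x) = (γ • c + tw u γ x, γ • x)`. -/
@[nolint unusedArguments]
def Spl (u : G × G → C) (_hu : IsCocycle₂ u) : Type := C × Aug G

namespace Spl

variable {u : G × G → C} {hu : IsCocycle₂ u}

noncomputable instance : AddCommGroup (Spl u hu) := inferInstanceAs (AddCommGroup (C × Aug G))

/-- first projection (additive only) -/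
noncomputable def fst : Spl u hu →+ C := AddMonoidHom.fst C (Aug G)
/-- second projection (equivariant) -/
noncomputable def snd : Spl u hu →+ Aug G := AddMonoidHom.snd C (Aug G)
/-- inclusion of `C` (equivariant) -/
noncomputable def inl : C →+ Spl u hu := AddMonoidHom.inl C (Aug G)
/-- inclusion of `Aug G` (additive only) -/
noncomputable def inr : Aug G →+ Spl u hu := AddMonoidHom.inr C (Aug G)
/-- constructor -/
def mk (c : C) (x : Aug G) : Spl u hu := (c, x)

@[ext] lemma ext {w w' : Spl u hu} (h1 : fst w = fst w') (h2 : snd w = snd w') : w = w' :=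
  Prod.ext h1 h2

@[simp] lemma fst_mk (c : C) (x : Aug G) : fst (mk c x : Spl u hu) = c := rfl
@[simp] lemma snd_mk (c : C) (x : Aug G) : snd (mk c x : Spl u hu) = x := rfl
@[simp] lemma fst_inl (c : C) : fst (inl c : Spl u hu) = c := rfl
@[simp] lemma snd_inl (c : C) : snd (inl c : Spl u hu) = 0 := rfl
@[simp] lemma fst_inr (x : Aug G) : fst (inr x : Spl u hu) = 0 := rfl
@[simp] lemma snd_inr (x : Aug G) : snd (inr x : Spl u hu) = x := rfl

noncomputable instance : DistribMulAction G (Spl u hu) where
  smul γ w := mk (γ • fst w + tw u γ (snd w : Co G ℤ)) (γ • snd w)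
  one_smul w := by
    apply ext
    · show (1 : G) • fst w + tw u 1 (snd w : Co G ℤ) = fst w
      rw [tw_one hu, one_smul, add_zero]
    · show (1 : G) • snd w = snd w
      rw [one_smul]
  mul_smul γ δ w := by
    apply ext
    · show (γ * δ) • fst w + tw u (γ * δ) (snd w : Co G ℤ)
        = γ • (δ • fst w + tw u δ (snd w : Co G ℤ)) + tw u γ (δ • (snd w : Co G ℤ))
      rw [tw_mul hu, smul_add, mul_smul, add_assoc]
    · show (γ * δ) • snd w = γ • δ • snd w
      rw [mul_smul]
  smul_zero γ := by
    apply ext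
    · show γ • (0 : C) + tw u γ ((0 : Aug G) : Co G ℤ) = 0
      simp
    · show γ • (0 : Aug G) = 0
      rw [smul_zero]
  smul_add γ w w' := by
    apply ext
    · show γ • (fst w + fst w') + tw u γ ((snd w + snd w' : Aug G) : Co G ℤ)
        = (γ • fst w + tw u γ (snd w : Co G ℤ)) + (γ • fst w' + tw u γ (snd w' : Co G ℤ))
      rw [smul_add, AddSubgroup.coe_add, map_add]
      abel
    · show γ • (snd w + snd w') = γ • snd w + γ • snd w'
      rw [smul_add]

@[simp] lemma fst_smul (γ : G) (w : Spl u hu) :
    fst (γ • w) = γ • fst w + tw u γ (snd w : Co G ℤ) := rfl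
@[simp] lemma snd_smul (γ : G) (w : Spl u hu) : snd (γ • w) = γ • snd w := rfl

lemma gses : GSES G (inl : C →+ Spl u hu) (snd : Spl u hu →+ Aug G) where
  i_smul g c := by
    apply ext <;> simp
  π_smul g w := rfl
  inj a b h := by
    have := congrArg fst h
    simpa using this
  comp a := rfl
  exact w hw := ⟨fst w, by
    apply ext
    · simp
    · simp [hw]⟩
  surj x := ⟨inr x, rfl⟩

lemma gsplit : GSplit (inl : C →+ Spl u hu) (snd : Spl u hu →+ Aug G) fst inr where
  ri a := rfl
  πs c := rfl
  rs c := rfl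
  decomp w := by
    apply ext <;> simp

end Spl

end Splitting

end Fermat.Agent.S55Lib.TN
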