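import Fermat.Agent.S55.T.Basic

/-! # S55 chapter T: generators of `Aug G`, the cochain `β` of the splitting module -/

set_option autoImplicit false

namespace Fermat.Agent.S55Lib.TN

open groupCohomology

section

variable {G : Type} {A : Type} [AddCommGroup A]

open Classical in
/-- the function supported at `z` with value `a` -/
noncomputable def Co.single (z : G) (a : A) : Co G A := Co.of (Pi.single z a)

open Classical in
lemma Co.single_apply (z : G) (a : A) (x : G) : Co.single z a x = if x = z then a else 0 := by
  simp [Co.single, Pi.single_apply]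

@[simp] lemma Co.single_self (z : G) (a : A) : Co.single z a z = a := by
  simp [Co.single_apply]

lemma Co.single_ne (z : G) (a : A) {x : G} (h : x ≠ z) : Co.single z a x = 0 := by
  simp [Co.single_apply, h]

lemma Co.smul_single [Group G] (g z : G) (a : A) :
    g • Co.single z a = Co.single (z * g⁻¹) a := by
  ext x
  rw [Co.smul_apply, Co.single_apply, Co.single_apply]
  by_cases h : x * g = z
  · rw [if_pos h, if_pos (eq_mul_inv_iff_mul_eq.2 h)]
  · rw [if_neg h, if_neg (fun h' => h (eq_mul_inv_iff_mul_eq.1 h'))]

lemma Co.tot_single [Finite G] (z : G) (a : A) : Co.tot (Co.single z a) = a := by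
  classical
  cases nonempty_fintype G
  rw [Co.tot_apply]
  simp [Co.single_apply]

end

variable {G : Type} [Group G] [Finite G]

/-- `[g] - [1]` (in `Co`-coordinates `[g] = δ_{g⁻¹}`) -/
noncomputable def augGen (g : G) : Aug G :=
  ⟨Co.single g⁻¹ 1 - Co.single 1 1, by
    refine (AddMonoidHom.mem_ker).2 ?_
    rw [map_sub, Co.tot_single, Co.tot_single, sub_self]⟩

@[simp] lemma coe_augGen (g : G) :
    (augGen g : Co G ℤ) = Co.single g⁻¹ 1 - Co.single 1 1 := rfl

lemma smul_augGen (g h : G) : g • augGen h = augGen (g * h) - augGen g := by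
  apply Subtype.ext
  simp only [Aug.coe_smul, coe_augGen, smul_sub, Co.smul_single, AddSubgroup.coe_sub, mul_inv_rev,
    one_mul]
  abel

variable {C : Type} [AddCommGroup C] [DistribMulAction G C]

lemma tw_single (u : G × G → C) (g z : G) (n : ℤ) : tw u g (Co.single z n) = n • u (g, z⁻¹) := by
  classical
  cases nonempty_fintype G
  rw [tw_apply]
  simp [Co.single_apply]

lemma tw_augGen (u : G × G → C) (g h : G) :
    tw u g (augGen h : Co G ℤ) = u (g, h) - u (g, 1) := by
  simp [tw_single]

variable {u : G × G → C} {hu : IsCocycle₂ u}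

/-- the 1-cochain of `Spl u hu` with coboundary `u` -/
noncomputable def Spl.beta (g : G) : Spl u hu := Spl.mk (u (1, 1)) (augGen g)

lemma Spl.d_beta (g h : G) :
    g • (Spl.beta h : Spl u hu) - Spl.beta (g * h) + Spl.beta g = Spl.inl (u (g, h)) := by
  apply Spl.ext
  · rw [map_add, map_sub, Spl.fst_smul]
    simp only [Spl.beta, Spl.fst_mk, Spl.snd_mk, tw_augGen, Spl.fst_inl]
    rw [map_one_snd_of_isCocycle₂ hu g]
    abel
  · rw [map_add, map_sub, Spl.snd_smul]
    simp only [Spl.beta, Spl.snd_mk, smul_augGen, Spl.snd_inl]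
    abel

end Fermat.Agent.S55Lib.TN
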